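import Mathlib
import Fermat.Prelude.Def_GaloisRep_Adic

/-!
# Matrices of Galois representations in bases

Bridge between the module-theoretic `GaloisRepAdic` / `ResidualGaloisRep` of the prelude and
`2 × 2` matrix-valued homomorphisms.
-/

set_option autoImplicit false

namespace Fermat.Agent.Lib.S53

open IsLocalRing TensorProduct Module

local notation "Γℚ" => (AlgebraicClosure ℚ ≃ₐ[ℚ] AlgebraicClosure ℚ)

section MatOf

variable {A : Type} [CommRing A] [IsLocalRing A]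

/-- The matrix of a `GaloisRepAdic` in a basis, as a monoid homomorphism. -/
noncomputable def matOf (ρ : GaloisRepAdic A) (b : Basis (Fin 2) A ρ.V) :
    Γℚ →* Matrix (Fin 2) (Fin 2) A :=
  ((LinearMap.toMatrixAlgEquiv b : Module.End A ρ.V ≃ₐ[A] Matrix (Fin 2) (Fin 2) A) :
    Module.End A ρ.V →* Matrix (Fin 2) (Fin 2) A).comp ρ.ρ

theorem matOf_apply (ρ : GaloisRepAdic A) (b : Basis (Fin 2) A ρ.V) (σ : Γℚ) :
    matOf ρ b σ = LinearMap.toMatrix b b (ρ.ρ σ) := rfl

/-- Two representations having the same matrices in some bases are equivalent. -/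
theorem isEquiv_of_matOf_eq {ρ₁ ρ₂ : GaloisRepAdic A} (b₁ : Basis (Fin 2) A ρ₁.V)
    (b₂ : Basis (Fin 2) A ρ₂.V) (h : ∀ σ, matOf ρ₁ b₁ σ = matOf ρ₂ b₂ σ) : ρ₁.IsEquiv ρ₂ := by
  refine ⟨⟨b₁.equiv b₂ (Equiv.refl _), fun σ x => ?_⟩⟩
  apply b₂.repr.injective
  ext i
  have h1 : b₂.repr ((b₁.equiv b₂ (Equiv.refl _)) (ρ₁.ρ σ x)) i = b₁.repr (ρ₁.ρ σ x) i := by
    simp [Basis.equiv]
  have h2 : ∀ y, b₂.repr ((b₁.equiv b₂ (Equiv.refl _)) y) = b₁.repr y := by
    intro y; ext j; simp [Basis.equiv]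
  rw [h1]
  have e1 := LinearMap.toMatrix_mulVec_repr b₁ b₁ (ρ₁.ρ σ) x
  have e2 := LinearMap.toMatrix_mulVec_repr b₂ b₂ (ρ₂.ρ σ) ((b₁.equiv b₂ (Equiv.refl _)) x)
  have e1' := congrFun e1 i
  have e2' := congrFun e2 i
  rw [← e1', ← e2', h2 x]
  have := h σ
  rw [matOf_apply, matOf_apply] at this
  rw [this]

/-- Transport a basis along an equivalence of representations. -/
theorem exists_basis_of_isEquiv {ρ₁ ρ₂ : GaloisRepAdic A} (h : ρ₁.IsEquiv ρ₂)
    (b₁ : Basis (Fin 2) A ρ₁.V) :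
    ∃ b₂ : Basis (Fin 2) A ρ₂.V, ∀ σ, matOf ρ₂ b₂ σ = matOf ρ₁ b₁ σ := by
  obtain ⟨e⟩ := h
  refine ⟨b₁.map e.toLinearEquiv, fun σ => ?_⟩
  rw [matOf_apply, matOf_apply]
  ext i j
  rw [LinearMap.toMatrix_apply, LinearMap.toMatrix_apply]
  simp only [Basis.map_apply, Basis.map_repr, LinearEquiv.trans_apply]
  rw [← e.map_apply, LinearEquiv.symm_apply_apply]

end MatOf

end Fermat.Agent.Lib.S53

namespace Fermat.Agent.Lib.S53

open IsLocalRing TensorProduct Module

local notation "Γℚ" => (AlgebraicClosure ℚ ≃ₐ[ℚ] AlgebraicClosure ℚ)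

section ChangeOfBasis

variable {A : Type} [CommRing A] [IsLocalRing A]

/-- Conjugation of a matrix-valued homomorphism by an invertible matrix (given with its inverse). -/
def conjHom {G : Type*} [Monoid G] {R : Type*} [CommRing R]
    (c d : Matrix (Fin 2) (Fin 2) R) (hcd : c * d = 1) (hdc : d * c = 1)
    (r : G →* Matrix (Fin 2) (Fin 2) R) : G →* Matrix (Fin 2) (Fin 2) R where
  toFun g := c * r g * d
  map_one' := by rw [map_one, Matrix.mul_one, hcd]
  map_mul' g h := by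
    rw [map_mul]
    calc c * (r g * r h) * d = c * r g * (1 : Matrix (Fin 2) (Fin 2) R) * r h * d := by
          simp only [Matrix.mul_one, Matrix.mul_assoc]
      _ = c * r g * d * (c * r h * d) := by rw [← hdc]; simp only [Matrix.mul_assoc]

@[simp] theorem conjHom_apply {G : Type*} [Monoid G] {R : Type*} [CommRing R]
    (c d : Matrix (Fin 2) (Fin 2) R) (hcd : c * d = 1) (hdc : d * c = 1)
    (r : G →* Matrix (Fin 2) (Fin 2) R) (g : G) : conjHom c d hcd hdc r g = c * r g * d := rfl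

/-- Change of basis by an invertible matrix. -/
theorem exists_basis_conj (ρ : GaloisRepAdic A) (b : Basis (Fin 2) A ρ.V)
    (c d : Matrix (Fin 2) (Fin 2) A) (hcd : c * d = 1) (hdc : d * c = 1) :
    ∃ b' : Basis (Fin 2) A ρ.V, ∀ σ, matOf ρ b' σ = c * matOf ρ b σ * d := by
  -- the new basis is the image of `b` under the automorphism with matrix `d`
  let e : ρ.V ≃ₗ[A] ρ.V :=
    LinearEquiv.ofLinearMap (Matrix.toLin b b d) (Matrix.toLin b b c)
      (by rw [← Matrix.toLin_mul b b b, hdc, Matrix.toLin_one])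
      (by rw [← Matrix.toLin_mul b b b, hcd, Matrix.toLin_one])
  refine ⟨b.map e, fun σ => ?_⟩
  rw [matOf_apply, matOf_apply]
  have h1 : LinearMap.toMatrix (b.map e) (b.map e) (ρ.ρ σ)
      = LinearMap.toMatrix b b (e.symm.toLinearMap ∘ₗ ρ.ρ σ ∘ₗ e.toLinearMap) := by
    ext i j
    rw [LinearMap.toMatrix_apply, LinearMap.toMatrix_apply]
    simp [Basis.map_apply, Basis.map_repr]
  rw [h1, LinearMap.toMatrix_comp b b b, LinearMap.toMatrix_comp b b b]
  have h2 : LinearMap.toMatrix b b e.toLinearMap = d := by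
    show LinearMap.toMatrix b b (Matrix.toLin b b d) = d
    exact LinearMap.toMatrix_toLin b b d
  have h3 : LinearMap.toMatrix b b e.symm.toLinearMap = c := by
    show LinearMap.toMatrix b b (Matrix.toLin b b c) = c
    exact LinearMap.toMatrix_toLin b b c
  rw [h2, h3, Matrix.mul_assoc]

/-- Two bases of the same representation give conjugate matrices. -/
theorem exists_conj_of_bases (ρ : GaloisRepAdic A) (b b' : Basis (Fin 2) A ρ.V) :
    ∃ c d : Matrix (Fin 2) (Fin 2) A, c * d = 1 ∧ d * c = 1 ∧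
      ∀ σ, matOf ρ b' σ = c * matOf ρ b σ * d := by
  refine ⟨b'.toMatrix b, b.toMatrix b', Basis.toMatrix_mul_toMatrix_flip b' b,
    Basis.toMatrix_mul_toMatrix_flip b b', fun σ => ?_⟩
  rw [matOf_apply, matOf_apply]
  exact (basis_toMatrix_mul_linearMap_toMatrix_mul_basis_toMatrix b' b b' b (ρ.ρ σ)).symm

end ChangeOfBasis

end Fermat.Agent.Lib.S53

namespace Fermat.Agent.Lib.S53

open IsLocalRing TensorProduct Module

local notation "Γℚ" => (AlgebraicClosure ℚ ≃ₐ[ℚ] AlgebraicClosure ℚ)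

section BaseChange

variable {A : Type} [CommRing A] [IsLocalRing A]

/-- Apply a ring homomorphism entrywise to a matrix-valued homomorphism. -/
def mapHom {G : Type*} [Monoid G] {R S : Type*} [CommRing R] [CommRing S] (φ : R →+* S)
    (r : G →* Matrix (Fin 2) (Fin 2) R) : G →* Matrix (Fin 2) (Fin 2) S :=
  ((φ.mapMatrix (m := Fin 2)).toMonoidHom).comp r

@[simp] theorem mapHom_apply {G : Type*} [Monoid G] {R S : Type*} [CommRing R] [CommRing S]
    (φ : R →+* S) (r : G →* Matrix (Fin 2) (Fin 2) R) (g : G) :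
    mapHom φ r g = (r g).map φ := rfl

theorem mapHom_comp {G : Type*} [Monoid G] {R S T : Type*} [CommRing R] [CommRing S] [CommRing T]
    (φ : R →+* S) (ψ : S →+* T) (r : G →* Matrix (Fin 2) (Fin 2) R) :
    mapHom ψ (mapHom φ r) = mapHom (ψ.comp φ) r := by
  ext g i j; simp

/-- Matrices of a base change. -/
theorem exists_basis_baseChangeAlong {B : Type} [CommRing B] [IsLocalRing B]
    (ρ : GaloisRepAdic A) (b : Basis (Fin 2) A ρ.V) (φ : A →+* B) (hφ : IsLocalHom φ) :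
    ∃ b' : Basis (Fin 2) B (ρ.baseChangeAlong φ hφ).V,
      ∀ σ, matOf (ρ.baseChangeAlong φ hφ) b' σ = (matOf ρ b σ).map φ := by
  letI : Algebra A B := φ.toAlgebra
  exact ⟨Algebra.TensorProduct.basis B b, fun σ => LinearMap.toMatrix_baseChange B (ρ.ρ σ) b b⟩

/-- Matrices of the residual representation. -/
theorem exists_basis_residual (ρ : GaloisRepAdic A) (b : Basis (Fin 2) A ρ.V) :
    ∃ b' : Basis (Fin 2) (ResidueField A) ρ.residual.V,
      ∀ σ, LinearMap.toMatrix b' b' (ρ.residual.ρ σ) = (matOf ρ b σ).map (residue A) := by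
  exact ⟨Algebra.TensorProduct.basis (ResidueField A) b,
    fun σ => LinearMap.toMatrix_baseChange (ResidueField A) (ρ.ρ σ) b b⟩

end BaseChange

end Fermat.Agent.Lib.S53

namespace Fermat.Agent.Lib.S53

open IsLocalRing TensorProduct Module

local notation "Γℚ" => (AlgebraicClosure ℚ ≃ₐ[ℚ] AlgebraicClosure ℚ)

section Residual

variable {k : Type} [Field k]

/-- The matrix of a `ResidualGaloisRep` in a basis, as a monoid homomorphism. -/
noncomputable def matOfRes (ρ : ResidualGaloisRep k) (b : Basis (Fin 2) k ρ.V) :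
    Γℚ →* Matrix (Fin 2) (Fin 2) k :=
  ((LinearMap.toMatrixAlgEquiv b : Module.End k ρ.V ≃ₐ[k] Matrix (Fin 2) (Fin 2) k) :
    Module.End k ρ.V →* Matrix (Fin 2) (Fin 2) k).comp ρ.ρ

theorem matOfRes_apply (ρ : ResidualGaloisRep k) (b : Basis (Fin 2) k ρ.V) (σ : Γℚ) :
    matOfRes ρ b σ = LinearMap.toMatrix b b (ρ.ρ σ) := rfl

/-- A basis of a residual representation (which has dimension two). -/
noncomputable def ResidualGaloisRep.someBasis (ρ : ResidualGaloisRep k) : Basis (Fin 2) k ρ.V :=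
  Module.finBasisOfFinrankEq k ρ.V ρ.finrank_eq

theorem isEquiv_of_matOfRes_eq {ρ₁ ρ₂ : ResidualGaloisRep k} (b₁ : Basis (Fin 2) k ρ₁.V)
    (b₂ : Basis (Fin 2) k ρ₂.V) (h : ∀ σ, matOfRes ρ₁ b₁ σ = matOfRes ρ₂ b₂ σ) :
    ρ₁.IsEquiv ρ₂ := by
  refine ⟨⟨b₁.equiv b₂ (Equiv.refl _), fun σ x => ?_⟩⟩
  apply b₂.repr.injective
  ext i
  have h1 : b₂.repr ((b₁.equiv b₂ (Equiv.refl _)) (ρ₁.ρ σ x)) i = b₁.repr (ρ₁.ρ σ x) i := by
    simp [Basis.equiv]
  have h2 : ∀ y, b₂.repr ((b₁.equiv b₂ (Equiv.refl _)) y) = b₁.repr y := by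
    intro y; ext j; simp [Basis.equiv]
  rw [h1]
  have e1 := LinearMap.toMatrix_mulVec_repr b₁ b₁ (ρ₁.ρ σ) x
  have e2 := LinearMap.toMatrix_mulVec_repr b₂ b₂ (ρ₂.ρ σ) ((b₁.equiv b₂ (Equiv.refl _)) x)
  have e1' := congrFun e1 i
  have e2' := congrFun e2 i
  rw [← e1', ← e2', h2 x]
  have := h σ
  rw [matOfRes_apply, matOfRes_apply] at this
  rw [this]

theorem exists_basis_of_isEquiv_res {ρ₁ ρ₂ : ResidualGaloisRep k} (h : ρ₁.IsEquiv ρ₂)
    (b₁ : Basis (Fin 2) k ρ₁.V) :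
    ∃ b₂ : Basis (Fin 2) k ρ₂.V, ∀ σ, matOfRes ρ₂ b₂ σ = matOfRes ρ₁ b₁ σ := by
  obtain ⟨e⟩ := h
  refine ⟨b₁.map e.toLinearEquiv, fun σ => ?_⟩
  rw [matOfRes_apply, matOfRes_apply]
  ext i j
  rw [LinearMap.toMatrix_apply, LinearMap.toMatrix_apply]
  simp only [Basis.map_apply, Basis.map_repr, LinearEquiv.trans_apply]
  rw [← e.map_apply, LinearEquiv.symm_apply_apply]

theorem exists_conj_of_bases_res (ρ : ResidualGaloisRep k) (b b' : Basis (Fin 2) k ρ.V) :
    ∃ c d : Matrix (Fin 2) (Fin 2) k, c * d = 1 ∧ d * c = 1 ∧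
      ∀ σ, matOfRes ρ b' σ = c * matOfRes ρ b σ * d := by
  refine ⟨b'.toMatrix b, b.toMatrix b', Basis.toMatrix_mul_toMatrix_flip b' b,
    Basis.toMatrix_mul_toMatrix_flip b b', fun σ => ?_⟩
  rw [matOfRes_apply, matOfRes_apply]
  exact (basis_toMatrix_mul_linearMap_toMatrix_mul_basis_toMatrix b' b b' b (ρ.ρ σ)).symm

/-- Matrices of the base change of a residual representation. -/
theorem exists_basis_baseChange_res {K : Type} [Field K] [Algebra k K]
    (ρ : ResidualGaloisRep k) (b : Basis (Fin 2) k ρ.V) :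
    ∃ b' : Basis (Fin 2) K (ρ.baseChange K).V,
      ∀ σ, matOfRes (ρ.baseChange K) b' σ = (matOfRes ρ b σ).map (algebraMap k K) :=
  ⟨Algebra.TensorProduct.basis K b, fun σ => LinearMap.toMatrix_baseChange K (ρ.ρ σ) b b⟩

end Residual

end Fermat.Agent.Lib.S53

namespace Fermat.Agent.Lib.S53

open IsLocalRing TensorProduct Module

local notation "Γℚ" => (AlgebraicClosure ℚ ≃ₐ[ℚ] AlgebraicClosure ℚ)

section ToRep

variable {A : Type} [CommRing A] [IsLocalRing A]

/-- Adic continuity of a matrix-valued homomorphism. -/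
def MatContinuous (r : Γℚ →* Matrix (Fin 2) (Fin 2) A) : Prop :=
  ∀ n : ℕ, ∃ L : IntermediateField ℚ (AlgebraicClosure ℚ), FiniteDimensional ℚ L ∧
    ∀ σ : Γℚ, (∀ x ∈ L, σ x = x) → ∀ i j, (r σ - 1) i j ∈ maximalIdeal A ^ n

theorem mem_smul_top_of_forall_mem {I : Ideal A} (w : Fin 2 → A) (hw : ∀ i, w i ∈ I) :
    w ∈ I • (⊤ : Submodule A (Fin 2 → A)) := by
  have : w = ∑ i, w i • (Pi.single i (1 : A) : Fin 2 → A) := by
    ext j
    simp [Finset.sum_apply, Pi.single_apply]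
  rw [this]
  exact Submodule.sum_mem _ fun i _ => Submodule.smul_mem_smul (hw i) Submodule.mem_top

theorem repr_mem_of_mem_smul_top {V : Type*} [AddCommGroup V] [Module A V]
    (b : Basis (Fin 2) A V) {I : Ideal A} {x : V} (hx : x ∈ I • (⊤ : Submodule A V)) (i : Fin 2) :
    b.repr x i ∈ I := by
  refine Submodule.smul_induction_on (p := fun x => b.repr x i ∈ I) hx ?_ ?_
  · intro a ha y _
    rw [map_smul, Finsupp.smul_apply, smul_eq_mul]
    exact Ideal.mul_mem_right _ _ ha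
  · intro x y hx hy
    rw [map_add, Finsupp.add_apply]
    exact I.add_mem hx hy

/-- The `GaloisRepAdic` attached to a continuous matrix-valued homomorphism. -/
noncomputable def toRep (r : Γℚ →* Matrix (Fin 2) (Fin 2) A) (hr : MatContinuous r) :
    GaloisRepAdic A where
  V := Fin 2 → A
  finrank_eq := Module.finrank_fin_fun A
  ρ := ((Matrix.toLinAlgEquiv' : Matrix (Fin 2) (Fin 2) A ≃ₐ[A] Module.End A (Fin 2 → A)) :
    Matrix (Fin 2) (Fin 2) A →* Module.End A (Fin 2 → A)).comp r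
  isAdicContinuous := by
    intro n
    obtain ⟨L, hL, h⟩ := hr n
    refine ⟨L, hL, fun σ hσ v => ?_⟩
    apply mem_smul_top_of_forall_mem
    intro i
    have : (Matrix.toLinAlgEquiv' (r σ) : Module.End A (Fin 2 → A)) v i - v i
        = ∑ j, (r σ - 1) i j * v j := by
      simp [Matrix.toLinAlgEquiv'_apply, Matrix.mulVec, dotProduct, Matrix.sub_apply,
        Matrix.one_apply, sub_mul, Finset.sum_sub_distrib]
    show (Matrix.toLinAlgEquiv' (r σ) : Module.End A (Fin 2 → A)) v i - v i ∈ _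
    rw [this]
    exact Ideal.sum_mem _ fun j _ => Ideal.mul_mem_right _ _ (h σ hσ i j)

/-- The standard basis of the underlying module of `toRep r hr`. -/
noncomputable def toRepBasis (r : Γℚ →* Matrix (Fin 2) (Fin 2) A) (hr : MatContinuous r) :
    Basis (Fin 2) A (toRep r hr).V :=
  (Pi.basisFun A (Fin 2) : Basis (Fin 2) A (Fin 2 → A))

theorem matOf_toRep (r : Γℚ →* Matrix (Fin 2) (Fin 2) A) (hr : MatContinuous r) (σ : Γℚ) :
    matOf (toRep r hr) (toRepBasis r hr) σ = r σ := by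
  show LinearMap.toMatrix (Pi.basisFun A (Fin 2)) (Pi.basisFun A (Fin 2))
    (Matrix.toLinAlgEquiv' (r σ) : Module.End A (Fin 2 → A)) = r σ
  rw [LinearMap.toMatrix_eq_toMatrix']
  exact LinearMap.toMatrix'_toLin' (r σ)

theorem matContinuous_matOf (ρ : GaloisRepAdic A) (b : Basis (Fin 2) A ρ.V) :
    MatContinuous (matOf ρ b) := by
  intro n
  obtain ⟨L, hL, h⟩ := ρ.isAdicContinuous n
  refine ⟨L, hL, fun σ hσ i j => ?_⟩
  have : (matOf ρ b σ - 1) i j = b.repr (ρ.ρ σ (b j) - b j) i := by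
    rw [matOf_apply, Matrix.sub_apply, LinearMap.toMatrix_apply, Matrix.one_apply, map_sub,
      Finsupp.sub_apply, Basis.repr_self, Finsupp.single_apply]
    congr 1
    split_ifs with h1 h2 h2 <;> first | rfl | exact absurd h1.symm h2 | exact absurd h2.symm h1
  rw [this]
  exact repr_mem_of_mem_smul_top b (h σ hσ (b j)) i

theorem MatContinuous.map_ringHom {B : Type} [CommRing B] [IsLocalRing B]
    {r : Γℚ →* Matrix (Fin 2) (Fin 2) A} (hr : MatContinuous r) (φ : A →+* B)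
    (hφ : IsLocalHom φ) : MatContinuous (mapHom φ r) := by
  intro n
  obtain ⟨L, hL, h⟩ := hr n
  refine ⟨L, hL, fun σ hσ i j => ?_⟩
  have : (mapHom φ r σ - 1) i j = φ ((r σ - 1) i j) := by
    simp only [mapHom_apply, Matrix.sub_apply, Matrix.map_apply, Matrix.one_apply, map_sub]
    split_ifs <;> simp
  rw [this]
  have hle : (maximalIdeal A ^ n).map φ ≤ maximalIdeal B ^ n := by
    rw [Ideal.map_pow]
    exact Ideal.pow_right_mono (((IsLocalRing.local_hom_TFAE φ).out 0 2).mp hφ) n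
  exact hle (Ideal.mem_map_of_mem φ (h σ hσ i j))

end ToRep

end Fermat.Agent.Lib.S53
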