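import Mathlib

/-!
# Normal forms for 2×2 matrix representations over a local ring

Pure matrix computations used for the construction of the universal deformation ring (S53).
-/

set_option autoImplicit false

namespace Fermat.Agent.Lib.S53

open Matrix IsLocalRing

section Uniqueness

variable {A : Type*} [CommRing A]

/-- If `M e₁ = e₂`, `M' e₁ = e₂` and `c M = M' c`, then `c = c₀₀ + c₁₀ M'`. -/
theorem eq_smul_one_add_smul_of_intertwine (M M' c : Matrix (Fin 2) (Fin 2) A)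
    (h00 : M 0 0 = 0) (h10 : M 1 0 = 1) (h00' : M' 0 0 = 0) (h10' : M' 1 0 = 1)
    (hc : c * M = M' * c) : c = c 0 0 • (1 : Matrix (Fin 2) (Fin 2) A) + c 1 0 • M' := by
  have e0 := congrFun (congrFun hc 0) 0
  have e1 := congrFun (congrFun hc 1) 0
  simp only [Matrix.mul_apply, Fin.sum_univ_two, h00, h10, h00', h10'] at e0 e1
  ext i j
  fin_cases i <;> fin_cases j <;>
    simp [Matrix.add_apply, Matrix.smul_apply, h00', h10'] <;>
    first | linear_combination e0 | linear_combination e1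

/-- A matrix of the form `x + y M'` commutes with `M'`. -/
theorem smul_one_add_smul_commute (M' : Matrix (Fin 2) (Fin 2) A) (x y : A) :
    (x • (1 : Matrix (Fin 2) (Fin 2) A) + y • M') * M' = M' * (x • 1 + y • M') := by
  simp [add_mul, mul_add]

variable [IsLocalRing A]

/-- Key uniqueness statement: two "normalized" families of matrices which are conjugate
(by an invertible matrix) and congruent modulo the maximal ideal are equal. Here `M₀, M₁`
(resp. `M₀', M₁'`) play the role of `r g₀, r g₁` (resp. `r' g₀, r' g₁`). The conclusion is that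
the conjugating matrix is a unit scalar. -/
theorem conj_eq_scalar_of_normalized
    (M₀ M₁ M₀' M₁' c : Matrix (Fin 2) (Fin 2) A) (i₀ j₀ : Fin 2)
    (h00 : M₀ 0 0 = 0) (h10 : M₀ 1 0 = 1) (h00' : M₀' 0 0 = 0) (h10' : M₀' 1 0 = 1)
    (h1 : M₁ i₀ j₀ = M₁' i₀ j₀)
    (hres : ∀ i j, M₁ i j - M₁' i j ∈ maximalIdeal A)
    (hu : IsUnit ((M₀ * M₁ - M₁ * M₀) i₀ j₀))
    (hc : IsUnit c.det) (hc0 : c * M₀ = M₀' * c) (hc1 : c * M₁ = M₁' * c) :
    ∃ x : A, IsUnit x ∧ c = x • (1 : Matrix (Fin 2) (Fin 2) A) := by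
  set x := c 0 0 with hx
  set y := c 1 0 with hy
  have hcxy : c = x • (1 : Matrix (Fin 2) (Fin 2) A) + y • M₀' :=
    eq_smul_one_add_smul_of_intertwine M₀ M₀' c h00 h10 h00' h10' hc0
  -- `c` commutes with `M₀'`, so `M₀ = M₀'`
  have hcu : IsUnit c := (Matrix.isUnit_iff_isUnit_det c).mpr hc
  have hcomm : c * M₀' = M₀' * c := by
    rw [hcxy]; exact smul_one_add_smul_commute M₀' x y
  have hM0 : M₀ = M₀' := by
    have : c * M₀ = c * M₀' := by rw [hc0, hcomm]
    exact hcu.mul_left_cancel this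
  subst hM0
  -- the (i₀, j₀) entry
  have key : y • (M₁' * M₀ - M₀ * M₁) = x • (M₁ - M₁') := by
    have h := hc1
    rw [hcxy] at h
    simp only [add_mul, mul_add, smul_mul_assoc, mul_smul_comm, one_mul, mul_one] at h
    rw [smul_sub, smul_sub]
    rw [sub_eq_sub_iff_add_eq_add]
    rw [add_comm (y • (M₁' * M₀)), ← h]
  have key' : y * (M₁' * M₀ - M₀ * M₁) i₀ j₀ = 0 := by
    have := congrFun (congrFun key i₀) j₀
    simp only [Matrix.smul_apply, Matrix.sub_apply, smul_eq_mul] at this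
    rw [h1, sub_self, mul_zero] at this
    simpa [Matrix.sub_apply] using this
  -- the relevant entry is a unit
  have hunit : IsUnit ((M₁' * M₀ - M₀ * M₁) i₀ j₀) := by
    have hdiff : (M₁' * M₀ - M₀ * M₁) i₀ j₀ + (M₀ * M₁ - M₁ * M₀) i₀ j₀ ∈ maximalIdeal A := by
      have : (M₁' * M₀ - M₀ * M₁) i₀ j₀ + (M₀ * M₁ - M₁ * M₀) i₀ j₀
          = -∑ l, (M₁ i₀ l - M₁' i₀ l) * M₀ l j₀ := by
        simp only [Matrix.sub_apply, Matrix.mul_apply, Fin.sum_univ_two]
        ring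
      rw [this]
      refine neg_mem (Ideal.sum_mem _ fun l _ => Ideal.mul_mem_right _ _ (hres i₀ l))
    by_contra hnu
    have hmem : (M₁' * M₀ - M₀ * M₁) i₀ j₀ ∈ maximalIdeal A := (mem_maximalIdeal _).mpr hnu
    have : (M₀ * M₁ - M₁ * M₀) i₀ j₀ ∈ maximalIdeal A := by
      have := (maximalIdeal A).sub_mem hdiff hmem
      simpa using this
    exact (mem_maximalIdeal _).mp this hu
  have hy0 : y = 0 := by
    obtain ⟨u, hu'⟩ := hunit
    rw [← hu'] at key'
    exact (Units.mul_left_eq_zero u).mp key'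
  have hcx : c = x • (1 : Matrix (Fin 2) (Fin 2) A) := by
    rw [hcxy, hy0, zero_smul, add_zero]
  refine ⟨x, ?_, hcx⟩
  have hdet : c.det = x * x := by
    rw [hcx, Matrix.det_smul, Matrix.det_one, Fintype.card_fin]; ring
  rw [hdet] at hc
  exact isUnit_of_mul_isUnit_left hc

end Uniqueness

end Fermat.Agent.Lib.S53

namespace Fermat.Agent.Lib.S53

open Matrix IsLocalRing Polynomial

section Existence

variable {A : Type*} [CommRing A]

/-- Entrywise congruence to the identity modulo an ideal. -/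
def CongOne (I : Ideal A) (c : Matrix (Fin 2) (Fin 2) A) : Prop :=
  ∀ i j, (c - 1) i j ∈ I

theorem CongOne.one (I : Ideal A) : CongOne I (1 : Matrix (Fin 2) (Fin 2) A) := by
  intro i j; simp

theorem CongOne.mul {I : Ideal A} {c c' : Matrix (Fin 2) (Fin 2) A}
    (hc : CongOne I c) (hc' : CongOne I c') : CongOne I (c * c') := by
  intro i j
  have : (c * c' - 1) i j = ∑ l, (c - 1) i l * c' l j + (c' - 1) i j := by
    have : c * c' - 1 = (c - 1) * c' + (c' - 1) := by noncomm_ring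
    rw [this, Matrix.add_apply, Matrix.mul_apply]
  rw [this]
  exact I.add_mem (Ideal.sum_mem _ fun l _ => Ideal.mul_mem_right _ _ (hc i l)) (hc' i j)

/-- Conjugating by matrices congruent to `1` does not change entries modulo the ideal. -/
theorem CongOne.conj_sub_mem {I : Ideal A} {c d : Matrix (Fin 2) (Fin 2) A}
    (hc : CongOne I c) (hd : CongOne I d) (X : Matrix (Fin 2) (Fin 2) A) (i j : Fin 2) :
    (c * X * d) i j - X i j ∈ I := by
  have h : c * X * d - X = (c - 1) * X * d + X * (d - 1) := by noncomm_ring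
  have h' : (c * X * d) i j - X i j = (c * X * d - X) i j := by simp
  rw [h', h, Matrix.add_apply, Matrix.mul_apply, Matrix.mul_apply]
  refine I.add_mem (Ideal.sum_mem _ fun l _ => Ideal.mul_mem_right _ _ ?_)
    (Ideal.sum_mem _ fun l _ => Ideal.mul_mem_left _ _ (hd l j))
  rw [Matrix.mul_apply]
  exact Ideal.sum_mem _ fun l' _ => Ideal.mul_mem_right _ _ (hc i l')

/-- Cayley–Hamilton-type identity for `2 × 2` matrices: `(1 + tM)((1 + t tr M) - tM) = det(1+tM)`. -/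
theorem one_add_smul_mul_adj (M : Matrix (Fin 2) (Fin 2) A) (t : A) :
    ((1 : Matrix (Fin 2) (Fin 2) A) + t • M) * ((1 + t * M.trace) • 1 - t • M)
      = (1 + t * M.trace + t ^ 2 * M.det) • (1 : Matrix (Fin 2) (Fin 2) A) := by
  ext i j
  fin_cases i <;> fin_cases j <;>
    simp [Matrix.mul_apply, Fin.sum_univ_two, Matrix.trace_fin_two, Matrix.det_fin_two,
      Matrix.one_apply] <;> ring

theorem adj_mul_one_add_smul (M : Matrix (Fin 2) (Fin 2) A) (t : A) :
    ((1 + t * M.trace) • (1 : Matrix (Fin 2) (Fin 2) A) - t • M) * (1 + t • M)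
      = (1 + t * M.trace + t ^ 2 * M.det) • (1 : Matrix (Fin 2) (Fin 2) A) := by
  ext i j
  fin_cases i <;> fin_cases j <;>
    simp [Matrix.mul_apply, Fin.sum_univ_two, Matrix.trace_fin_two, Matrix.det_fin_two,
      Matrix.one_apply] <;> ring

end Existence

end Fermat.Agent.Lib.S53

namespace Fermat.Agent.Lib.S53

open Matrix IsLocalRing Polynomial

section Existence

variable {A : Type*} [CommRing A] [IsLocalRing A]

theorem isUnit_of_sub_one_mem {u : A} (h : u - 1 ∈ maximalIdeal A) : IsUnit u := by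
  by_contra hu
  have hm : u ∈ maximalIdeal A := (mem_maximalIdeal _).mpr hu
  have h1 : (1 : A) ∈ maximalIdeal A := by
    have := (maximalIdeal A).sub_mem hm h
    simpa using this
  exact (Ideal.ne_top_iff_one _).mp (maximalIdeal.isMaximal A).ne_top h1

theorem isUnit_of_add_mem {u v : A} (hu : IsUnit u) (hv : v ∈ maximalIdeal A) : IsUnit (u + v) := by
  by_contra h
  have hm : u + v ∈ maximalIdeal A := (mem_maximalIdeal _).mpr h
  have : u ∈ maximalIdeal A := by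
    have := (maximalIdeal A).sub_mem hm hv
    simpa using this
  exact (mem_maximalIdeal _).mp this hu

/-- Step 1: conjugate so that the first column of `M₀` becomes `(0, 1)`. -/
theorem exists_conj_first_column (M₀ : Matrix (Fin 2) (Fin 2) A)
    (h00 : M₀ 0 0 ∈ maximalIdeal A) (h10 : M₀ 1 0 - 1 ∈ maximalIdeal A) :
    ∃ c d : Matrix (Fin 2) (Fin 2) A, c * d = 1 ∧ d * c = 1 ∧
      CongOne (maximalIdeal A) c ∧ CongOne (maximalIdeal A) d ∧
      (c * M₀ * d) 0 0 = 0 ∧ (c * M₀ * d) 1 0 = 1 := by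
  obtain ⟨v, hv⟩ := isUnit_iff_exists_inv'.mp (isUnit_of_sub_one_mem h10)
  have hv1 : v - 1 ∈ maximalIdeal A := by
    have : v - 1 = -(v * (M₀ 1 0 - 1)) := by linear_combination hv
    rw [this]
    exact neg_mem (Ideal.mul_mem_left _ _ h10)
  refine ⟨!![1, -(M₀ 0 0) * v; 0, v], !![1, M₀ 0 0; 0, M₀ 1 0], ?_, ?_, ?_, ?_, ?_, ?_⟩
  · ext i j
    fin_cases i <;> fin_cases j <;> simp [Matrix.mul_apply, Fin.sum_univ_two]
    · linear_combination (-(M₀ 0 0)) * hv
    · exact hv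
  · ext i j
    fin_cases i <;> fin_cases j <;> simp [Matrix.mul_apply, Fin.sum_univ_two]
    linear_combination hv
  · intro i j
    fin_cases i <;> fin_cases j
    · show ((1 : A) - 1) ∈ _
      simp
    · show (-(M₀ 0 0) * v - 0) ∈ _
      rw [sub_zero]
      exact Ideal.mul_mem_right _ _ (neg_mem h00)
    · show ((0 : A) - 0) ∈ _
      simp
    · show (v - 1) ∈ _
      exact hv1
  · intro i j
    fin_cases i <;> fin_cases j
    · show ((1 : A) - 1) ∈ _
      simp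
    · show (M₀ 0 0 - 0) ∈ _
      rw [sub_zero]; exact h00
    · show ((0 : A) - 0) ∈ _
      simp
    · show (M₀ 1 0 - 1) ∈ _
      exact h10
  · simp only [Matrix.mul_apply, Fin.sum_univ_two, Matrix.of_apply, Matrix.cons_val', Matrix.cons_val_zero,
        Matrix.cons_val_one, Matrix.cons_val_fin_one, Fin.isValue]
    linear_combination (-(M₀ 0 0)) * hv
  · simp only [Matrix.mul_apply, Fin.sum_univ_two, Matrix.of_apply, Matrix.cons_val', Matrix.cons_val_zero,
        Matrix.cons_val_one, Matrix.cons_val_fin_one, Fin.isValue]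
    linear_combination hv

end Existence

end Fermat.Agent.Lib.S53

namespace Fermat.Agent.Lib.S53

open Matrix IsLocalRing Polynomial

section Existence2

variable {A : Type*} [CommRing A]

theorem conj_expand (M₀ M₁ : Matrix (Fin 2) (Fin 2) A) (t : A) :
    ((1 : Matrix (Fin 2) (Fin 2) A) + t • M₀) * M₁ * ((1 + t * M₀.trace) • 1 - t • M₀)
      = M₁ + t • (M₀.trace • M₁ + (M₀ * M₁ - M₁ * M₀))
        + t ^ 2 • (M₀ * M₁ * (M₀.trace • 1 - M₀)) := by
  ext i j
  fin_cases i <;> fin_cases j <;>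
    simp [Matrix.mul_apply, Fin.sum_univ_two, Matrix.trace_fin_two, Matrix.one_apply] <;> ring

variable [HenselianLocalRing A]

/-- Step 2: keeping `M₀` (with first column `(0,1)`) fixed, conjugate by `1 + t M₀`, `t ∈ 𝔪`,
so that a prescribed entry of `M₁` takes a prescribed value. -/
theorem exists_conj_entry (M₀ M₁ : Matrix (Fin 2) (Fin 2) A) (i₀ j₀ : Fin 2) (lam : A)
    (hu : IsUnit ((M₀ * M₁ - M₁ * M₀) i₀ j₀))
    (hlam : M₁ i₀ j₀ - lam ∈ maximalIdeal A) :
    ∃ c d : Matrix (Fin 2) (Fin 2) A, c * d = 1 ∧ d * c = 1 ∧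
      CongOne (maximalIdeal A) c ∧ CongOne (maximalIdeal A) d ∧
      c * M₀ * d = M₀ ∧ (c * M₁ * d) i₀ j₀ = lam := by
  obtain ⟨τ, hτ⟩ : ∃ τ, τ = M₀.trace := ⟨_, rfl⟩
  obtain ⟨δ, hδ⟩ : ∃ δ, δ = M₀.det := ⟨_, rfl⟩
  obtain ⟨e₀, he₀⟩ : ∃ e₀, e₀ = M₁ i₀ j₀ - lam := ⟨_, rfl⟩
  obtain ⟨e₁, he₁⟩ : ∃ e₁, e₁ = (M₀ * M₁ - M₁ * M₀) i₀ j₀ + τ * e₀ := ⟨_, rfl⟩
  obtain ⟨e₂, he₂⟩ : ∃ e₂, e₂ = (M₀ * M₁ * (τ • 1 - M₀)) i₀ j₀ - lam * δ := ⟨_, rfl⟩
  rw [← he₀] at hlam
  have he₁u : IsUnit e₁ := he₁ ▸ isUnit_of_add_mem hu (Ideal.mul_mem_left _ _ hlam)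
  -- Hensel's lemma for the monic polynomial `X² + e₁ X + e₀ e₂`
  let f : A[X] := X ^ 2 + C e₁ * X + C (e₀ * e₂)
  have hfm : f.Monic := by
    have h1 : (C e₁ * X + C (e₀ * e₂) : A[X]).degree < ((2 : ℕ) : WithBot ℕ) := by
      refine lt_of_le_of_lt (degree_add_le _ _) (max_lt ?_ ?_)
      · exact lt_of_le_of_lt (degree_C_mul_X_le _) (by norm_num)
      · exact lt_of_le_of_lt degree_C_le (by norm_num)
    have : f = X ^ 2 + (C e₁ * X + C (e₀ * e₂)) := by simp only [f]; ring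
    rw [this]
    exact monic_X_pow_add h1
  have hf0 : f.eval 0 ∈ maximalIdeal A := by
    simp only [f, eval_add, eval_pow, eval_X, eval_mul, eval_C]
    simp only [ne_eq, OfNat.ofNat_ne_zero, not_false_eq_true, zero_pow, mul_zero, add_zero,
      zero_add]
    exact Ideal.mul_mem_right _ _ hlam
  have hf' : IsUnit (f.derivative.eval 0) := by
    simp only [f, derivative_add, derivative_X_pow, derivative_mul, derivative_C, derivative_X,
      eval_add, eval_mul, eval_C, eval_X, eval_pow, zero_mul, mul_one, mul_zero, add_zero,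
      zero_add, Nat.cast_ofNat, eval_one]
    simpa using he₁u
  obtain ⟨s, hs, hsm⟩ := HenselianLocalRing.is_henselian f hfm 0 hf0 hf'
  rw [sub_zero] at hsm
  have hs' : s ^ 2 + e₁ * s + e₀ * e₂ = 0 := by
    have := hs
    simpa [f, IsRoot] using this
  obtain ⟨w, hw⟩ := isUnit_iff_exists_inv'.mp (isUnit_of_add_mem he₁u hsm)
  obtain ⟨t, ht⟩ : ∃ t, t = -e₀ * w := ⟨_, rfl⟩
  have htm : t ∈ maximalIdeal A := ht ▸ Ideal.mul_mem_right _ _ (neg_mem hlam)
  have hst : s = e₂ * t := by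
    have h0 : (e₁ + s) * (s - e₂ * t) = 0 := by
      rw [ht]; linear_combination hs' + (e₀ * e₂) * hw
    have : w * ((e₁ + s) * (s - e₂ * t)) = 0 := by rw [h0, mul_zero]
    rw [← mul_assoc, hw, one_mul] at this
    exact sub_eq_zero.mp this
  have hE : e₀ + e₁ * t + e₂ * t ^ 2 = 0 := by
    have : e₀ + e₁ * t + e₂ * t ^ 2 = e₀ + t * (e₁ + s) := by rw [hst]; ring
    rw [this, ht]; linear_combination (-e₀) * hw
  obtain ⟨D, hD⟩ : ∃ D, D = 1 + t * τ + t ^ 2 * δ := ⟨_, rfl⟩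
  have hDu : IsUnit D := by
    have : D - 1 ∈ maximalIdeal A := by
      have : D - 1 = t * (τ + t * δ) := by rw [hD]; ring
      rw [this]; exact Ideal.mul_mem_right _ _ htm
    exact isUnit_of_sub_one_mem this
  obtain ⟨Di, hDi⟩ := isUnit_iff_exists_inv'.mp hDu
  have hDi1 : Di - 1 ∈ maximalIdeal A := by
    have : Di - 1 = -(Di * (D - 1)) := by linear_combination hDi
    rw [this]
    refine neg_mem (Ideal.mul_mem_left _ _ ?_)
    have : D - 1 = t * (τ + t * δ) := by rw [hD]; ring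
    rw [this]; exact Ideal.mul_mem_right _ _ htm
  set c : Matrix (Fin 2) (Fin 2) A := 1 + t • M₀ with hc
  set d' : Matrix (Fin 2) (Fin 2) A := (1 + t * τ) • 1 - t • M₀ with hd'
  have hcd' : c * d' = D • (1 : Matrix (Fin 2) (Fin 2) A) := by
    rw [hc, hd', hD, hτ, hδ]; exact one_add_smul_mul_adj M₀ t
  have hd'c : d' * c = D • (1 : Matrix (Fin 2) (Fin 2) A) := by
    rw [hc, hd', hD, hτ, hδ]; exact adj_mul_one_add_smul M₀ t
  have hcM : c * M₀ = M₀ * c := by
    rw [hc]; simp [add_mul, mul_add]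
  refine ⟨c, Di • d', ?_, ?_, ?_, ?_, ?_, ?_⟩
  · rw [Matrix.mul_smul, hcd', smul_smul, hDi, one_smul]
  · rw [Matrix.smul_mul, hd'c, smul_smul, hDi, one_smul]
  · intro i j
    have : (c - 1) i j = t * M₀ i j := by simp [hc]
    rw [this]; exact Ideal.mul_mem_right _ _ htm
  · intro i j
    have : (Di • d' - 1) i j = (Di - 1) * (1 : Matrix (Fin 2) (Fin 2) A) i j
        + Di * (t * (τ * (1 : Matrix (Fin 2) (Fin 2) A) i j - M₀ i j)) := by
      simp only [hd', Matrix.sub_apply, Matrix.smul_apply, Matrix.add_apply, smul_eq_mul]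
      ring
    rw [this]
    exact (maximalIdeal A).add_mem (Ideal.mul_mem_right _ _ hDi1)
      (Ideal.mul_mem_left _ _ (Ideal.mul_mem_right _ _ htm))
  · rw [hcM, Matrix.mul_assoc, Matrix.mul_smul, hcd', smul_smul, hDi, one_smul, Matrix.mul_one]
  · have hexp := conj_expand M₀ M₁ t
    have : (c * M₁ * (Di • d')) i₀ j₀ = Di * (c * M₁ * d') i₀ j₀ := by
      rw [Matrix.mul_smul, Matrix.smul_apply, smul_eq_mul]
    rw [this, hc, hd', hτ, hexp, ← hτ]
    simp only [Matrix.add_apply, Matrix.smul_apply, smul_eq_mul]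
    have h1 : M₁ i₀ j₀ = e₀ + lam := by rw [he₀]; ring
    have h2 : (M₀ * M₁ - M₁ * M₀) i₀ j₀ = e₁ - τ * e₀ := by rw [he₁]; ring
    have h3 : (M₀ * M₁ * (τ • 1 - M₀)) i₀ j₀ = e₂ + lam * δ := by rw [he₂]; ring
    rw [h2, h3, h1]
    have : e₀ + lam + t * (τ * (e₀ + lam) + (e₁ - τ * e₀)) + t ^ 2 * (e₂ + lam * δ)
        = (e₀ + e₁ * t + e₂ * t ^ 2) + lam * D := by rw [hD]; ring
    rw [this, hE, zero_add]
    linear_combination lam * hDi

end Existence2

end Fermat.Agent.Lib.S53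

namespace Fermat.Agent.Lib.S53

open Matrix IsLocalRing Polynomial

section Existence3

variable {A : Type*} [CommRing A] [HenselianLocalRing A]

/-- Existence of the normal form: a pair `(M₀, M₁)` which is residually normalizable can be
conjugated (by a matrix congruent to `1`) into normalized position. -/
theorem exists_conj_normalized (M₀ M₁ : Matrix (Fin 2) (Fin 2) A) (i₀ j₀ : Fin 2) (lam : A)
    (h00 : M₀ 0 0 ∈ maximalIdeal A) (h10 : M₀ 1 0 - 1 ∈ maximalIdeal A)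
    (hu : IsUnit ((M₀ * M₁ - M₁ * M₀) i₀ j₀))
    (hlam : M₁ i₀ j₀ - lam ∈ maximalIdeal A) :
    ∃ c d : Matrix (Fin 2) (Fin 2) A, c * d = 1 ∧ d * c = 1 ∧
      CongOne (maximalIdeal A) c ∧ CongOne (maximalIdeal A) d ∧
      (c * M₀ * d) 0 0 = 0 ∧ (c * M₀ * d) 1 0 = 1 ∧ (c * M₁ * d) i₀ j₀ = lam := by
  obtain ⟨c₁, d₁, hcd₁, hdc₁, hc₁, hd₁, h1, h2⟩ := exists_conj_first_column M₀ h00 h10
  have hcomm : (c₁ * M₀ * d₁) * (c₁ * M₁ * d₁) - (c₁ * M₁ * d₁) * (c₁ * M₀ * d₁)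
      = c₁ * (M₀ * M₁ - M₁ * M₀) * d₁ := by
    have e1 : (c₁ * M₀ * d₁) * (c₁ * M₁ * d₁) = c₁ * M₀ * (d₁ * c₁) * M₁ * d₁ := by
      simp only [Matrix.mul_assoc]
    have e2 : (c₁ * M₁ * d₁) * (c₁ * M₀ * d₁) = c₁ * M₁ * (d₁ * c₁) * M₀ * d₁ := by
      simp only [Matrix.mul_assoc]
    rw [e1, e2, hdc₁]
    simp only [Matrix.mul_one, Matrix.mul_sub, Matrix.sub_mul, Matrix.mul_assoc]
  have hu' : IsUnit (((c₁ * M₀ * d₁) * (c₁ * M₁ * d₁) - (c₁ * M₁ * d₁) * (c₁ * M₀ * d₁)) i₀ j₀) := by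
    rw [hcomm]
    have := CongOne.conj_sub_mem hc₁ hd₁ (M₀ * M₁ - M₁ * M₀) i₀ j₀
    have h := isUnit_of_add_mem hu this
    rwa [add_sub_cancel] at h
  have hlam' : (c₁ * M₁ * d₁) i₀ j₀ - lam ∈ maximalIdeal A := by
    have := (maximalIdeal A).add_mem (CongOne.conj_sub_mem hc₁ hd₁ M₁ i₀ j₀) hlam
    rwa [sub_add_sub_cancel] at this
  obtain ⟨c₂, d₂, hcd₂, hdc₂, hc₂, hd₂, h3, h4⟩ :=
    exists_conj_entry (c₁ * M₀ * d₁) (c₁ * M₁ * d₁) i₀ j₀ lam hu' hlam'
  have a0 : c₂ * c₁ * M₀ * (d₁ * d₂) = c₂ * (c₁ * M₀ * d₁) * d₂ := by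
    simp only [Matrix.mul_assoc]
  have a1 : c₂ * c₁ * M₁ * (d₁ * d₂) = c₂ * (c₁ * M₁ * d₁) * d₂ := by
    simp only [Matrix.mul_assoc]
  refine ⟨c₂ * c₁, d₁ * d₂, ?_, ?_, hc₂.mul hc₁, hd₁.mul hd₂, ?_, ?_, ?_⟩
  · calc c₂ * c₁ * (d₁ * d₂) = c₂ * (c₁ * d₁) * d₂ := by simp only [Matrix.mul_assoc]
      _ = 1 := by rw [hcd₁, Matrix.mul_one, hcd₂]
  · calc d₁ * d₂ * (c₂ * c₁) = d₁ * (d₂ * c₂) * c₁ := by simp only [Matrix.mul_assoc]
      _ = 1 := by rw [hdc₂, Matrix.mul_one, hdc₁]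
  · rw [a0, h3]; exact h1
  · rw [a0, h3]; exact h2
  · rw [a1]; exact h4

end Existence3

end Fermat.Agent.Lib.S53
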