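import Mathlib
import Fermat.Prelude.Def_GaloisRep_Adic
import Fermat.Agent.Lib.S53.NormalForm
import Fermat.Agent.Lib.S53.MatrixRep

/-!
# Normalization data attached to an absolutely irreducible residual representation
-/

set_option autoImplicit false

namespace Fermat.Agent.Lib.S53

open IsLocalRing TensorProduct Module

local notation "Γℚ" => (AlgebraicClosure ℚ ≃ₐ[ℚ] AlgebraicClosure ℚ)

section Field

variable {k : Type} [Field k]

/-- Change of basis by an invertible matrix, for residual representations. -/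
theorem exists_basis_conj_res (ρ : ResidualGaloisRep k) (b : Basis (Fin 2) k ρ.V)
    (c d : Matrix (Fin 2) (Fin 2) k) (hcd : c * d = 1) (hdc : d * c = 1) :
    ∃ b' : Basis (Fin 2) k ρ.V, ∀ σ, matOfRes ρ b' σ = c * matOfRes ρ b σ * d := by
  let e : ρ.V ≃ₗ[k] ρ.V :=
    LinearEquiv.ofLinearMap (Matrix.toLin b b d) (Matrix.toLin b b c)
      (by rw [← Matrix.toLin_mul b b b, hdc, Matrix.toLin_one])
      (by rw [← Matrix.toLin_mul b b b, hcd, Matrix.toLin_one])
  refine ⟨b.map e, fun σ => ?_⟩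
  rw [matOfRes_apply, matOfRes_apply]
  have h1 : LinearMap.toMatrix (b.map e) (b.map e) (ρ.ρ σ)
      = LinearMap.toMatrix b b (e.symm.toLinearMap ∘ₗ ρ.ρ σ ∘ₗ e.toLinearMap) := by
    ext i j
    rw [LinearMap.toMatrix_apply, LinearMap.toMatrix_apply]
    simp [Basis.map_apply, Basis.map_repr]
  rw [h1, LinearMap.toMatrix_comp b b b, LinearMap.toMatrix_comp b b b]
  have h2 : LinearMap.toMatrix b b e.toLinearMap = d := by
    show LinearMap.toMatrix b b (Matrix.toLin b b d) = d
    exact LinearMap.toMatrix_toLin b b d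
  have h3 : LinearMap.toMatrix b b e.symm.toLinearMap = c := by
    show LinearMap.toMatrix b b (Matrix.toLin b b c) = c
    exact LinearMap.toMatrix_toLin b b c
  rw [h2, h3, Matrix.mul_assoc]

/-- An absolutely irreducible residual representation has no common eigenvector over the
algebraic closure, in matrix form. -/
theorem no_common_eigenvector (ρ : ResidualGaloisRep k) (habs : ρ.IsAbsolutelyIrreducible)
    (b : Basis (Fin 2) k ρ.V) (w : Fin 2 → AlgebraicClosure k) (hw : w ≠ 0)
    (h : ∀ σ, ∃ μ : AlgebraicClosure k,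
      ((matOfRes ρ b σ).map (algebraMap k (AlgebraicClosure k))).mulVec w = μ • w) : False := by
  obtain ⟨bK, hbK⟩ := exists_basis_baseChange_res (K := AlgebraicClosure k) ρ b
  set ρK := ρ.baseChange (AlgebraicClosure k) with hρK
  set x : ρK.V := bK.equivFun.symm w with hx
  have hx0 : x ≠ 0 := by
    intro h0
    apply hw
    have : bK.equivFun x = w := by rw [hx, LinearEquiv.apply_symm_apply]
    rw [← this, h0, map_zero]
  have hstab : ∀ σ, ∀ y ∈ Submodule.span (AlgebraicClosure k) {x},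
      ρK.ρ σ y ∈ Submodule.span (AlgebraicClosure k) {x} := by
    intro σ y hy
    obtain ⟨a, rfl⟩ := Submodule.mem_span_singleton.mp hy
    obtain ⟨μ, hμ⟩ := h σ
    rw [map_smul]
    apply Submodule.smul_mem
    apply Submodule.mem_span_singleton.mpr
    refine ⟨μ, ?_⟩
    apply bK.equivFun.injective
    have e1 := LinearMap.toMatrix_mulVec_repr bK bK (ρK.ρ σ) x
    have hrepr : ∀ z : ρK.V, (bK.repr z : Fin 2 → AlgebraicClosure k) = bK.equivFun z := by
      intro z; rfl
    rw [hrepr, hrepr] at e1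
    rw [map_smul, ← e1]
    have : bK.equivFun x = w := by rw [hx, LinearEquiv.apply_symm_apply]
    rw [this, ← hμ]
    have := hbK σ
    rw [matOfRes_apply] at this
    rw [this]
  rcases habs _ hstab with h1 | h1
  · apply hx0
    have : x ∈ Submodule.span (AlgebraicClosure k) {x} := Submodule.mem_span_singleton_self x
    rw [h1] at this
    simpa using this
  · have hfr : Module.finrank (AlgebraicClosure k) (Submodule.span (AlgebraicClosure k) {x}) = 1 :=
      finrank_span_singleton hx0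
    rw [h1, finrank_top] at hfr
    have := ρK.finrank_eq
    omega

/-- Over an algebraically closed field, a `2 × 2` matrix with first column `(0, 1)` has an
eigenvector which is also an eigenvector of everything commuting with it. -/
theorem exists_common_eigenvector_of_commute {K : Type*} [Field K] [IsAlgClosed K]
    (M₀ : Matrix (Fin 2) (Fin 2) K) (h00 : M₀ 0 0 = 0) (h10 : M₀ 1 0 = 1) :
    ∃ w : Fin 2 → K, w ≠ 0 ∧ ∀ N : Matrix (Fin 2) (Fin 2) K, N * M₀ = M₀ * N →
      ∃ ν : K, N.mulVec w = ν • w := by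
  -- eigenvalue `μ` with `μ² = M₀ 1 1 * μ + M₀ 0 1`
  obtain ⟨μ, hμ⟩ : ∃ μ : K, μ * μ = M₀ 1 1 * μ + M₀ 0 1 := by
    have hdeg : (Polynomial.X ^ 2 - Polynomial.C (M₀ 1 1) * Polynomial.X - Polynomial.C (M₀ 0 1) :
        Polynomial K).degree ≠ 0 := by
      have : (Polynomial.X ^ 2 - Polynomial.C (M₀ 1 1) * Polynomial.X - Polynomial.C (M₀ 0 1) :
        Polynomial K).degree = 2 := by
        compute_degree!
      rw [this]; norm_num
    obtain ⟨μ, hμ⟩ := IsAlgClosed.exists_root _ hdeg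
    refine ⟨μ, ?_⟩
    simp only [Polynomial.IsRoot, Polynomial.eval_sub, Polynomial.eval_pow, Polynomial.eval_X,
      Polynomial.eval_mul, Polynomial.eval_C] at hμ
    linear_combination hμ
  refine ⟨![μ - M₀ 1 1, 1], ?_, fun N hN => ?_⟩
  · intro h
    have := congrFun h 1
    simp at this
  · obtain ⟨x, y, hxy⟩ : ∃ x y : K, N = x • (1 : Matrix (Fin 2) (Fin 2) K) + y • M₀ :=
      ⟨_, _, eq_smul_one_add_smul_of_intertwine M₀ M₀ N h00 h10 h00 h10 hN⟩
    refine ⟨x + y * μ, ?_⟩
    rw [hxy]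
    ext i
    fin_cases i
    · simp [Matrix.mulVec, dotProduct, Fin.sum_univ_two, Matrix.add_apply, Matrix.smul_apply,
        Matrix.one_apply, h00, h10]
      linear_combination (-y) * hμ
    · simp [Matrix.mulVec, dotProduct, Fin.sum_univ_two, Matrix.add_apply, Matrix.smul_apply,
        Matrix.one_apply, h00, h10]
      ring

/-- Field version of the first normalization step. -/
theorem exists_conj_first_column_field (M₀ : Matrix (Fin 2) (Fin 2) k) (h : M₀ 1 0 ≠ 0) :
    ∃ c d : Matrix (Fin 2) (Fin 2) k, c * d = 1 ∧ d * c = 1 ∧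
      (c * M₀ * d) 0 0 = 0 ∧ (c * M₀ * d) 1 0 = 1 := by
  refine ⟨!![1, -(M₀ 0 0) * (M₀ 1 0)⁻¹; 0, (M₀ 1 0)⁻¹], !![1, M₀ 0 0; 0, M₀ 1 0], ?_, ?_, ?_, ?_⟩
  · ext i j
    fin_cases i <;> fin_cases j <;> simp [Matrix.mul_apply, Fin.sum_univ_two, h]
  · ext i j
    fin_cases i <;> fin_cases j <;> simp [Matrix.mul_apply, Fin.sum_univ_two, h]
  · simp only [Matrix.mul_apply, Fin.sum_univ_two, Matrix.of_apply, Matrix.cons_val',
      Matrix.cons_val_zero, Matrix.cons_val_one, Matrix.cons_val_fin_one, Fin.isValue]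
    field_simp
    ring
  · simp only [Matrix.mul_apply, Fin.sum_univ_two, Matrix.of_apply, Matrix.cons_val',
      Matrix.cons_val_zero, Matrix.cons_val_one, Matrix.cons_val_fin_one, Fin.isValue]
    field_simp
    ring

/-- Existence of the residual normalization data. -/
theorem exists_residual_normalization (ρ : ResidualGaloisRep k)
    (habs : ρ.IsAbsolutelyIrreducible) :
    ∃ (b : Basis (Fin 2) k ρ.V) (g₀ g₁ : Γℚ) (i₀ j₀ : Fin 2),
      matOfRes ρ b g₀ 0 0 = 0 ∧ matOfRes ρ b g₀ 1 0 = 1 ∧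
      (matOfRes ρ b g₀ * matOfRes ρ b g₁ - matOfRes ρ b g₁ * matOfRes ρ b g₀) i₀ j₀ ≠ 0 := by
  classical
  set b₀ := ResidualGaloisRep.someBasis ρ with hb₀
  -- step 1: some `g₀` with nonzero `(1,0)` entry
  obtain ⟨g₀, hg₀⟩ : ∃ g₀, matOfRes ρ b₀ g₀ 1 0 ≠ 0 := by
    by_contra hcon
    push Not at hcon
    refine no_common_eigenvector ρ habs b₀ ![1, 0] ?_ fun σ => ?_
    · intro h
      have := congrFun h 0
      simp at this
    · refine ⟨algebraMap k (AlgebraicClosure k) (matOfRes ρ b₀ σ 0 0), ?_⟩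
      ext i
      fin_cases i
      · simp [Matrix.mulVec, dotProduct, Fin.sum_univ_two]
      · simp [Matrix.mulVec, dotProduct, Fin.sum_univ_two, hcon σ]
  obtain ⟨c, d, hcd, hdc, h00, h10⟩ := exists_conj_first_column_field (matOfRes ρ b₀ g₀) hg₀
  obtain ⟨b, hb⟩ := exists_basis_conj_res ρ b₀ c d hcd hdc
  rw [← hb g₀] at h00 h10
  -- step 2: some `g₁` not commuting with `g₀`
  obtain ⟨g₁, hg₁⟩ : ∃ g₁, matOfRes ρ b g₀ * matOfRes ρ b g₁ ≠ matOfRes ρ b g₁ * matOfRes ρ b g₀ := by
    by_contra hcon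
    push Not at hcon
    let φ := algebraMap k (AlgebraicClosure k)
    have h00' : ((matOfRes ρ b g₀).map φ) 0 0 = 0 := by simp [h00]
    have h10' : ((matOfRes ρ b g₀).map φ) 1 0 = 1 := by simp [h10]
    obtain ⟨w, hw, hcomm⟩ := exists_common_eigenvector_of_commute _ h00' h10'
    refine no_common_eigenvector ρ habs b w hw fun σ => hcomm _ ?_
    rw [← Matrix.map_mul, ← Matrix.map_mul, hcon σ]
  have : matOfRes ρ b g₀ * matOfRes ρ b g₁ - matOfRes ρ b g₁ * matOfRes ρ b g₀ ≠ 0 :=
    sub_ne_zero.mpr hg₁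
  obtain ⟨i₀, j₀, hij⟩ : ∃ i₀ j₀, (matOfRes ρ b g₀ * matOfRes ρ b g₁
      - matOfRes ρ b g₁ * matOfRes ρ b g₀) i₀ j₀ ≠ 0 := by
    by_contra hcon
    push Not at hcon
    exact this (Matrix.ext fun i j => by rw [hcon i j]; rfl)
  exact ⟨b, g₀, g₁, i₀, j₀, h00, h10, hij⟩

end Field

end Fermat.Agent.Lib.S53
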