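import Mathlib
import Fermat.Prelude.Def_GaloisRep_DeformationCondition
import Fermat.Agent.Lib.S53.NormalForm

/-!
# Test algebras: local `𝒪`-algebras with residue field `k`
-/

set_option autoImplicit false

namespace Fermat.Agent.Lib.S53

open IsLocalRing GaloisRep Function

section General

variable {𝒪 : Type} [CommRing 𝒪] [IsLocalRing 𝒪]

/-- An `𝒪`-algebra homomorphism into a test algebra is automatically local. -/
theorem isLocalHom_of_algHom {A B : Type} [CommRing A] [IsLocalRing A] [Algebra 𝒪 A]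
    [CommRing B] [IsLocalRing B] [Algebra 𝒪 B]
    (hB : IsLocalHom (algebraMap 𝒪 B)) (hs : Surjective (residue B ∘ algebraMap 𝒪 B))
    (φ : A →ₐ[𝒪] B) : IsLocalHom (φ : A →+* B) := by
  constructor
  intro a ha
  by_contra hna
  have ham : a ∈ maximalIdeal A := (mem_maximalIdeal a).mpr hna
  obtain ⟨x, hx⟩ := hs (residue B (φ a))
  rw [comp_apply] at hx
  have ha' : IsUnit (φ a) := ha
  have hxu : IsUnit (algebraMap 𝒪 B x) := by
    by_contra h
    have h0 : residue B (algebraMap 𝒪 B x) = 0 :=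
      (residue_eq_zero_iff _).mpr ((mem_maximalIdeal _).mpr h)
    rw [h0] at hx
    exact (residue_ne_zero_iff_isUnit _).mpr ha' hx.symm
  have hx' : IsUnit x := hB.map_nonunit x hxu
  have hAu : IsUnit (algebraMap 𝒪 A x + -a) :=
    isUnit_of_add_mem (hx'.map (algebraMap 𝒪 A)) (neg_mem ham)
  have hBu : IsUnit (φ (algebraMap 𝒪 A x + -a)) := hAu.map φ
  have h0 : residue B (φ (algebraMap 𝒪 A x + -a)) = 0 := by
    rw [map_add, map_neg, φ.commutes, map_add, map_neg, hx]
    ring
  exact (residue_ne_zero_iff_isUnit _).mpr hBu h0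

/-- In a test algebra every element is congruent to a scalar modulo the maximal ideal. -/
theorem exists_sub_algebraMap_mem {A : Type} [CommRing A] [IsLocalRing A] [Algebra 𝒪 A]
    (hs : Surjective (residue A ∘ algebraMap 𝒪 A)) (a : A) :
    ∃ x : 𝒪, a - algebraMap 𝒪 A x ∈ maximalIdeal A := by
  obtain ⟨x, hx⟩ := hs (residue A a)
  refine ⟨x, ?_⟩
  rw [← residue_eq_zero_iff, map_sub, ← hx]
  simp

end General

section Quotient

variable {𝒪 : Type} [CommRing 𝒪] [IsLocalRing 𝒪]
variable {A : Type} [CommRing A] [IsLocalRing A] [Algebra 𝒪 A]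

theorem quotient_isLocalRing (I : Ideal A) (hI : I ≠ ⊤) : IsLocalRing (A ⧸ I) :=
  haveI : Nontrivial (A ⧸ I) := Ideal.Quotient.nontrivial_iff.mpr hI
  IsLocalRing.of_surjective' (Ideal.Quotient.mk I) Ideal.Quotient.mk_surjective

theorem pow_maximalIdeal_ne_top {n : ℕ} (hn : n ≠ 0) : maximalIdeal A ^ n ≠ ⊤ := by
  intro h
  have : maximalIdeal A ^ n ≤ maximalIdeal A := Ideal.pow_le_self hn
  rw [h] at this
  exact (maximalIdeal.isMaximal A).ne_top (top_le_iff.mp this)

variable (I : Ideal A) [IsLocalRing (A ⧸ I)]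

theorem isLocalHom_quotient_mk : IsLocalHom (Ideal.Quotient.mk I) :=
  IsLocalHom.of_surjective _ Ideal.Quotient.mk_surjective

theorem maximalIdeal_quotient :
    maximalIdeal (A ⧸ I) = (maximalIdeal A).map (Ideal.Quotient.mk I) :=
  (map_maximalIdeal_of_surjective _ Ideal.Quotient.mk_surjective).symm

theorem mk_mem_maximalIdeal_iff (a : A) :
    Ideal.Quotient.mk I a ∈ maximalIdeal (A ⧸ I) ↔ a ∈ maximalIdeal A := by
  haveI := isLocalHom_quotient_mk I
  rw [← maximalIdeal_comap (Ideal.Quotient.mk I), Ideal.mem_comap]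

theorem maximalIdeal_quotient_pow_eq_bot {n : ℕ} (hn : maximalIdeal A ^ n ≤ I) :
    maximalIdeal (A ⧸ I) ^ n = ⊥ := by
  rw [maximalIdeal_quotient, ← Ideal.map_pow, Ideal.map_eq_bot_iff_le_ker, Ideal.mk_ker]
  exact hn

theorem quotient_isLocalHom_algebraMap (hA : IsLocalHom (algebraMap 𝒪 A)) :
    IsLocalHom (algebraMap 𝒪 (A ⧸ I)) := by
  haveI := isLocalHom_quotient_mk I
  haveI := hA
  have : algebraMap 𝒪 (A ⧸ I) = (Ideal.Quotient.mk I).comp (algebraMap 𝒪 A) := rfl
  rw [this]
  exact RingHom.isLocalHom_comp _ _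

theorem quotient_residue_surjective (hs : Surjective (residue A ∘ algebraMap 𝒪 A)) :
    Surjective (residue (A ⧸ I) ∘ algebraMap 𝒪 (A ⧸ I)) := by
  intro y
  obtain ⟨b, rfl⟩ := residue_surjective y
  obtain ⟨a, rfl⟩ := Ideal.Quotient.mk_surjective b
  obtain ⟨x, hx⟩ := exists_sub_algebraMap_mem hs a
  refine ⟨x, ?_⟩
  rw [comp_apply]
  symm
  rw [← sub_eq_zero, ← map_sub, residue_eq_zero_iff]
  have : Ideal.Quotient.mk I a - algebraMap 𝒪 (A ⧸ I) x
      = Ideal.Quotient.mk I (a - algebraMap 𝒪 A x) := by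
    rw [map_sub]; rfl
  rw [this, mk_mem_maximalIdeal_iff]
  exact hx

omit [IsLocalRing (A ⧸ I)] in
theorem finite_residueField_of_surjective [Finite (ResidueField 𝒪)]
    (hA : IsLocalHom (algebraMap 𝒪 A))
    (hs : Surjective (residue A ∘ algebraMap 𝒪 A)) : Finite (ResidueField A) := by
  haveI := hA
  refine Finite.of_surjective (ResidueField.map (algebraMap 𝒪 A)) fun y => ?_
  obtain ⟨x, hx⟩ := hs y
  exact ⟨residue 𝒪 x, by rw [ResidueField.map_residue]; exact hx⟩

omit [IsLocalRing (A ⧸ I)] in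
theorem finite_quotient_of_pow_le [Finite (ResidueField 𝒪)] [IsNoetherianRing A]
    (hA : IsLocalHom (algebraMap 𝒪 A))
    (hs : Surjective (residue A ∘ algebraMap 𝒪 A)) {n : ℕ} (hn : maximalIdeal A ^ n ≤ I) :
    Finite (A ⧸ I) := by
  haveI : Finite (A ⧸ maximalIdeal A) := finite_residueField_of_surjective hA hs
  haveI : Finite (A ⧸ maximalIdeal A ^ n) :=
    Ideal.finite_quotient_pow (IsNoetherian.noetherian (maximalIdeal A)) n
  exact Finite.of_surjective (Ideal.Quotient.factor hn) (Ideal.Quotient.factor_surjective hn)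

theorem quotient_isArtinianTestAlgebra [Finite (ResidueField 𝒪)] [IsNoetherianRing A]
    (hA : IsLocalHom (algebraMap 𝒪 A))
    (hs : Surjective (residue A ∘ algebraMap 𝒪 A)) {n : ℕ} (hn : maximalIdeal A ^ n ≤ I) :
    IsArtinianTestAlgebra 𝒪 (A ⧸ I) where
  isLocalHom := quotient_isLocalHom_algebraMap I hA
  residue_surjective := quotient_residue_surjective I hs
  isArtinian := by
    haveI := finite_quotient_of_pow_le I hA hs hn
    infer_instance

end Quotient

end Fermat.Agent.Lib.S53
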