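import Mathlib
import Fermat.Prelude.Def_GaloisRep_DeformationCondition
import Fermat.Agent.Lib.S53.NormalForm
import Fermat.Agent.Lib.S53.MatrixRep
import Fermat.Agent.Lib.S53.NormData
import Fermat.Agent.Lib.S53.TestAlgebra

/-!
# Normalized lifts of an absolutely irreducible residual representation
-/

set_option autoImplicit false

namespace Fermat.Agent.Lib.S53

open IsLocalRing GaloisRep Function Module

local notation "Γℚ" => (AlgebraicClosure ℚ ≃ₐ[ℚ] AlgebraicClosure ℚ)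

section HenselianInst

/-- A local ring which is complete for its maximal ideal is Henselian. -/
theorem henselianLocalRing_of_isAdicComplete (A : Type*) [CommRing A] [IsLocalRing A]
    [IsAdicComplete (maximalIdeal A) A] : HenselianLocalRing A where
  is_henselian f hf a₀ h₀ hu :=
    HenselianRing.is_henselian (I := maximalIdeal A) f hf a₀ h₀ (hu.map _)

end HenselianInst

section NormData

variable {𝒪 : Type} [CommRing 𝒪] [IsLocalRing 𝒪]

/-- Normalization data for a residual representation `ρbar`: a basis in which `ρbar g₀` has first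
column `(0, 1)`, an element `g₁` and an entry `(i₀, j₀)` at which the commutator of `ρbar g₀`
and `ρbar g₁` does not vanish, together with a set-theoretic lift of the matrices to `𝒪`. -/
structure NormData (ρbar : ResidualGaloisRep (ResidueField 𝒪)) where
  b : Basis (Fin 2) (ResidueField 𝒪) ρbar.V
  g₀ : Γℚ
  g₁ : Γℚ
  i₀ : Fin 2
  j₀ : Fin 2
  Mtil : Γℚ → Matrix (Fin 2) (Fin 2) 𝒪
  hMtil : ∀ σ, (Mtil σ).map (residue 𝒪) = matOfRes ρbar b σ
  h00 : matOfRes ρbar b g₀ 0 0 = 0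
  h10 : matOfRes ρbar b g₀ 1 0 = 1
  hcomm : (matOfRes ρbar b g₀ * matOfRes ρbar b g₁
    - matOfRes ρbar b g₁ * matOfRes ρbar b g₀) i₀ j₀ ≠ 0

theorem exists_normData (ρbar : ResidualGaloisRep (ResidueField 𝒪))
    (habs : ρbar.IsAbsolutelyIrreducible) : Nonempty (NormData ρbar) := by
  obtain ⟨b, g₀, g₁, i₀, j₀, h00, h10, hcomm⟩ := exists_residual_normalization ρbar habs
  refine ⟨⟨b, g₀, g₁, i₀, j₀,
    fun σ => Matrix.of fun i j => Classical.choose (residue_surjective (matOfRes ρbar b σ i j)),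
    fun σ => ?_, h00, h10, hcomm⟩⟩
  ext i j
  exact Classical.choose_spec (residue_surjective (matOfRes ρbar b σ i j))

end NormData

section Congruence

variable {A : Type*} [CommRing A]

/-- Entrywise congruence of matrices modulo an ideal is compatible with products. -/
theorem mul_sub_mul_mem {I : Ideal A} {X X' Y Y' : Matrix (Fin 2) (Fin 2) A}
    (hX : ∀ i j, X i j - X' i j ∈ I) (hY : ∀ i j, Y i j - Y' i j ∈ I) (i j : Fin 2) :
    (X * Y) i j - (X' * Y') i j ∈ I := by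
  have h : X * Y - X' * Y' = (X - X') * Y + X' * (Y - Y') := by noncomm_ring
  have h' : (X * Y) i j - (X' * Y') i j = (X * Y - X' * Y') i j := by simp
  rw [h', h, Matrix.add_apply, Matrix.mul_apply, Matrix.mul_apply]
  exact I.add_mem (Ideal.sum_mem _ fun l _ => Ideal.mul_mem_right _ _ (hX i l))
    (Ideal.sum_mem _ fun l _ => Ideal.mul_mem_left _ _ (hY l j))

end Congruence

section Consequences

variable {𝒪 : Type} [CommRing 𝒪] [IsLocalRing 𝒪]
variable {ρbar : ResidualGaloisRep (ResidueField 𝒪)} (D : NormData ρbar)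
variable {A : Type} [CommRing A] [IsLocalRing A] [Algebra 𝒪 A]

theorem NormData.residue_Mtil (σ : Γℚ) (i j : Fin 2) :
    residue 𝒪 (D.Mtil σ i j) = matOfRes ρbar D.b σ i j := by
  have := congrFun (congrFun (D.hMtil σ) i) j
  simpa using this

theorem NormData.Mtil00_mem : D.Mtil D.g₀ 0 0 ∈ maximalIdeal 𝒪 := by
  rw [← residue_eq_zero_iff, D.residue_Mtil, D.h00]

theorem NormData.Mtil10_mem : D.Mtil D.g₀ 1 0 - 1 ∈ maximalIdeal 𝒪 := by
  rw [← residue_eq_zero_iff, map_sub, D.residue_Mtil, D.h10, map_one, sub_self]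

theorem NormData.isUnit_comm :
    IsUnit ((D.Mtil D.g₀ * D.Mtil D.g₁ - D.Mtil D.g₁ * D.Mtil D.g₀) D.i₀ D.j₀) := by
  rw [← residue_ne_zero_iff_isUnit]
  have h := D.hcomm
  rw [← D.hMtil, ← D.hMtil] at h
  have e : ((D.Mtil D.g₀).map (residue 𝒪) * (D.Mtil D.g₁).map (residue 𝒪)
      - (D.Mtil D.g₁).map (residue 𝒪) * (D.Mtil D.g₀).map (residue 𝒪)) D.i₀ D.j₀
      = residue 𝒪 ((D.Mtil D.g₀ * D.Mtil D.g₁ - D.Mtil D.g₁ * D.Mtil D.g₀) D.i₀ D.j₀) := by
    rw [← Matrix.map_mul, ← Matrix.map_mul]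
    simp only [Matrix.sub_apply, Matrix.map_apply, map_sub]
  rwa [e] at h

variable {D}

/-- Consequences of the residual condition for a lift `M`. -/
theorem lift_g₀_00_mem (hA : IsLocalHom (algebraMap 𝒪 A)) {M : Γℚ → Matrix (Fin 2) (Fin 2) A}
    (hres : ∀ σ i j, M σ i j - algebraMap 𝒪 A (D.Mtil σ i j) ∈ maximalIdeal A) :
    M D.g₀ 0 0 ∈ maximalIdeal A := by
  haveI := hA
  have h1 := hres D.g₀ 0 0
  have h2 : algebraMap 𝒪 A (D.Mtil D.g₀ 0 0) ∈ maximalIdeal A :=
    map_nonunit (algebraMap 𝒪 A) _ D.Mtil00_mem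
  have := (maximalIdeal A).add_mem h1 h2
  simpa using this

theorem lift_g₀_10_mem (hA : IsLocalHom (algebraMap 𝒪 A)) {M : Γℚ → Matrix (Fin 2) (Fin 2) A}
    (hres : ∀ σ i j, M σ i j - algebraMap 𝒪 A (D.Mtil σ i j) ∈ maximalIdeal A) :
    M D.g₀ 1 0 - 1 ∈ maximalIdeal A := by
  haveI := hA
  have h1 := hres D.g₀ 1 0
  have h2 : algebraMap 𝒪 A (D.Mtil D.g₀ 1 0 - 1) ∈ maximalIdeal A :=
    map_nonunit (algebraMap 𝒪 A) _ D.Mtil10_mem
  have := (maximalIdeal A).add_mem h1 h2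
  rw [map_sub, map_one] at this
  simpa using this

theorem lift_isUnit_comm {M : Γℚ → Matrix (Fin 2) (Fin 2) A}
    (hres : ∀ σ i j, M σ i j - algebraMap 𝒪 A (D.Mtil σ i j) ∈ maximalIdeal A) :
    IsUnit ((M D.g₀ * M D.g₁ - M D.g₁ * M D.g₀) D.i₀ D.j₀) := by
  have hu : IsUnit (algebraMap 𝒪 A
      ((D.Mtil D.g₀ * D.Mtil D.g₁ - D.Mtil D.g₁ * D.Mtil D.g₀) D.i₀ D.j₀)) :=
    D.isUnit_comm.map _
  set T₀ : Matrix (Fin 2) (Fin 2) A := (D.Mtil D.g₀).map (algebraMap 𝒪 A) with hT₀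
  set T₁ : Matrix (Fin 2) (Fin 2) A := (D.Mtil D.g₁).map (algebraMap 𝒪 A) with hT₁
  have e : algebraMap 𝒪 A ((D.Mtil D.g₀ * D.Mtil D.g₁ - D.Mtil D.g₁ * D.Mtil D.g₀) D.i₀ D.j₀)
      = (T₀ * T₁ - T₁ * T₀) D.i₀ D.j₀ := by
    rw [hT₀, hT₁, ← Matrix.map_mul, ← Matrix.map_mul]
    simp only [Matrix.sub_apply, Matrix.map_apply, map_sub]
  rw [e] at hu
  have h0 : ∀ i j, M D.g₀ i j - T₀ i j ∈ maximalIdeal A := fun i j => hres D.g₀ i j
  have h1 : ∀ i j, M D.g₁ i j - T₁ i j ∈ maximalIdeal A := fun i j => hres D.g₁ i j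
  have hd : (M D.g₀ * M D.g₁ - M D.g₁ * M D.g₀) D.i₀ D.j₀ - (T₀ * T₁ - T₁ * T₀) D.i₀ D.j₀
      ∈ maximalIdeal A := by
    have a1 := mul_sub_mul_mem h0 h1 D.i₀ D.j₀
    have a2 := mul_sub_mul_mem h1 h0 D.i₀ D.j₀
    have := (maximalIdeal A).sub_mem a1 a2
    have e2 : (M D.g₀ * M D.g₁ - M D.g₁ * M D.g₀) D.i₀ D.j₀ - (T₀ * T₁ - T₁ * T₀) D.i₀ D.j₀
        = (M D.g₀ * M D.g₁) D.i₀ D.j₀ - (T₀ * T₁) D.i₀ D.j₀
          - ((M D.g₁ * M D.g₀) D.i₀ D.j₀ - (T₁ * T₀) D.i₀ D.j₀) := by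
      simp only [Matrix.sub_apply]; ring
    rw [e2]; exact this
  have := isUnit_of_add_mem hu hd
  simpa using this

end Consequences

section Equivalences

variable {A : Type} [CommRing A] [IsLocalRing A]

/-- The representation attached to the entrywise image of `r` is the base change. -/
theorem isEquiv_baseChangeAlong_toRep {B : Type} [CommRing B] [IsLocalRing B]
    (r : Γℚ →* Matrix (Fin 2) (Fin 2) A) (hr : MatContinuous r) (φ : A →+* B)
    (hφ : IsLocalHom φ) :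
    ((toRep r hr).baseChangeAlong φ hφ).IsEquiv (toRep (mapHom φ r) (hr.map_ringHom φ hφ)) := by
  obtain ⟨b', hb'⟩ := exists_basis_baseChangeAlong (toRep r hr) (toRepBasis r hr) φ hφ
  refine isEquiv_of_matOf_eq b' (toRepBasis _ _) fun σ => ?_
  rw [hb', matOf_toRep, matOf_toRep, mapHom_apply]

theorem isEquiv_toRep_baseChangeAlong {B : Type} [CommRing B] [IsLocalRing B]
    (r : Γℚ →* Matrix (Fin 2) (Fin 2) A) (hr : MatContinuous r) (φ : A →+* B)
    (hφ : IsLocalHom φ) :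
    (toRep (mapHom φ r) (hr.map_ringHom φ hφ)).IsEquiv ((toRep r hr).baseChangeAlong φ hφ) := by
  obtain ⟨e⟩ := isEquiv_baseChangeAlong_toRep r hr φ hφ
  exact ⟨e.symm⟩

/-- A representation is equivalent to the matrix representation in any basis. -/
theorem isEquiv_toRep_matOf (ρ : GaloisRepAdic A) (b : Basis (Fin 2) A ρ.V)
    (r : Γℚ →* Matrix (Fin 2) (Fin 2) A) (hr : MatContinuous r) (h : ∀ σ, r σ = matOf ρ b σ) :
    (toRep r hr).IsEquiv ρ :=
  isEquiv_of_matOf_eq (toRepBasis r hr) b fun σ => by rw [matOf_toRep, h]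

theorem isEquiv_symm {ρ₁ ρ₂ : GaloisRepAdic A} (h : ρ₁.IsEquiv ρ₂) : ρ₂.IsEquiv ρ₁ := by
  obtain ⟨e⟩ := h
  exact ⟨e.symm⟩

theorem isEquiv_trans {ρ₁ ρ₂ ρ₃ : GaloisRepAdic A} (h : ρ₁.IsEquiv ρ₂) (h' : ρ₂.IsEquiv ρ₃) :
    ρ₁.IsEquiv ρ₃ := by
  obtain ⟨e⟩ := h
  obtain ⟨e'⟩ := h'
  exact ⟨e.trans e'⟩

end Equivalences

section Condition

variable {𝒪 : Type} [CommRing 𝒪] [IsLocalRing 𝒪]
variable {𝒟 : ∀ ⦃A : Type⦄ [CommRing A] [IsLocalRing A] [Algebra 𝒪 A], GaloisRepAdic A → Prop}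

/-- Deformation conditions are invariant under equivalence also over complete Noetherian test
algebras. -/
theorem of_isEquiv_cnl (h𝒟 : IsDeformationCondition 𝒪 𝒟)
    {A : Type} [CommRing A] [IsLocalRing A] [IsNoetherianRing A]
    [IsAdicComplete (maximalIdeal A) A] [Algebra 𝒪 A]
    (hA : IsLocalHom (algebraMap 𝒪 A)) (hs : Surjective (residue A ∘ algebraMap 𝒪 A))
    {ρ ρ' : GaloisRepAdic A} (h : ρ.IsEquiv ρ') (hρ : 𝒟 ρ) : 𝒟 ρ' := by
  rw [h𝒟.iff_forall_surjective hA hs] at hρ ⊢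
  intro B _ _ _ hB q hq hsurj
  obtain ⟨e⟩ := h
  exact h𝒟.of_isEquiv hB ⟨GaloisRepAdic.Equiv.baseChangeAlong (q : A →+* B) hq e⟩
    (hρ hB q hq hsurj)

end Condition

section Residual

variable {𝒪 : Type} [CommRing 𝒪] [IsLocalRing 𝒪]
variable {ρbar : ResidualGaloisRep (ResidueField 𝒪)} (D : NormData ρbar)
variable {A : Type} [CommRing A] [IsLocalRing A] [Algebra 𝒪 A]

/-- The residual representation of a lift satisfying the residual condition is `ρbar`. -/
theorem residual_isEquiv_of_res [Algebra (ResidueField 𝒪) (ResidueField A)]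
    (hcompat : ∀ x : 𝒪, algebraMap (ResidueField 𝒪) (ResidueField A) (residue 𝒪 x)
      = residue A (algebraMap 𝒪 A x))
    (r : Γℚ →* Matrix (Fin 2) (Fin 2) A) (hr : MatContinuous r)
    (hres : ∀ σ i j, r σ i j - algebraMap 𝒪 A (D.Mtil σ i j) ∈ maximalIdeal A) :
    (toRep r hr).residual.IsEquiv (ρbar.baseChange (ResidueField A)) := by
  obtain ⟨b₁, hb₁⟩ := exists_basis_residual (toRep r hr) (toRepBasis r hr)
  obtain ⟨b₂, hb₂⟩ := exists_basis_baseChange_res (K := ResidueField A) ρbar D.b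
  refine isEquiv_of_matOfRes_eq b₁ b₂ fun σ => ?_
  rw [matOfRes_apply, hb₁, hb₂, matOf_toRep, ← D.hMtil]
  ext i j
  simp only [Matrix.map_apply]
  rw [hcompat, ← sub_eq_zero, ← map_sub, residue_eq_zero_iff]
  exact hres σ i j

/-- Conversely, a representation with residual representation `ρbar` has a basis in which the
residual condition holds. -/
theorem exists_basis_res [Algebra (ResidueField 𝒪) (ResidueField A)]
    (hcompat : ∀ x : 𝒪, algebraMap (ResidueField 𝒪) (ResidueField A) (residue 𝒪 x)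
      = residue A (algebraMap 𝒪 A x))
    (ρA : GaloisRepAdic A) (h : ρA.residual.IsEquiv (ρbar.baseChange (ResidueField A))) :
    ∃ b : Basis (Fin 2) A ρA.V,
      ∀ σ i j, matOf ρA b σ i j - algebraMap 𝒪 A (D.Mtil σ i j) ∈ maximalIdeal A := by
  classical
  set b₁ : Basis (Fin 2) A ρA.V := Module.finBasisOfFinrankEq A ρA.V ρA.finrank_eq with hb₁
  obtain ⟨b₁', h₁⟩ := exists_basis_residual ρA b₁
  obtain ⟨b₂', h₂⟩ := exists_basis_baseChange_res (K := ResidueField A) ρbar D.b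
  obtain ⟨e⟩ := h
  obtain ⟨b₃', h₃⟩ := exists_basis_of_isEquiv_res ⟨e.symm⟩ b₂'
  obtain ⟨cbar, dbar, hcd, hdc, hconj⟩ := exists_conj_of_bases_res ρA.residual b₁' b₃'
  -- lift the conjugating matrix
  let lift : ResidueField A → A := Function.surjInv residue_surjective
  have hlift : ∀ y, residue A (lift y) = y := Function.surjInv_eq residue_surjective
  set c : Matrix (Fin 2) (Fin 2) A := cbar.map lift with hc
  have hcmap : c.map (residue A) = cbar := by
    ext i j; simp [hc, hlift]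
  have hdet : IsUnit c.det := by
    rw [← residue_ne_zero_iff_isUnit]
    have : residue A c.det = cbar.det := by
      rw [RingHom.map_det, RingHom.mapMatrix_apply, hcmap]
    rw [this]
    intro h0
    have := congrArg Matrix.det hcd
    rw [Matrix.det_mul, h0, zero_mul, Matrix.det_one] at this
    exact zero_ne_one this
  have hcd' : c * c⁻¹ = 1 := Matrix.mul_nonsing_inv c hdet
  have hdc' : c⁻¹ * c = 1 := Matrix.nonsing_inv_mul c hdet
  have hdmap : (c⁻¹).map (residue A) = dbar := by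
    have e1 : cbar * (c⁻¹).map (residue A) = 1 := by
      rw [← hcmap, ← Matrix.map_mul, hcd']
      exact Matrix.map_one _ (map_zero _) (map_one _)
    calc (c⁻¹).map (residue A) = (dbar * cbar) * (c⁻¹).map (residue A) := by
          rw [hdc, Matrix.one_mul]
      _ = dbar := by rw [Matrix.mul_assoc, e1, Matrix.mul_one]
  obtain ⟨b, hb⟩ := exists_basis_conj ρA b₁ c c⁻¹ hcd' hdc'
  refine ⟨b, fun σ i j => ?_⟩
  rw [← residue_eq_zero_iff, map_sub, sub_eq_zero, ← hcompat]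
  have key : (matOf ρA b σ).map (residue A)
      = ((D.Mtil σ).map (residue 𝒪)).map (algebraMap (ResidueField 𝒪) (ResidueField A)) := by
    rw [hb σ, Matrix.map_mul, Matrix.map_mul, hcmap, hdmap, ← h₁ σ, ← matOfRes_apply, ← hconj σ,
      h₃ σ, h₂ σ, D.hMtil]
  have := congrFun (congrFun key i) j
  simpa using this

end Residual

end Fermat.Agent.Lib.S53
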