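import Mathlib
import Fermat.Prelude.Def_GaloisRep_DeformationCondition
import Fermat.Agent.Lib.S53.Lift

/-!
# Normalized lifts: definition, existence and uniqueness
-/

set_option autoImplicit false

namespace Fermat.Agent.Lib.S53

open IsLocalRing GaloisRep Function Module

local notation "Γℚ" => (AlgebraicClosure ℚ ≃ₐ[ℚ] AlgebraicClosure ℚ)

section Defs

variable {𝒪 : Type} [CommRing 𝒪] [IsLocalRing 𝒪]
variable {ρbar : ResidualGaloisRep (ResidueField 𝒪)}

/-- Bundle a multiplicative matrix-valued function as a monoid homomorphism. -/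
def mkHom {A : Type} [CommRing A] (M : Γℚ → Matrix (Fin 2) (Fin 2) A) (h1 : M 1 = 1)
    (hm : ∀ σ τ, M (σ * τ) = M σ * M τ) : Γℚ →* Matrix (Fin 2) (Fin 2) A where
  toFun := M
  map_one' := h1
  map_mul' := hm

@[simp] theorem mkHom_apply {A : Type} [CommRing A] (M : Γℚ → Matrix (Fin 2) (Fin 2) A)
    (h1 : M 1 = 1) (hm : ∀ σ τ, M (σ * τ) = M σ * M τ) (σ : Γℚ) : mkHom M h1 hm σ = M σ := rfl

/-- `M` is a normalized lift of `ρbar` to `A` (no condition on the type). -/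
structure IsNormalized (D : NormData ρbar)
    (A : Type) [CommRing A] [IsLocalRing A] [Algebra 𝒪 A]
    (M : Γℚ → Matrix (Fin 2) (Fin 2) A) : Prop where
  map_one : M 1 = 1
  map_mul : ∀ σ τ, M (σ * τ) = M σ * M τ
  cont : ∀ n : ℕ, ∃ L : IntermediateField ℚ (AlgebraicClosure ℚ), FiniteDimensional ℚ L ∧
    ∀ σ : Γℚ, (∀ x ∈ L, σ x = x) → ∀ i j, (M σ - 1) i j ∈ maximalIdeal A ^ n
  res : ∀ σ i j, M σ i j - algebraMap 𝒪 A (D.Mtil σ i j) ∈ maximalIdeal A
  n00 : M D.g₀ 0 0 = 0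
  n10 : M D.g₀ 1 0 = 1
  n1 : M D.g₁ D.i₀ D.j₀ = algebraMap 𝒪 A (D.Mtil D.g₁ D.i₀ D.j₀)

/-- `M` is a normalized lift of `ρbar` of type `𝒟` to `A`. -/
structure IsNormLift (D : NormData ρbar)
    (𝒟 : ∀ ⦃A : Type⦄ [CommRing A] [IsLocalRing A] [Algebra 𝒪 A], GaloisRepAdic A → Prop)
    (A : Type) [CommRing A] [IsLocalRing A] [Algebra 𝒪 A]
    (M : Γℚ → Matrix (Fin 2) (Fin 2) A) : Prop extends IsNormalized D A M where
  isOfType : ∀ (r : Γℚ →* Matrix (Fin 2) (Fin 2) A) (hr : MatContinuous r),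
    (∀ σ, r σ = M σ) → 𝒟 (toRep r hr)

variable {D : NormData ρbar}
  {𝒟 : ∀ ⦃A : Type⦄ [CommRing A] [IsLocalRing A] [Algebra 𝒪 A], GaloisRepAdic A → Prop}
  {A : Type} [CommRing A] [IsLocalRing A] [Algebra 𝒪 A]
  {M : Γℚ → Matrix (Fin 2) (Fin 2) A}

/-- The monoid homomorphism underlying a normalized lift. -/
def IsNormalized.hom (h : IsNormalized D A M) : Γℚ →* Matrix (Fin 2) (Fin 2) A :=
  mkHom M h.map_one h.map_mul

@[simp] theorem IsNormalized.hom_apply (h : IsNormalized D A M) (σ : Γℚ) : h.hom σ = M σ := rfl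

theorem IsNormalized.matContinuous (h : IsNormalized D A M) : MatContinuous h.hom := h.cont

/-- The representation attached to a normalized lift. -/
noncomputable abbrev IsNormalized.rep (h : IsNormalized D A M) : GaloisRepAdic A :=
  toRep h.hom h.matContinuous

theorem IsNormLift.isOfType' (h : IsNormLift D 𝒟 A M) : 𝒟 h.toIsNormalized.rep :=
  h.isOfType _ _ fun _ => rfl

/-- Constructor from a bundled homomorphism. -/
theorem IsNormalized.of_hom (r : Γℚ →* Matrix (Fin 2) (Fin 2) A) (hr : MatContinuous r)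
    (hres : ∀ σ i j, r σ i j - algebraMap 𝒪 A (D.Mtil σ i j) ∈ maximalIdeal A)
    (h00 : r D.g₀ 0 0 = 0) (h10 : r D.g₀ 1 0 = 1)
    (h1 : r D.g₁ D.i₀ D.j₀ = algebraMap 𝒪 A (D.Mtil D.g₁ D.i₀ D.j₀)) :
    IsNormalized D A (fun σ => r σ) where
  map_one := _root_.map_one r
  map_mul := _root_.map_mul r
  cont := hr
  res := hres
  n00 := h00
  n10 := h10
  n1 := h1

/-- Constructor from a bundled homomorphism. -/
theorem IsNormLift.of_hom (r : Γℚ →* Matrix (Fin 2) (Fin 2) A) (hr : MatContinuous r)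
    (hres : ∀ σ i j, r σ i j - algebraMap 𝒪 A (D.Mtil σ i j) ∈ maximalIdeal A)
    (h00 : r D.g₀ 0 0 = 0) (h10 : r D.g₀ 1 0 = 1)
    (h1 : r D.g₁ D.i₀ D.j₀ = algebraMap 𝒪 A (D.Mtil D.g₁ D.i₀ D.j₀))
    (h𝒟 : 𝒟 (toRep r hr)) : IsNormLift D 𝒟 A (fun σ => r σ) where
  toIsNormalized := IsNormalized.of_hom r hr hres h00 h10 h1
  isOfType := by
    intro r' hr' h
    have : r' = r := MonoidHom.ext h
    subst this
    exact h𝒟

/-- Constructor from a normalized function. -/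
theorem IsNormLift.of_isNormalized (h : IsNormalized D A M) (h𝒟 : 𝒟 h.rep) :
    IsNormLift D 𝒟 A M where
  toIsNormalized := h
  isOfType := by
    intro r' hr' h'
    have : r' = h.hom := MonoidHom.ext h'
    subst this
    exact h𝒟

end Defs

section Uniqueness

variable {𝒪 : Type} [CommRing 𝒪] [IsLocalRing 𝒪]
variable {ρbar : ResidualGaloisRep (ResidueField 𝒪)} {D : NormData ρbar}
  {𝒟 : ∀ ⦃A : Type⦄ [CommRing A] [IsLocalRing A] [Algebra 𝒪 A], GaloisRepAdic A → Prop}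
  {A : Type} [CommRing A] [IsLocalRing A] [Algebra 𝒪 A]

/-- (A3) Two normalized lifts giving equivalent representations are equal. -/
theorem IsNormalized.unique {M M' : Γℚ → Matrix (Fin 2) (Fin 2) A}
    (h : IsNormalized D A M) (h' : IsNormalized D A M')
    (he : h.rep.IsEquiv h'.rep) : M = M' := by
  obtain ⟨b₂, hb₂⟩ := exists_basis_of_isEquiv he (toRepBasis h.hom h.matContinuous)
  obtain ⟨c, d, hcd, hdc, hconj⟩ := exists_conj_of_bases (toRep h'.hom h'.matContinuous) b₂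
    (toRepBasis h'.hom h'.matContinuous)
  have hconj' : ∀ σ, M' σ = c * M σ * d := by
    intro σ
    have := hconj σ
    rw [matOf_toRep, hb₂, matOf_toRep] at this
    exact this
  have hint : ∀ σ, c * M σ = M' σ * c := by
    intro σ
    rw [hconj' σ, Matrix.mul_assoc, Matrix.mul_assoc, hdc, Matrix.mul_one]
  have hdet : IsUnit c.det := by
    have := congrArg Matrix.det hcd
    rw [Matrix.det_mul, Matrix.det_one] at this
    exact IsUnit.of_mul_eq_one _ this
  obtain ⟨x, hx, hcx⟩ := conj_eq_scalar_of_normalized (M D.g₀) (M D.g₁) (M' D.g₀) (M' D.g₁) c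
    D.i₀ D.j₀ h.n00 h.n10 h'.n00 h'.n10 (by rw [h.n1, h'.n1])
    (fun i j => by
      have := (maximalIdeal A).sub_mem (h.res D.g₁ i j) (h'.res D.g₁ i j)
      simpa using this)
    (lift_isUnit_comm h.res) hdet (hint D.g₀) (hint D.g₁)
  funext σ
  have h1 := hint σ
  rw [hcx] at h1
  obtain ⟨y, hy⟩ := hx.exists_left_inv
  have h2 : x • M σ = x • M' σ := by
    simpa using h1
  have := congrArg (fun Z => y • Z) h2
  simpa [smul_smul, hy] using this

end Uniqueness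

section Existence

variable {𝒪 : Type} [CommRing 𝒪] [IsLocalRing 𝒪]
variable {ρbar : ResidualGaloisRep (ResidueField 𝒪)} (D : NormData ρbar)
  {𝒟 : ∀ ⦃A : Type⦄ [CommRing A] [IsLocalRing A] [Algebra 𝒪 A], GaloisRepAdic A → Prop}
  {A : Type} [CommRing A] [IsLocalRing A] [Algebra 𝒪 A]

/-- (A2), matrix part: a representation over a Henselian local `𝒪`-algebra lifting `ρbar` has a
basis in which it is normalized. -/
theorem exists_basis_normalized [HenselianLocalRing A] (hA : IsLocalHom (algebraMap 𝒪 A))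
    [Algebra (ResidueField 𝒪) (ResidueField A)]
    (hcompat : ∀ x : 𝒪, algebraMap (ResidueField 𝒪) (ResidueField A) (residue 𝒪 x)
      = residue A (algebraMap 𝒪 A x))
    (ρA : GaloisRepAdic A) (h : ρA.residual.IsEquiv (ρbar.baseChange (ResidueField A))) :
    ∃ b : Basis (Fin 2) A ρA.V,
      (∀ σ i j, matOf ρA b σ i j - algebraMap 𝒪 A (D.Mtil σ i j) ∈ maximalIdeal A) ∧
      matOf ρA b D.g₀ 0 0 = 0 ∧ matOf ρA b D.g₀ 1 0 = 1 ∧
      matOf ρA b D.g₁ D.i₀ D.j₀ = algebraMap 𝒪 A (D.Mtil D.g₁ D.i₀ D.j₀) := by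
  obtain ⟨b₀, hb₀⟩ := exists_basis_res D hcompat ρA h
  obtain ⟨c, d, hcd, hdc, hc, hd, e00, e10, e1⟩ :=
    exists_conj_normalized (matOf ρA b₀ D.g₀) (matOf ρA b₀ D.g₁) D.i₀ D.j₀
      (algebraMap 𝒪 A (D.Mtil D.g₁ D.i₀ D.j₀))
      (lift_g₀_00_mem hA (M := fun σ => matOf ρA b₀ σ) hb₀)
      (lift_g₀_10_mem hA (M := fun σ => matOf ρA b₀ σ) hb₀)
      (lift_isUnit_comm (M := fun σ => matOf ρA b₀ σ) hb₀)
      (hb₀ D.g₁ D.i₀ D.j₀)
  obtain ⟨b, hb⟩ := exists_basis_conj ρA b₀ c d hcd hdc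
  refine ⟨b, fun σ i j => ?_, ?_, ?_, ?_⟩
  · rw [hb σ]
    have h1 := CongOne.conj_sub_mem hc hd (matOf ρA b₀ σ) i j
    have := (maximalIdeal A).add_mem h1 (hb₀ σ i j)
    simpa using this
  · rw [hb]; exact e00
  · rw [hb]; exact e10
  · rw [hb]; exact e1

end Existence

end Fermat.Agent.Lib.S53
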