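import Mathlib
import Fermat.Prelude.Def_GaloisRep_DeformationCondition
import Fermat.Agent.Lib.S53.NormLift

/-!
# Functorial properties of normalized lifts
-/

set_option autoImplicit false

namespace Fermat.Agent.Lib.S53

open IsLocalRing GaloisRep Function Module

local notation "Γℚ" => (AlgebraicClosure ℚ ≃ₐ[ℚ] AlgebraicClosure ℚ)

section Map

variable {𝒪 : Type} [CommRing 𝒪] [IsLocalRing 𝒪]
variable {ρbar : ResidualGaloisRep (ResidueField 𝒪)} {D : NormData ρbar}
  {𝒟 : ∀ ⦃A : Type⦄ [CommRing A] [IsLocalRing A] [Algebra 𝒪 A], GaloisRepAdic A → Prop}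
  {A : Type} [CommRing A] [IsLocalRing A] [Algebra 𝒪 A]
  {B : Type} [CommRing B] [IsLocalRing B] [Algebra 𝒪 B]

/-- Normalized lifts are preserved by local `𝒪`-algebra homomorphisms. -/
theorem IsNormalized.map (φ : A →ₐ[𝒪] B) (hφ : IsLocalHom (φ : A →+* B))
    {M : Γℚ → Matrix (Fin 2) (Fin 2) A} (h : IsNormalized D A M) :
    IsNormalized D B (fun σ => (M σ).map φ) := by
  haveI := hφ
  refine IsNormalized.of_hom (D := D) (mapHom (φ : A →+* B) h.hom)
    (h.matContinuous.map_ringHom _ hφ) (fun σ i j => ?_) ?_ ?_ ?_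
  · have := map_nonunit (φ : A →+* B) _ (h.res σ i j)
    rw [map_sub] at this
    simpa using this
  · simp [h.n00]
  · simp [h.n10]
  · simp [h.n1]

theorem IsNormalized.map_hom (φ : A →ₐ[𝒪] B) (hφ : IsLocalHom (φ : A →+* B))
    {M : Γℚ → Matrix (Fin 2) (Fin 2) A} (h : IsNormalized D A M) :
    (h.map φ hφ).hom = mapHom (φ : A →+* B) h.hom :=
  MonoidHom.ext fun _ => rfl

/-- The representation of the image of a normalized lift is the base change. -/
theorem IsNormalized.rep_map (φ : A →ₐ[𝒪] B) (hφ : IsLocalHom (φ : A →+* B))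
    {M : Γℚ → Matrix (Fin 2) (Fin 2) A} (h : IsNormalized D A M) :
    (h.map φ hφ).rep.IsEquiv (h.rep.baseChangeAlong (φ : A →+* B) hφ) :=
  isEquiv_toRep_baseChangeAlong h.hom h.matContinuous (φ : A →+* B) hφ

theorem IsNormalized.rep_map' (φ : A →ₐ[𝒪] B) (hφ : IsLocalHom (φ : A →+* B))
    {M : Γℚ → Matrix (Fin 2) (Fin 2) A} (h : IsNormalized D A M) :
    (h.rep.baseChangeAlong (φ : A →+* B) hφ).IsEquiv (h.map φ hφ).rep :=
  isEquiv_symm (h.rep_map φ hφ)

/-- (F0) Normalized lifts of type `𝒟` are preserved by homomorphisms of Artinian test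
algebras. -/
theorem IsNormLift.map (h𝒟 : IsDeformationCondition 𝒪 𝒟)
    (hA : IsArtinianTestAlgebra 𝒪 A) (hB : IsArtinianTestAlgebra 𝒪 B) (φ : A →ₐ[𝒪] B)
    {M : Γℚ → Matrix (Fin 2) (Fin 2) A} (h : IsNormLift D 𝒟 A M) :
    IsNormLift D 𝒟 B (fun σ => (M σ).map φ) := by
  have hφ : IsLocalHom (φ : A →+* B) :=
    isLocalHom_of_algHom hB.isLocalHom hB.residue_surjective φ
  refine IsNormLift.of_isNormalized (h.toIsNormalized.map φ hφ) ?_
  exact h𝒟.of_isEquiv hB (h.toIsNormalized.rep_map' φ hφ)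
    (h𝒟.baseChangeAlong hA hB φ hφ h.isOfType')

/-- (F3) Normalized lifts descend along injective homomorphisms of Artinian test algebras. -/
theorem IsNormLift.of_injective (h𝒟 : IsDeformationCondition 𝒪 𝒟)
    (hA : IsArtinianTestAlgebra 𝒪 A) (hB : IsArtinianTestAlgebra 𝒪 B) (φ : A →ₐ[𝒪] B)
    (hinj : Injective φ) {M : Γℚ → Matrix (Fin 2) (Fin 2) A}
    (h : IsNormLift D 𝒟 B (fun σ => (M σ).map φ)) : IsNormLift D 𝒟 A M := by
  have hφ : IsLocalHom (φ : A →+* B) :=
    isLocalHom_of_algHom hB.isLocalHom hB.residue_surjective φ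
  haveI := hφ
  have hinjM : ∀ X Y : Matrix (Fin 2) (Fin 2) A, X.map φ = Y.map φ → X = Y := by
    intro X Y hXY
    ext i j
    exact hinj (congrFun (congrFun hXY i) j)
  -- the maximal ideal of `B` is nilpotent
  obtain ⟨nB, hnB⟩ : ∃ n, maximalIdeal B ^ n = ⊥ := by
    haveI := hB.isArtinian
    have := IsArtinianRing.isNilpotent_jacobson_bot (R := B)
    rw [IsLocalRing.jacobson_eq_maximalIdeal ⊥ bot_ne_top] at this
    exact this
  have hN : IsNormalized D A M := by
    refine ⟨?_, ?_, ?_, ?_, ?_, ?_, ?_⟩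
    · apply hinjM
      rw [h.map_one]
      exact (Matrix.map_one _ (map_zero φ) (map_one φ)).symm
    · intro σ τ
      apply hinjM
      rw [h.map_mul σ τ, Matrix.map_mul]
    · intro n
      obtain ⟨L, hL, hLσ⟩ := h.cont nB
      refine ⟨L, hL, fun σ hσ i j => ?_⟩
      have h0 := hLσ σ hσ i j
      rw [hnB, Ideal.mem_bot] at h0
      have : (M σ - 1) i j = 0 := by
        apply hinj
        rw [map_zero, ← h0]
        simp only [Matrix.sub_apply, Matrix.map_apply, Matrix.one_apply, map_sub]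
        split_ifs <;> simp
      rw [this]
      exact Ideal.zero_mem _
    · intro σ i j
      have := h.res σ i j
      rw [← maximalIdeal_comap (φ : A →+* B), Ideal.mem_comap]
      simpa using this
    · apply hinj
      rw [map_zero]
      exact h.n00
    · apply hinj
      rw [map_one]
      exact h.n10
    · apply hinj
      have := h.n1
      simpa using this
  refine IsNormLift.of_isNormalized hN ?_
  refine h𝒟.of_baseChangeAlong_injective hA hB φ hφ hinj ?_
  refine h𝒟.of_isEquiv hB (hN.rep_map φ hφ) ?_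
  exact h.isOfType _ _ fun _ => rfl

end Map

section Nilpotent

theorem exists_maximalIdeal_pow_eq_bot (B : Type*) [CommRing B] [IsLocalRing B]
    [IsArtinianRing B] : ∃ n, maximalIdeal B ^ n = ⊥ := by
  have := IsArtinianRing.isNilpotent_jacobson_bot (R := B)
  rw [IsLocalRing.jacobson_eq_maximalIdeal ⊥ bot_ne_top] at this
  exact this

end Nilpotent

section FibreProduct

variable {𝒪 : Type} [CommRing 𝒪] [IsLocalRing 𝒪]
variable {ρbar : ResidualGaloisRep (ResidueField 𝒪)} {D : NormData ρbar}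
  {𝒟 : ∀ ⦃A : Type⦄ [CommRing A] [IsLocalRing A] [Algebra 𝒪 A], GaloisRepAdic A → Prop}
  {A : Type} [CommRing A] [IsLocalRing A] [Algebra 𝒪 A]
  {B : Type} [CommRing B] [IsLocalRing B] [Algebra 𝒪 B]
  {C : Type} [CommRing C] [IsLocalRing C] [Algebra 𝒪 C]
  {P : Type} [CommRing P] [IsLocalRing P] [Algebra 𝒪 P]

/-- (F2) Normalized lifts glue along fibre products of Artinian test algebras. -/
theorem IsNormLift.of_fibreProduct (h𝒟 : IsDeformationCondition 𝒪 𝒟)
    (hA : IsArtinianTestAlgebra 𝒪 A) (hB : IsArtinianTestAlgebra 𝒪 B)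
    (hC : IsArtinianTestAlgebra 𝒪 C) (hP : IsArtinianTestAlgebra 𝒪 P)
    (f : A →ₐ[𝒪] C) (g : B →ₐ[𝒪] C) (pA : P →ₐ[𝒪] A) (pB : P →ₐ[𝒪] B)
    (hcomp : f.comp pA = g.comp pB)
    (hinj : Injective (fun x => (pA x, pB x)))
    (hsurj : ∀ a b, f a = g b → ∃ x, pA x = a ∧ pB x = b)
    {M : Γℚ → Matrix (Fin 2) (Fin 2) P}
    (hMA : IsNormLift D 𝒟 A (fun σ => (M σ).map pA))
    (hMB : IsNormLift D 𝒟 B (fun σ => (M σ).map pB)) : IsNormLift D 𝒟 P M := by
  have hpA : IsLocalHom (pA : P →+* A) :=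
    isLocalHom_of_algHom hA.isLocalHom hA.residue_surjective pA
  have hpB : IsLocalHom (pB : P →+* B) :=
    isLocalHom_of_algHom hB.isLocalHom hB.residue_surjective pB
  haveI := hpA
  have hinj' : ∀ x y : P, pA x = pA y → pB x = pB y → x = y := by
    intro x y h1 h2
    exact hinj (Prod.ext h1 h2)
  have hinjM : ∀ X Y : Matrix (Fin 2) (Fin 2) P, X.map pA = Y.map pA → X.map pB = Y.map pB →
      X = Y := by
    intro X Y h1 h2
    ext i j
    exact hinj' _ _ (congrFun (congrFun h1 i) j) (congrFun (congrFun h2 i) j)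
  haveI := hA.isArtinian
  haveI := hB.isArtinian
  obtain ⟨nA, hnA⟩ := exists_maximalIdeal_pow_eq_bot A
  obtain ⟨nB, hnB⟩ := exists_maximalIdeal_pow_eq_bot B
  have hN : IsNormalized D P M := by
    refine ⟨?_, ?_, ?_, ?_, ?_, ?_, ?_⟩
    · apply hinjM
      · rw [hMA.map_one]
        exact (Matrix.map_one _ (map_zero pA) (map_one pA)).symm
      · rw [hMB.map_one]
        exact (Matrix.map_one _ (map_zero pB) (map_one pB)).symm
    · intro σ τ
      apply hinjM
      · rw [hMA.map_mul σ τ, Matrix.map_mul]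
      · rw [hMB.map_mul σ τ, Matrix.map_mul]
    · intro n
      obtain ⟨L₁, hL₁, hLσ₁⟩ := hMA.cont nA
      obtain ⟨L₂, hL₂, hLσ₂⟩ := hMB.cont nB
      haveI := hL₁
      haveI := hL₂
      refine ⟨L₁ ⊔ L₂, IntermediateField.finiteDimensional_sup L₁ L₂, fun σ hσ i j => ?_⟩
      have h1 := hLσ₁ σ (fun x hx => hσ x ((le_sup_left : L₁ ≤ L₁ ⊔ L₂) hx)) i j
      have h2 := hLσ₂ σ (fun x hx => hσ x ((le_sup_right : L₂ ≤ L₁ ⊔ L₂) hx)) i j
      rw [hnA, Ideal.mem_bot] at h1
      rw [hnB, Ideal.mem_bot] at h2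
      have : (M σ - 1) i j = 0 := by
        apply hinj'
        · rw [map_zero, ← h1]
          simp only [Matrix.sub_apply, Matrix.map_apply, Matrix.one_apply, map_sub]
          split_ifs <;> simp
        · rw [map_zero, ← h2]
          simp only [Matrix.sub_apply, Matrix.map_apply, Matrix.one_apply, map_sub]
          split_ifs <;> simp
      rw [this]
      exact Ideal.zero_mem _
    · intro σ i j
      have := hMA.res σ i j
      rw [← maximalIdeal_comap (pA : P →+* A), Ideal.mem_comap]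
      simpa using this
    · apply hinj'
      · rw [map_zero]; exact hMA.n00
      · rw [map_zero]; exact hMB.n00
    · apply hinj'
      · rw [map_one]; exact hMA.n10
      · rw [map_one]; exact hMB.n10
    · apply hinj'
      · have := hMA.n1
        simpa using this
      · have := hMB.n1
        simpa using this
  refine IsNormLift.of_isNormalized hN ?_
  refine h𝒟.of_fibreProduct hA hB hC hP f g pA pB hpA hpB hcomp hinj hsurj ?_ ?_
  · exact h𝒟.of_isEquiv hA (hN.rep_map pA hpA) (hMA.isOfType _ _ fun _ => rfl)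
  · exact h𝒟.of_isEquiv hB (hN.rep_map pB hpB) (hMB.isOfType _ _ fun _ => rfl)

end FibreProduct

end Fermat.Agent.Lib.S53
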