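import Mathlib
import Fermat.Prelude.Def_GaloisRep_DeformationCondition
import Fermat.Agent.Lib.S53.Functor

/-!
# Normalized lifts over complete Noetherian test algebras and their Artinian quotients
-/

set_option autoImplicit false

namespace Fermat.Agent.Lib.S53

open IsLocalRing GaloisRep Function Module

local notation "Γℚ" => (AlgebraicClosure ℚ ≃ₐ[ℚ] AlgebraicClosure ℚ)

section Continuity

variable {𝒪 : Type} [CommRing 𝒪] [IsLocalRing 𝒪]
variable {ρbar : ResidualGaloisRep (ResidueField 𝒪)} {D : NormData ρbar}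
  {𝒟 : ∀ ⦃A : Type⦄ [CommRing A] [IsLocalRing A] [Algebra 𝒪 A], GaloisRepAdic A → Prop}
  {A : Type} [CommRing A] [IsLocalRing A] [Algebra 𝒪 A]
  [IsNoetherianRing A] [IsAdicComplete (maximalIdeal A) A]

/-- (F4, ⇒) -/
theorem IsNormLift.map_surjective (h𝒟 : IsDeformationCondition 𝒪 𝒟)
    (hA : IsLocalHom (algebraMap 𝒪 A)) (hs : Surjective (residue A ∘ algebraMap 𝒪 A))
    {B : Type} [CommRing B] [IsLocalRing B] [Algebra 𝒪 B]
    (hB : IsArtinianTestAlgebra 𝒪 B) (q : A →ₐ[𝒪] B) (hq : Surjective q)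
    {M : Γℚ → Matrix (Fin 2) (Fin 2) A} (h : IsNormLift D 𝒟 A M) :
    IsNormLift D 𝒟 B (fun σ => (M σ).map q) := by
  have hql : IsLocalHom (q : A →+* B) :=
    isLocalHom_of_algHom hB.isLocalHom hB.residue_surjective q
  refine IsNormLift.of_isNormalized (h.toIsNormalized.map q hql) ?_
  exact h𝒟.of_isEquiv hB (h.toIsNormalized.rep_map' q hql)
    ((h𝒟.iff_forall_surjective hA hs _).mp h.isOfType' hB q hql hq)

/-- (F4, ⇐) -/
theorem IsNormLift.of_forall_surjective [Finite (ResidueField 𝒪)]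
    (h𝒟 : IsDeformationCondition 𝒪 𝒟)
    (hA : IsLocalHom (algebraMap 𝒪 A)) (hs : Surjective (residue A ∘ algebraMap 𝒪 A))
    {M : Γℚ → Matrix (Fin 2) (Fin 2) A}
    (h : ∀ (B : Type) [CommRing B] [IsLocalRing B] [Algebra 𝒪 B], IsArtinianTestAlgebra 𝒪 B →
      ∀ (q : A →ₐ[𝒪] B), Surjective q → IsNormLift D 𝒟 B (fun σ => (M σ).map q)) :
    IsNormLift D 𝒟 A M := by
  -- the quotients `A ⧸ 𝔪 ^ (n + 1)`
  have hne : ∀ n : ℕ, maximalIdeal A ^ (n + 1) ≠ ⊤ := fun n => pow_maximalIdeal_ne_top n.succ_ne_zero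
  have hloc : ∀ n : ℕ, IsLocalRing (A ⧸ maximalIdeal A ^ (n + 1)) :=
    fun n => quotient_isLocalRing _ (hne n)
  have H : ∀ n : ℕ, @IsNormLift 𝒪 _ _ ρbar D 𝒟 (A ⧸ maximalIdeal A ^ (n + 1)) _ (hloc n) _
      (fun σ => (M σ).map (Ideal.Quotient.mkₐ 𝒪 (maximalIdeal A ^ (n + 1)))) := by
    intro n
    haveI := hloc n
    exact h _ (quotient_isArtinianTestAlgebra _ hA hs le_rfl) _
      (Ideal.Quotient.mkₐ_surjective 𝒪 _)
  have key0 : ∀ x : A, (∀ n : ℕ, x ∈ maximalIdeal A ^ (n + 1)) → x = 0 := by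
    intro x hx
    have hbot := Ideal.iInf_pow_eq_bot_of_isLocalRing (maximalIdeal A)
      (maximalIdeal.isMaximal A).ne_top
    have : x ∈ ⨅ i, maximalIdeal A ^ i := by
      rw [Ideal.mem_iInf]
      intro i
      cases i with
      | zero => simp
      | succ n => exact hx n
    rw [hbot] at this
    exact this
  have keyeq : ∀ x y : A, (∀ n : ℕ, Ideal.Quotient.mkₐ 𝒪 (maximalIdeal A ^ (n + 1)) x
      = Ideal.Quotient.mkₐ 𝒪 (maximalIdeal A ^ (n + 1)) y) → x = y := by
    intro x y hxy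
    rw [← sub_eq_zero]
    apply key0
    intro n
    have := hxy n
    rw [Ideal.Quotient.mkₐ_eq_mk, Ideal.Quotient.eq] at this
    exact this
  have keyM : ∀ X Y : Matrix (Fin 2) (Fin 2) A,
      (∀ n : ℕ, X.map (Ideal.Quotient.mkₐ 𝒪 (maximalIdeal A ^ (n + 1)))
        = Y.map (Ideal.Quotient.mkₐ 𝒪 (maximalIdeal A ^ (n + 1)))) → X = Y := by
    intro X Y hXY
    ext i j
    exact keyeq _ _ fun n => congrFun (congrFun (hXY n) i) j
  have hN : IsNormalized D A M := by
    refine ⟨?_, ?_, ?_, ?_, ?_, ?_, ?_⟩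
    · apply keyM
      intro n
      rw [(H n).map_one]
      exact (Matrix.map_one _ (map_zero _) (map_one _)).symm
    · intro σ τ
      apply keyM
      intro n
      rw [(H n).map_mul σ τ, Matrix.map_mul]
    · intro n
      obtain ⟨L, hL, hLσ⟩ := (H n).cont (n + 1)
      refine ⟨L, hL, fun σ hσ i j => ?_⟩
      have h0 := hLσ σ hσ i j
      haveI := hloc n
      rw [maximalIdeal_quotient_pow_eq_bot (maximalIdeal A ^ (n + 1)) le_rfl, Ideal.mem_bot] at h0
      have h1 : Ideal.Quotient.mk (maximalIdeal A ^ (n + 1)) ((M σ - 1) i j) = 0 := by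
        rw [← h0]
        simp only [Matrix.sub_apply, Matrix.map_apply, Matrix.one_apply, map_sub,
          Ideal.Quotient.mkₐ_eq_mk]
        split_ifs <;> simp
      rw [Ideal.Quotient.eq_zero_iff_mem] at h1
      exact Ideal.pow_le_pow_right (Nat.le_succ n) h1
    · intro σ i j
      have hr0 := (H 0).res σ i j
      haveI := hloc 0
      rw [← mk_mem_maximalIdeal_iff (maximalIdeal A ^ (0 + 1))]
      have e : Ideal.Quotient.mk (maximalIdeal A ^ (0 + 1)) (M σ i j - algebraMap 𝒪 A (D.Mtil σ i j))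
          = ((M σ).map (Ideal.Quotient.mkₐ 𝒪 (maximalIdeal A ^ (0 + 1)))) i j
            - algebraMap 𝒪 (A ⧸ maximalIdeal A ^ (0 + 1)) (D.Mtil σ i j) := by
        rw [map_sub]; rfl
      rw [e]
      exact hr0
    · apply keyeq
      intro n
      rw [map_zero]
      exact (H n).n00
    · apply keyeq
      intro n
      rw [map_one]
      exact (H n).n10
    · apply keyeq
      intro n
      have := (H n).n1
      simpa using this
  refine IsNormLift.of_isNormalized hN ?_
  refine (h𝒟.iff_forall_surjective hA hs _).mpr ?_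
  intro B _ _ _ hB q hql hq
  exact h𝒟.of_isEquiv hB (hN.rep_map q hql) ((h B hB q hq).isOfType _ _ fun _ => rfl)

end Continuity

end Fermat.Agent.Lib.S53
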