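import Mathlib
import Fermat.Prelude.Def_GaloisRep_DeformationCondition
import Fermat.Agent.Lib.S53.Continuity
import Fermat.Agent.Lib.Deform.Defs

/-!
# The residual lift, finiteness of the tangent space, and normal forms of liftings
-/

set_option autoImplicit false

namespace Fermat.Agent.Lib.S53

open IsLocalRing GaloisRep Function Module

local notation "Γℚ" => (AlgebraicClosure ℚ ≃ₐ[ℚ] AlgebraicClosure ℚ)

open Fermat.Agent.Lib.Deform (dualNumberAlgebra)

section ResidualObject

variable {𝒪 : Type} [CommRing 𝒪] [IsLocalRing 𝒪]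
variable {ρbar : ResidualGaloisRep (ResidueField 𝒪)} (D : NormData ρbar)
  {𝒟 : ∀ ⦃A : Type⦄ [CommRing A] [IsLocalRing A] [Algebra 𝒪 A], GaloisRepAdic A → Prop}

theorem isArtinianTestAlgebra_residueField : IsArtinianTestAlgebra 𝒪 (ResidueField 𝒪) where
  isLocalHom := by
    rw [ResidueField.algebraMap_eq]
    infer_instance
  residue_surjective := by
    apply Surjective.comp residue_surjective
    rw [ResidueField.algebraMap_eq]
    exact residue_surjective
  isArtinian := inferInstance

theorem matContinuous_matOfRes : MatContinuous (matOfRes ρbar D.b) := by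
  intro n
  obtain ⟨L, hL, h⟩ := ρbar.factorsThroughFiniteLevel
  refine ⟨L, hL, fun σ hσ i j => ?_⟩
  have : matOfRes ρbar D.b σ = 1 := by
    rw [matOfRes_apply, h σ hσ]
    exact LinearMap.toMatrix_one D.b
  rw [this, sub_self]
  exact Ideal.zero_mem _

/-- (F1') The residual representation itself is a normalized lift to the residue field. -/
theorem isNormLift_residual (h𝒟 : IsDeformationCondition 𝒪 𝒟)
    (hbar : 𝒟 (GaloisRepAdic.ofResidualGaloisRep ρbar)) :
    IsNormLift D 𝒟 (ResidueField 𝒪)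
      (fun σ => (D.Mtil σ).map (algebraMap 𝒪 (ResidueField 𝒪))) := by
  have e : (fun σ => (D.Mtil σ).map (algebraMap 𝒪 (ResidueField 𝒪)))
      = fun σ => matOfRes ρbar D.b σ := by
    funext σ
    rw [← D.hMtil σ]
    rfl
  rw [e]
  refine IsNormLift.of_hom (D := D) (𝒟 := 𝒟) (matOfRes ρbar D.b) (matContinuous_matOfRes D)
    (fun σ i j => ?_) D.h00 D.h10 ?_ ?_
  · have : algebraMap 𝒪 (ResidueField 𝒪) (D.Mtil σ i j) = matOfRes ρbar D.b σ i j :=
      D.residue_Mtil σ i j
    rw [this, sub_self]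
    exact Ideal.zero_mem _
  · exact (D.residue_Mtil _ _ _).symm
  · refine h𝒟.of_isEquiv isArtinianTestAlgebra_residueField ?_ hbar
    refine isEquiv_symm ?_
    exact isEquiv_toRep_matOf (GaloisRepAdic.ofResidualGaloisRep ρbar) D.b _ _ (fun σ => rfl)

end ResidualObject

section Tangent

variable {𝒪 : Type} [CommRing 𝒪] [IsLocalRing 𝒪]
variable {ρbar : ResidualGaloisRep (ResidueField 𝒪)} (D : NormData ρbar)
  {𝒟 : ∀ ⦃A : Type⦄ [CommRing A] [IsLocalRing A] [Algebra 𝒪 A], GaloisRepAdic A → Prop}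

theorem finite_of_quotient_injective {α β : Type*} (S : Setoid β) (hS : Finite (Quotient S))
    (Φ : α → β) (h : ∀ a a', S.r (Φ a) (Φ a') → a = a') : Finite α := by
  haveI := hS
  refine Finite.of_injective (fun a => (Quotient.mk S (Φ a))) ?_
  intro a a' haa'
  exact h a a' (Quotient.exact haa')

/-- (F5) Finiteness of the set of normalized lifts to the dual numbers. -/
theorem finite_normLift_dualNumber (hfin : TangentFinite 𝒪 ρbar 𝒟) :
    {M : Γℚ → Matrix (Fin 2) (Fin 2) (DualNumber (ResidueField 𝒪)) |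
      @IsNormLift 𝒪 _ _ ρbar D 𝒟 (DualNumber (ResidueField 𝒪)) _ _ (dualNumberAlgebra 𝒪) M}.Finite := by
  letI : Algebra 𝒪 (DualNumber (ResidueField 𝒪)) := dualNumberAlgebra 𝒪
  unfold TangentFinite at hfin
  rw [← Set.finite_coe_iff]
  refine finite_of_quotient_injective _ hfin
    (fun M => ⟨M.2.toIsNormalized.rep, M.2.isOfType', ?_⟩) ?_
  · exact @residual_isEquiv_of_res 𝒪 _ _ ρbar D _ _ _ _
      ((residue (DualNumber (ResidueField 𝒪))).comp
        (algebraMap (ResidueField 𝒪) (DualNumber (ResidueField 𝒪)))).toAlgebra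
      (fun x => rfl) _ _ M.2.res
  · intro M M' h
    exact Subtype.ext (IsNormalized.unique M.2.toIsNormalized M'.2.toIsNormalized h)

end Tangent

section Complete

variable {𝒪 : Type} [CommRing 𝒪] [IsLocalRing 𝒪]
variable {ρbar : ResidualGaloisRep (ResidueField 𝒪)} (D : NormData ρbar)
  {𝒟 : ∀ ⦃A : Type⦄ [CommRing A] [IsLocalRing A] [Algebra 𝒪 A], GaloisRepAdic A → Prop}
  {A : Type} [CommRing A] [IsLocalRing A] [Algebra 𝒪 A] [IsLocalHom (algebraMap 𝒪 A)]

theorem residueField_map_compat (x : 𝒪) :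
    letI : Algebra (ResidueField 𝒪) (ResidueField A) :=
      (ResidueField.map (algebraMap 𝒪 A)).toAlgebra
    algebraMap (ResidueField 𝒪) (ResidueField A) (residue 𝒪 x) = residue A (algebraMap 𝒪 A x) := by
  letI : Algebra (ResidueField 𝒪) (ResidueField A) :=
    (ResidueField.map (algebraMap 𝒪 A)).toAlgebra
  rw [RingHom.algebraMap_toAlgebra, ResidueField.map_residue]

variable {D}

/-- (A6) The residual representation of a normalized lift is `ρbar`. -/
theorem IsNormalized.residual_isEquiv {M : Γℚ → Matrix (Fin 2) (Fin 2) A}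
    (h : IsNormalized D A M) :
    h.rep.residual.IsEquiv (ρbar.baseChangeAlong (ResidueField.map (algebraMap 𝒪 A))) :=
  @residual_isEquiv_of_res 𝒪 _ _ ρbar D _ _ _ _ (ResidueField.map (algebraMap 𝒪 A)).toAlgebra
    residueField_map_compat _ _ h.res

variable (D)

/-- (A2) Every lifting of type `𝒟` over a complete Noetherian test algebra has a normal form. -/
theorem exists_isNormLift_of_rep (h𝒟 : IsDeformationCondition 𝒪 𝒟)
    [IsNoetherianRing A] [IsAdicComplete (maximalIdeal A) A]
    (hs : Surjective (residue A ∘ algebraMap 𝒪 A))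
    (ρA : GaloisRepAdic A) (hρA : 𝒟 ρA)
    (hres : ρA.residual.IsEquiv
      (ρbar.baseChangeAlong (ResidueField.map (algebraMap 𝒪 A)))) :
    ∃ (M : Γℚ → Matrix (Fin 2) (Fin 2) A) (h : IsNormLift D 𝒟 A M),
      h.toIsNormalized.rep.IsEquiv ρA := by
  haveI := henselianLocalRing_of_isAdicComplete A
  have hA : IsLocalHom (algebraMap 𝒪 A) := inferInstance
  obtain ⟨b, hb, e00, e10, e1⟩ := @exists_basis_normalized 𝒪 _ _ ρbar D A _ _ _ _ hA
    (ResidueField.map (algebraMap 𝒪 A)).toAlgebra residueField_map_compat ρA hres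
  have hN : IsNormalized D A (fun σ => matOf ρA b σ) :=
    IsNormalized.of_hom (matOf ρA b) (matContinuous_matOf ρA b) hb e00 e10 e1
  have he : hN.rep.IsEquiv ρA := isEquiv_toRep_matOf ρA b _ _ (fun σ => rfl)
  exact ⟨_, IsNormLift.of_isNormalized hN (of_isEquiv_cnl h𝒟 hA hs (isEquiv_symm he) hρA), he⟩

end Complete

end Fermat.Agent.Lib.S53
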