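import Mathlib
import Fermat.Prelude.Def_GaloisRep_DeformationCondition
import Fermat.Prelude.Def_GaloisRep_DeformationRingData
import Fermat.Agent.Lib.S53.Special

/-!
# Assembly: the functor of normalized lifts and the universal deformation ring

`normF D 𝒟 A` is the set of normalized lifts of type `𝒟` to `A`, viewed as functions on the
coordinate set `Γℚ × Fin 2 × Fin 2`. We check that it satisfies all hypotheses of the abstract
pro-representability theorem, and deduce the existence of a `DeformationRingData` from the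
conclusion of that theorem.
-/

set_option autoImplicit false

namespace Fermat.Agent.Lib.S53

open IsLocalRing GaloisRep Function Module
open Fermat.Agent.Lib.Deform (dualNumberAlgebra)

local notation "Γℚ" => (AlgebraicClosure ℚ ≃ₐ[ℚ] AlgebraicClosure ℚ)

/-- Uncurry a matrix-valued function. -/
def unc {A : Type*} (M : Γℚ → Matrix (Fin 2) (Fin 2) A) : Γℚ × Fin 2 × Fin 2 → A :=
  fun x => M x.1 x.2.1 x.2.2

/-- Curry a function on coordinates into a matrix-valued function. -/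
def cur {A : Type*} (f : Γℚ × Fin 2 × Fin 2 → A) : Γℚ → Matrix (Fin 2) (Fin 2) A :=
  fun σ => Matrix.of fun i j => f (σ, i, j)

@[simp] theorem cur_unc {A : Type*} (M : Γℚ → Matrix (Fin 2) (Fin 2) A) : cur (unc M) = M := rfl

@[simp] theorem unc_cur {A : Type*} (f : Γℚ × Fin 2 × Fin 2 → A) : unc (cur f) = f := rfl

theorem cur_injective {A : Type*} : Injective (cur (A := A)) := by
  intro f g h
  have := congrArg unc h
  simpa using this

theorem cur_comp {A B : Type*} (φ : A → B) (f : Γℚ × Fin 2 × Fin 2 → A) :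
    cur (φ ∘ f) = fun σ => (cur f σ).map φ := rfl

section Functor

variable {𝒪 : Type} [CommRing 𝒪] [IsLocalRing 𝒪]
variable {ρbar : ResidualGaloisRep (ResidueField 𝒪)}

/-- The functor of normalized lifts. -/
def normF (D : NormData ρbar)
    (𝒟 : ∀ ⦃A : Type⦄ [CommRing A] [IsLocalRing A] [Algebra 𝒪 A], GaloisRepAdic A → Prop)
    (A : Type) [CommRing A] [IsLocalRing A] [Algebra 𝒪 A] : Set (Γℚ × Fin 2 × Fin 2 → A) :=
  {f | IsNormLift D 𝒟 A (cur f)}

variable {D : NormData ρbar}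
  {𝒟 : ∀ ⦃A : Type⦄ [CommRing A] [IsLocalRing A] [Algebra 𝒪 A], GaloisRepAdic A → Prop}

theorem normF_res (A : Type) [CommRing A] [IsLocalRing A] [Algebra 𝒪 A]
    (f : Γℚ × Fin 2 × Fin 2 → A) (hf : f ∈ normF D 𝒟 A) (x : Γℚ × Fin 2 × Fin 2) :
    f x - algebraMap 𝒪 A (unc D.Mtil x) ∈ maximalIdeal A :=
  hf.res x.1 x.2.1 x.2.2

theorem normF_residual (h𝒟 : IsDeformationCondition 𝒪 𝒟)
    (hbar : 𝒟 (GaloisRepAdic.ofResidualGaloisRep ρbar)) :
    (fun x => algebraMap 𝒪 (ResidueField 𝒪) (unc D.Mtil x)) ∈ normF D 𝒟 (ResidueField 𝒪) :=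
  isNormLift_residual D h𝒟 hbar

theorem normF_map (h𝒟 : IsDeformationCondition 𝒪 𝒟)
    (A B : Type) [CommRing A] [IsLocalRing A] [Algebra 𝒪 A]
    [CommRing B] [IsLocalRing B] [Algebra 𝒪 B]
    (hA : IsArtinianTestAlgebra 𝒪 A) (hB : IsArtinianTestAlgebra 𝒪 B)
    (φ : A →ₐ[𝒪] B) (f : Γℚ × Fin 2 × Fin 2 → A) (hf : f ∈ normF D 𝒟 A) :
    (φ ∘ f) ∈ normF D 𝒟 B :=
  IsNormLift.map h𝒟 hA hB φ hf

theorem normF_of_injective (h𝒟 : IsDeformationCondition 𝒪 𝒟)
    (A B : Type) [CommRing A] [IsLocalRing A] [Algebra 𝒪 A]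
    [CommRing B] [IsLocalRing B] [Algebra 𝒪 B]
    (hA : IsArtinianTestAlgebra 𝒪 A) (hB : IsArtinianTestAlgebra 𝒪 B)
    (φ : A →ₐ[𝒪] B) (hφ : Injective φ) (f : Γℚ × Fin 2 × Fin 2 → A)
    (hf : (φ ∘ f) ∈ normF D 𝒟 B) : f ∈ normF D 𝒟 A :=
  IsNormLift.of_injective h𝒟 hA hB φ hφ (M := cur f) hf

theorem normF_fibreProduct (h𝒟 : IsDeformationCondition 𝒪 𝒟)
    (A B C P : Type) [CommRing A] [IsLocalRing A] [Algebra 𝒪 A]
    [CommRing B] [IsLocalRing B] [Algebra 𝒪 B] [CommRing C] [IsLocalRing C] [Algebra 𝒪 C]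
    [CommRing P] [IsLocalRing P] [Algebra 𝒪 P]
    (hA : IsArtinianTestAlgebra 𝒪 A) (hB : IsArtinianTestAlgebra 𝒪 B)
    (hC : IsArtinianTestAlgebra 𝒪 C) (hP : IsArtinianTestAlgebra 𝒪 P)
    (f : A →ₐ[𝒪] C) (g : B →ₐ[𝒪] C) (pA : P →ₐ[𝒪] A) (pB : P →ₐ[𝒪] B)
    (hcomp : f.comp pA = g.comp pB)
    (hinj : Injective (fun x => (pA x, pB x)))
    (hsurj : ∀ a b, f a = g b → ∃ x, pA x = a ∧ pB x = b)
    (h : Γℚ × Fin 2 × Fin 2 → P) (hA' : (pA ∘ h) ∈ normF D 𝒟 A) (hB' : (pB ∘ h) ∈ normF D 𝒟 B) :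
    h ∈ normF D 𝒟 P :=
  IsNormLift.of_fibreProduct h𝒟 hA hB hC hP f g pA pB hcomp hinj hsurj (M := cur h) hA' hB'

theorem normF_iff_forall_surjective [Finite (ResidueField 𝒪)] (h𝒟 : IsDeformationCondition 𝒪 𝒟)
    (A : Type) [CommRing A] [IsLocalRing A] [IsNoetherianRing A]
    [IsAdicComplete (maximalIdeal A) A] [Algebra 𝒪 A]
    (hA : IsLocalHom (algebraMap 𝒪 A)) (hs : Surjective (residue A ∘ algebraMap 𝒪 A))
    (f : Γℚ × Fin 2 × Fin 2 → A) :
    f ∈ normF D 𝒟 A ↔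
      ∀ (B : Type) [CommRing B] [IsLocalRing B] [Algebra 𝒪 B], IsArtinianTestAlgebra 𝒪 B →
        ∀ (q : A →ₐ[𝒪] B), Surjective q → (q ∘ f) ∈ normF D 𝒟 B := by
  constructor
  · intro hf B _ _ _ hB q hq
    exact IsNormLift.map_surjective h𝒟 hA hs hB q hq hf
  · intro h
    exact IsNormLift.of_forall_surjective h𝒟 hA hs (M := cur f) h

theorem normF_finite_dualNumber (hfin : TangentFinite 𝒪 ρbar 𝒟) :
    (@normF 𝒪 _ _ ρbar D 𝒟 (DualNumber (ResidueField 𝒪)) _ _ (dualNumberAlgebra 𝒪)).Finite :=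
  Set.Finite.preimage cur_injective.injOn (finite_normLift_dualNumber D hfin)

end Functor

section Final

variable (𝒪 : Type) [CommRing 𝒪] [IsDomain 𝒪] [IsDiscreteValuationRing 𝒪]
    [IsAdicComplete (maximalIdeal 𝒪) 𝒪] [Finite (ResidueField 𝒪)]

/-- The statement of the abstract pro-representability theorem
(`Fermat.Agent.Lib.Deform.exists_universal`). -/
def UniversalStatement : Prop :=
  ∀ (X : Type)
    (F : ∀ (A : Type) [CommRing A] [IsLocalRing A] [Algebra 𝒪 A], Set (X → A))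
    (f₀ : X → 𝒪),
    (∀ (A : Type) [CommRing A] [IsLocalRing A] [Algebra 𝒪 A] (f : X → A), f ∈ F A →
      ∀ x, f x - algebraMap 𝒪 A (f₀ x) ∈ maximalIdeal A) →
    ((fun x => algebraMap 𝒪 (ResidueField 𝒪) (f₀ x)) ∈ F (ResidueField 𝒪)) →
    (∀ (A B : Type) [CommRing A] [IsLocalRing A] [Algebra 𝒪 A]
      [CommRing B] [IsLocalRing B] [Algebra 𝒪 B],
      IsArtinianTestAlgebra 𝒪 A → IsArtinianTestAlgebra 𝒪 B →
      ∀ (φ : A →ₐ[𝒪] B) (f : X → A), f ∈ F A → (φ ∘ f) ∈ F B) →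
    (∀ (A B : Type) [CommRing A] [IsLocalRing A] [Algebra 𝒪 A]
      [CommRing B] [IsLocalRing B] [Algebra 𝒪 B],
      IsArtinianTestAlgebra 𝒪 A → IsArtinianTestAlgebra 𝒪 B →
      ∀ (φ : A →ₐ[𝒪] B), Injective φ → ∀ (f : X → A), (φ ∘ f) ∈ F B → f ∈ F A) →
    (∀ (A B C P : Type) [CommRing A] [IsLocalRing A] [Algebra 𝒪 A]
      [CommRing B] [IsLocalRing B] [Algebra 𝒪 B] [CommRing C] [IsLocalRing C] [Algebra 𝒪 C]
      [CommRing P] [IsLocalRing P] [Algebra 𝒪 P],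
      IsArtinianTestAlgebra 𝒪 A → IsArtinianTestAlgebra 𝒪 B → IsArtinianTestAlgebra 𝒪 C →
      IsArtinianTestAlgebra 𝒪 P →
      ∀ (f : A →ₐ[𝒪] C) (g : B →ₐ[𝒪] C) (pA : P →ₐ[𝒪] A) (pB : P →ₐ[𝒪] B),
      f.comp pA = g.comp pB →
      Injective (fun x => (pA x, pB x)) →
      (∀ a b, f a = g b → ∃ x, pA x = a ∧ pB x = b) →
      ∀ (h : X → P), (pA ∘ h) ∈ F A → (pB ∘ h) ∈ F B → h ∈ F P) →
    (∀ (A : Type) [CommRing A] [IsLocalRing A] [IsNoetherianRing A]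
      [IsAdicComplete (maximalIdeal A) A] [Algebra 𝒪 A],
      IsLocalHom (algebraMap 𝒪 A) → Surjective (residue A ∘ algebraMap 𝒪 A) →
      ∀ (f : X → A), f ∈ F A ↔
        ∀ (B : Type) [CommRing B] [IsLocalRing B] [Algebra 𝒪 B], IsArtinianTestAlgebra 𝒪 B →
          ∀ (q : A →ₐ[𝒪] B), Surjective q → (q ∘ f) ∈ F B) →
    ((@F (DualNumber (ResidueField 𝒪)) _ _ (dualNumberAlgebra 𝒪)).Finite) →
    ∃ (R : Type) (_ : CommRing R) (_ : IsLocalRing R) (_ : IsNoetherianRing R)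
      (_ : IsAdicComplete (maximalIdeal R) R) (_ : Algebra 𝒪 R)
      (_ : IsLocalHom (algebraMap 𝒪 R)),
      Surjective (residue R ∘ algebraMap 𝒪 R) ∧
      ∃ fR ∈ F R, ∀ (A : Type) [CommRing A] [IsLocalRing A] [IsNoetherianRing A]
        [IsAdicComplete (maximalIdeal A) A] [Algebra 𝒪 A] [IsLocalHom (algebraMap 𝒪 A)],
        Surjective (residue A ∘ algebraMap 𝒪 A) → ∀ f ∈ F A,
          ∃! φ : R →ₐ[𝒪] A, (φ ∘ fR) = f

variable {𝒪}

theorem IsNormalized.rep_congr {ρbar : ResidualGaloisRep (ResidueField 𝒪)} {D : NormData ρbar}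
    {A : Type} [CommRing A] [IsLocalRing A] [Algebra 𝒪 A]
    {M M' : Γℚ → Matrix (Fin 2) (Fin 2) A} (h : IsNormalized D A M) (h' : IsNormalized D A M')
    (e : M = M') : h.rep.IsEquiv h'.rep := by
  subst e
  exact ⟨GaloisRepAdic.Equiv.refl _⟩

/-- The universal deformation ring exists, given the abstract pro-representability theorem. -/
theorem nonempty_deformationRingData (H : UniversalStatement 𝒪)
    (ρbar : ResidualGaloisRep (ResidueField 𝒪))
    (𝒟 : ∀ ⦃A : Type⦄ [CommRing A] [IsLocalRing A] [Algebra 𝒪 A], GaloisRepAdic A → Prop)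
    (habs : ρbar.IsAbsolutelyIrreducible)
    (h𝒟 : GaloisRep.IsDeformationCondition 𝒪 𝒟)
    (hbar : 𝒟 (GaloisRepAdic.ofResidualGaloisRep ρbar))
    (hfin : GaloisRep.TangentFinite 𝒪 ρbar 𝒟) :
    Nonempty (GaloisRep.DeformationRingData 𝒪 ρbar 𝒟) := by
  obtain ⟨D⟩ := exists_normData ρbar habs
  obtain ⟨R, iR1, iR2, iR3, iR4, iR5, iR6, hsurjR, fR, hfR, huniv⟩ :=
    H (Γℚ × Fin 2 × Fin 2) (normF D 𝒟) (unc D.Mtil) normF_res (normF_residual h𝒟 hbar)
      (normF_map h𝒟) (normF_of_injective h𝒟) (normF_fibreProduct h𝒟)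
      (normF_iff_forall_surjective h𝒟) (normF_finite_dualNumber hfin)
  have hfR' : IsNormLift D 𝒟 R (cur fR) := hfR
  refine ⟨{
    R := R
    residue_surjective := hsurjR
    absIrr := habs
    ρ := hfR'.toIsNormalized.rep
    isOfType := hfR'.isOfType'
    residual_isEquiv := hfR'.toIsNormalized.residual_isEquiv
    universal := ?_ }⟩
  intro A _ _ _ _ _ _ hsA ρA hρA hresA
  obtain ⟨M, hM, heq⟩ := exists_isNormLift_of_rep D h𝒟 hsA ρA hρA hresA
  have hMF : unc M ∈ normF D 𝒟 A := hM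
  obtain ⟨φ, hφ, hφuniq⟩ := huniv A hsA (unc M) hMF
  have hloc : ∀ ψ : R →ₐ[𝒪] A, IsLocalHom (ψ : R →+* A) := fun ψ =>
    isLocalHom_of_algHom inferInstance hsA ψ
  refine ⟨φ, ⟨hloc φ, ?_⟩, ?_⟩
  · -- the base change of the universal lift along `φ` is `ρA`
    refine isEquiv_trans (hfR'.toIsNormalized.rep_map' φ (hloc φ)) ?_
    refine isEquiv_trans (IsNormalized.rep_congr _ hM.toIsNormalized ?_) heq
    have := congrArg cur hφ
    rw [cur_comp, cur_unc] at this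
    exact this
  · -- uniqueness
    rintro φ' ⟨hφ', heq'⟩
    apply hφuniq
    have hN' := hfR'.toIsNormalized.map φ' hφ'
    have e1 : hN'.rep.IsEquiv hM.toIsNormalized.rep :=
      isEquiv_trans (hfR'.toIsNormalized.rep_map φ' hφ') (isEquiv_trans heq' (isEquiv_symm heq))
    have e2 := IsNormalized.unique hN' hM.toIsNormalized e1
    have : cur (φ' ∘ fR) = cur (unc M) := by
      rw [cur_comp, cur_unc]
      exact e2
    exact cur_injective this

end Final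

end Fermat.Agent.Lib.S53
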