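import Mathlib
import Fermat.Prelude.Def_GaloisRep_DeformationCondition
import Fermat.Agent.Lib.Deform.Defs
import Fermat.Agent.Lib.Deform.PowerSeries
import Fermat.Agent.Lib.Deform.TestAlg

/-!
# Abstract pro-representability: setup

Hypotheses on the functor `F`, the power series ring in finitely many coordinates, and
admissible ideals.
-/

set_option autoImplicit false

namespace Fermat.Agent.Lib.S53

open IsLocalRing GaloisRep Function
open Fermat.Agent.Lib.Deform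

/-- The hypotheses of the abstract pro-representability theorem (except tangent finiteness). -/
structure FunctorHyp (𝒪 : Type) [CommRing 𝒪] [IsLocalRing 𝒪] (X : Type)
    (F : ∀ (A : Type) [CommRing A] [IsLocalRing A] [Algebra 𝒪 A], Set (X → A))
    (f₀ : X → 𝒪) : Prop where
  res : ∀ (A : Type) [CommRing A] [IsLocalRing A] [Algebra 𝒪 A] (f : X → A), f ∈ F A →
      ∀ x, f x - algebraMap 𝒪 A (f₀ x) ∈ maximalIdeal A
  residual : (fun x => algebraMap 𝒪 (ResidueField 𝒪) (f₀ x)) ∈ F (ResidueField 𝒪)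
  map : ∀ (A B : Type) [CommRing A] [IsLocalRing A] [Algebra 𝒪 A]
      [CommRing B] [IsLocalRing B] [Algebra 𝒪 B],
      IsArtinianTestAlgebra 𝒪 A → IsArtinianTestAlgebra 𝒪 B →
      ∀ (φ : A →ₐ[𝒪] B) (f : X → A), f ∈ F A → (φ ∘ f) ∈ F B
  of_injective : ∀ (A B : Type) [CommRing A] [IsLocalRing A] [Algebra 𝒪 A]
      [CommRing B] [IsLocalRing B] [Algebra 𝒪 B],
      IsArtinianTestAlgebra 𝒪 A → IsArtinianTestAlgebra 𝒪 B →
      ∀ (φ : A →ₐ[𝒪] B), Injective φ → ∀ (f : X → A), (φ ∘ f) ∈ F B → f ∈ F A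
  fibreProduct : ∀ (A B C P : Type) [CommRing A] [IsLocalRing A] [Algebra 𝒪 A]
      [CommRing B] [IsLocalRing B] [Algebra 𝒪 B] [CommRing C] [IsLocalRing C] [Algebra 𝒪 C]
      [CommRing P] [IsLocalRing P] [Algebra 𝒪 P],
      IsArtinianTestAlgebra 𝒪 A → IsArtinianTestAlgebra 𝒪 B → IsArtinianTestAlgebra 𝒪 C →
      IsArtinianTestAlgebra 𝒪 P →
      ∀ (f : A →ₐ[𝒪] C) (g : B →ₐ[𝒪] C) (pA : P →ₐ[𝒪] A) (pB : P →ₐ[𝒪] B),
      f.comp pA = g.comp pB →
      Injective (fun x => (pA x, pB x)) →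
      (∀ a b, f a = g b → ∃ x, pA x = a ∧ pB x = b) →
      ∀ (h : X → P), (pA ∘ h) ∈ F A → (pB ∘ h) ∈ F B → h ∈ F P
  iff_forall_surjective : ∀ (A : Type) [CommRing A] [IsLocalRing A] [IsNoetherianRing A]
      [IsAdicComplete (maximalIdeal A) A] [Algebra 𝒪 A],
      IsLocalHom (algebraMap 𝒪 A) → Surjective (residue A ∘ algebraMap 𝒪 A) →
      ∀ (f : X → A), f ∈ F A ↔
        ∀ (B : Type) [CommRing B] [IsLocalRing B] [Algebra 𝒪 B], IsArtinianTestAlgebra 𝒪 B →
          ∀ (q : A →ₐ[𝒪] B), Surjective q → (q ∘ f) ∈ F B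

/-- The two key properties of a finite separating set of coordinates `T`. -/
structure CoordHyp (𝒪 : Type) [CommRing 𝒪] [IsLocalRing 𝒪] (X : Type)
    (F : ∀ (A : Type) [CommRing A] [IsLocalRing A] [Algebra 𝒪 A], Set (X → A))
    (T : Finset X) : Prop where
  mem_adjoin : ∀ (A : Type) [CommRing A] [IsLocalRing A] [Algebra 𝒪 A],
    IsArtinianTestAlgebra 𝒪 A → ∀ f ∈ F A, ∀ x, f x ∈ Algebra.adjoin 𝒪 (f '' (T : Set X))
  eq_of_eqOn : ∀ (A : Type) [CommRing A] [IsLocalRing A] [Algebra 𝒪 A],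
    IsArtinianTestAlgebra 𝒪 A → ∀ f ∈ F A, ∀ g ∈ F A, (∀ c ∈ T, f c = g c) → f = g

section PS

variable (𝒪 : Type) [CommRing 𝒪] {X : Type}

/-- The power series ring on the coordinates in `T`. -/
abbrev PS (T : Finset X) : Type := MvPowerSeries {x // x ∈ T} 𝒪

variable {𝒪}

/-- The element of the power series ring which will map to the coordinate `c` of a lift. -/
noncomputable def gen (f₀ : X → 𝒪) (T : Finset X) (c : {x // x ∈ T}) : PS 𝒪 T :=
  MvPowerSeries.X c + algebraMap 𝒪 (PS 𝒪 T) (f₀ c)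

end PS

section TestPS

variable {𝒪 : Type} [CommRing 𝒪] [IsLocalRing 𝒪] {X : Type} (T : Finset X)

theorem isTestAlgebra_PS : IsTestAlgebra 𝒪 (PS 𝒪 T) :=
  ⟨inferInstance, residue_comp_algebraMap_mvPowerSeries_surjective⟩

theorem X_mem_maximalIdeal_PS (c : {x // x ∈ T}) :
    (MvPowerSeries.X c : PS 𝒪 T) ∈ maximalIdeal (PS 𝒪 T) :=
  X_mem_maximalIdeal c

end TestPS

section Adm

variable {𝒪 : Type} [CommRing 𝒪] [IsLocalRing 𝒪] {X : Type}
  (F : ∀ (A : Type) [CommRing A] [IsLocalRing A] [Algebra 𝒪 A], Set (X → A))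
  (f₀ : X → 𝒪) (T : Finset X)

/-- An ideal `K` of the power series ring is admissible of level `n` if it contains the `n`-th
power of the maximal ideal and the quotient carries an element of `F` with the standard
coordinates. -/
def Adm (n : ℕ) (K : Ideal (PS 𝒪 T)) : Prop :=
  maximalIdeal (PS 𝒪 T) ^ n ≤ K ∧ ∃ hK : K ≠ ⊤, ∃ f : X → PS 𝒪 T ⧸ K,
    f ∈ @F (PS 𝒪 T ⧸ K) _ (isLocalRing_quotient hK) _ ∧
      ∀ c : {x // x ∈ T}, f c = Ideal.Quotient.mk K (gen f₀ T c)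

end Adm

end Fermat.Agent.Lib.S53
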