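import Mathlib
import Fermat.Agent.Lib.S53.UnivSetup

/-!
# Admissible ideals: transfer from arbitrary Artinian objects, intersections, minimal ideals
-/

set_option autoImplicit false

namespace Fermat.Agent.Lib.S53

open IsLocalRing GaloisRep Function
open Fermat.Agent.Lib.Deform

section Transfer

variable {𝒪 : Type} [CommRing 𝒪] [IsLocalRing 𝒪] [IsNoetherianRing 𝒪]
  [Finite (ResidueField 𝒪)] {X : Type}
  {F : ∀ (A : Type) [CommRing A] [IsLocalRing A] [Algebra 𝒪 A], Set (X → A)}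
  {f₀ : X → 𝒪} {T : Finset X}

theorem pow_le_ker_of_pow_eq_bot {A : Type} [CommRing A] [IsLocalRing A] [Algebra 𝒪 A]
    (hA : IsTestAlgebra 𝒪 A) {n : ℕ} (hn : maximalIdeal A ^ n = ⊥)
    (θ : PS 𝒪 T →ₐ[𝒪] A) : maximalIdeal (PS 𝒪 T) ^ n ≤ RingHom.ker θ := by
  have hloc : IsLocalHom (θ : PS 𝒪 T →+* A) := isLocalHom_of_isTestAlgebra hA θ
  intro s hs
  rw [RingHom.mem_ker]
  have h1 : (θ : PS 𝒪 T →+* A) s ∈ (maximalIdeal (PS 𝒪 T) ^ n).map (θ : PS 𝒪 T →+* A) :=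
    Ideal.mem_map_of_mem _ hs
  rw [Ideal.map_pow] at h1
  have h2 : (maximalIdeal (PS 𝒪 T)).map (θ : PS 𝒪 T →+* A) ≤ maximalIdeal A :=
    map_maximalIdeal_le _
  have h3 := Ideal.pow_right_mono h2 n h1
  rw [hn, Ideal.mem_bot] at h3
  exact h3

/-- Transfer: the kernel of the map from the power series ring to any Artinian object of level
`n` is admissible of level `n`. -/
theorem adm_ker (H : FunctorHyp 𝒪 X F f₀) (HT : CoordHyp 𝒪 X F T)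
    {A : Type} [CommRing A] [IsLocalRing A] [Algebra 𝒪 A]
    (hA : IsArtinianTestAlgebra 𝒪 A) {n : ℕ} (hn : maximalIdeal A ^ n = ⊥)
    {f : X → A} (hf : f ∈ F A) (θ : PS 𝒪 T →ₐ[𝒪] A)
    (hθ : ∀ c : {x // x ∈ T}, θ (gen f₀ T c) = f c) : Adm F f₀ T n (RingHom.ker θ) := by
  have hAt : IsTestAlgebra 𝒪 A := IsTestAlgebra.of_artinian hA
  have hpow := pow_le_ker_of_pow_eq_bot hAt hn θ
  have hK : RingHom.ker θ ≠ ⊤ := by
    intro h
    have h1 : (1 : PS 𝒪 T) ∈ RingHom.ker θ := by rw [h]; trivial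
    rw [RingHom.mem_ker, map_one] at h1
    exact one_ne_zero h1
  refine ⟨hpow, hK, ?_⟩
  haveI : IsLocalRing (PS 𝒪 T ⧸ RingHom.ker θ) := isLocalRing_quotient hK
  have hBt : IsTestAlgebra 𝒪 (PS 𝒪 T ⧸ RingHom.ker θ) := (isTestAlgebra_PS T).quotient _
  haveI : IsArtinianRing (PS 𝒪 T ⧸ RingHom.ker θ) := isArtinianRing_quotient_of_pow_le hpow
  have hB : IsArtinianTestAlgebra 𝒪 (PS 𝒪 T ⧸ RingHom.ker θ) := hBt.artinian
  -- every `f x` is in the range of `θ`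
  have hrange : ∀ x, ∃ s : PS 𝒪 T, θ s = f x := by
    intro x
    have h1 := HT.mem_adjoin A hA f hf x
    have h2 : Algebra.adjoin 𝒪 (f '' (T : Set X)) ≤ θ.range := by
      apply Algebra.adjoin_le
      rintro _ ⟨c, hc, rfl⟩
      exact ⟨gen f₀ T ⟨c, hc⟩, hθ ⟨c, hc⟩⟩
    exact h2 h1
  choose s hs using hrange
  refine ⟨fun x => Ideal.Quotient.mk _ (s x), ?_, ?_⟩
  · refine H.of_injective _ A hB hA (Ideal.kerLiftAlg θ) (Ideal.kerLiftAlg_injective θ) _ ?_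
    have : (Ideal.kerLiftAlg θ) ∘ (fun x => Ideal.Quotient.mk (RingHom.ker θ) (s x)) = f := by
      funext x
      simp only [comp_apply]
      rw [Ideal.kerLiftAlg_mk, hs]
    rw [this]
    exact hf
  · intro c
    apply Ideal.kerLiftAlg_injective θ
    rw [Ideal.kerLiftAlg_mk, Ideal.kerLiftAlg_mk, hs, hθ]

end Transfer

section Minimal

variable {𝒪 : Type} [CommRing 𝒪] [IsLocalRing 𝒪] [IsNoetherianRing 𝒪]
  [Finite (ResidueField 𝒪)] {X : Type}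
  {F : ∀ (A : Type) [CommRing A] [IsLocalRing A] [Algebra 𝒪 A], Set (X → A)}
  {f₀ : X → 𝒪} {T : Finset X}

/-- The residue field gives an admissible ideal of every positive level. -/
theorem adm_nonempty (H : FunctorHyp 𝒪 X F f₀) (HT : CoordHyp 𝒪 X F T) (n : ℕ) :
    ∃ K, Adm F f₀ T (n + 1) K := by
  refine ⟨_, adm_ker H HT (isArtinianTestAlgebra_residueField 𝒪) (n := n + 1) ?_ H.residual
    (resk (isTestAlgebra_PS T)) ?_⟩
  · rw [maximalIdeal_eq_bot, Ideal.bot_pow n.succ_ne_zero]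
  · intro c
    rw [gen, map_add, AlgHom.commutes,
      (resk_eq_zero_iff (isTestAlgebra_PS T) _).mpr (X_mem_maximalIdeal_PS T c), zero_add]

theorem pow_eq_bot_of_jointly_injective {P A B : Type*} [CommRing P] [IsLocalRing P]
    [CommRing A] [IsLocalRing A] [CommRing B] [IsLocalRing B] (pA : P →+* A) (pB : P →+* B)
    [IsLocalHom pA] [IsLocalHom pB] (hinj : ∀ x, pA x = 0 → pB x = 0 → x = 0) {n : ℕ}
    (hA : maximalIdeal A ^ n = ⊥) (hB : maximalIdeal B ^ n = ⊥) : maximalIdeal P ^ n = ⊥ := by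
  rw [eq_bot_iff]
  intro x hx
  rw [Ideal.mem_bot]
  apply hinj
  · have h1 : pA x ∈ (maximalIdeal P ^ n).map pA := Ideal.mem_map_of_mem _ hx
    rw [Ideal.map_pow] at h1
    have h3 := Ideal.pow_right_mono (map_maximalIdeal_le pA) n h1
    rwa [hA, Ideal.mem_bot] at h3
  · have h1 : pB x ∈ (maximalIdeal P ^ n).map pB := Ideal.mem_map_of_mem _ hx
    rw [Ideal.map_pow] at h1
    have h3 := Ideal.pow_right_mono (map_maximalIdeal_le pB) n h1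
    rwa [hB, Ideal.mem_bot] at h3

theorem maximalIdeal_quotient_pow_eq_bot' {A : Type*} [CommRing A] [IsLocalRing A] (I : Ideal A)
    [IsLocalRing (A ⧸ I)] {n : ℕ} (hn : maximalIdeal A ^ n ≤ I) :
    maximalIdeal (A ⧸ I) ^ n = ⊥ := by
  rw [← map_maximalIdeal_of_surjective (Ideal.Quotient.mk I) Ideal.Quotient.mk_surjective,
    ← Ideal.map_pow, Ideal.map_eq_bot_iff_le_ker, Ideal.mk_ker]
  exact hn

/-- Admissible ideals of a given level are closed under intersection. -/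
theorem adm_inf (H : FunctorHyp 𝒪 X F f₀) (HT : CoordHyp 𝒪 X F T) {n : ℕ}
    {K₁ K₂ : Ideal (PS 𝒪 T)} (h₁ : Adm F f₀ T n K₁) (h₂ : Adm F f₀ T n K₂) :
    Adm F f₀ T n (K₁ ⊓ K₂) := by
  obtain ⟨hp₁, hK₁, f₁, hf₁, hc₁⟩ := h₁
  obtain ⟨hp₂, hK₂, f₂, hf₂, hc₂⟩ := h₂
  haveI : IsLocalRing (PS 𝒪 T ⧸ K₁) := isLocalRing_quotient hK₁
  haveI : IsLocalRing (PS 𝒪 T ⧸ K₂) := isLocalRing_quotient hK₂
  have hA₁ : IsTestAlgebra 𝒪 (PS 𝒪 T ⧸ K₁) := (isTestAlgebra_PS T).quotient _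
  have hA₂ : IsTestAlgebra 𝒪 (PS 𝒪 T ⧸ K₂) := (isTestAlgebra_PS T).quotient _
  haveI : IsArtinianRing (PS 𝒪 T ⧸ K₁) := isArtinianRing_quotient_of_pow_le hp₁
  haveI : IsArtinianRing (PS 𝒪 T ⧸ K₂) := isArtinianRing_quotient_of_pow_le hp₂
  haveI : Finite (PS 𝒪 T ⧸ K₁) := hA₁.finite_of_isArtinianRing
  haveI : Finite (PS 𝒪 T ⧸ K₂) := hA₂.finite_of_isArtinianRing
  have hP : IsArtinianTestAlgebra 𝒪 (fibreProd hA₁ hA₂) := fibreProd.isArtinianTestAlgebra hA₁ hA₂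
  have hmem : ∀ x, (f₁ x, f₂ x) ∈ fibreProd hA₁ hA₂ := by
    intro x
    rw [mem_fibreProd]
    show resk hA₁ (f₁ x) = resk hA₂ (f₂ x)
    rw [(resk_eq_iff hA₁ (f₁ x) (f₀ x)).mpr (H.res _ f₁ hf₁ x),
      (resk_eq_iff hA₂ (f₂ x) (f₀ x)).mpr (H.res _ f₂ hf₂ x)]
  let h : X → fibreProd hA₁ hA₂ := fun x => ⟨(f₁ x, f₂ x), hmem x⟩
  have hh : h ∈ F (fibreProd hA₁ hA₂) :=
    H.fibreProduct _ _ (ResidueField 𝒪) _ hA₁.artinian hA₂.artinian
      (isArtinianTestAlgebra_residueField 𝒪) hP (resk hA₁) (resk hA₂)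
      (fibreProd.fst hA₁ hA₂) (fibreProd.snd hA₁ hA₂) (fibreProd.comp_eq hA₁ hA₂)
      (fibreProd.injective hA₁ hA₂) (fibreProd.exists_of_resk_eq hA₁ hA₂) h hf₁ hf₂
  have hθmem : ∀ s : PS 𝒪 T,
      ((Ideal.Quotient.mkₐ 𝒪 K₁).prod (Ideal.Quotient.mkₐ 𝒪 K₂)) s ∈ fibreProd hA₁ hA₂ := by
    intro s
    rw [mem_fibreProd]
    show resk hA₁ (Ideal.Quotient.mkₐ 𝒪 K₁ s) = resk hA₂ (Ideal.Quotient.mkₐ 𝒪 K₂ s)
    rw [resk_comp (isTestAlgebra_PS T) hA₁, resk_comp (isTestAlgebra_PS T) hA₂]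
  let θ : PS 𝒪 T →ₐ[𝒪] fibreProd hA₁ hA₂ :=
    AlgHom.codRestrict ((Ideal.Quotient.mkₐ 𝒪 K₁).prod (Ideal.Quotient.mkₐ 𝒪 K₂)) _ hθmem
  have hθ : ∀ c : {x // x ∈ T}, θ (gen f₀ T c) = h c := by
    intro c
    apply Subtype.ext
    exact Prod.ext (hc₁ c).symm (hc₂ c).symm
  have hker : RingHom.ker θ = K₁ ⊓ K₂ := by
    ext s
    rw [RingHom.mem_ker, Ideal.mem_inf]
    constructor
    · intro hs
      have h1 : Ideal.Quotient.mk K₁ s = 0 := by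
        have := congrArg (fibreProd.fst hA₁ hA₂) hs
        rw [map_zero] at this
        exact this
      have h2 : Ideal.Quotient.mk K₂ s = 0 := by
        have := congrArg (fibreProd.snd hA₁ hA₂) hs
        rw [map_zero] at this
        exact this
      exact ⟨Ideal.Quotient.eq_zero_iff_mem.mp h1, Ideal.Quotient.eq_zero_iff_mem.mp h2⟩
    · rintro ⟨h1, h2⟩
      apply Subtype.ext
      exact Prod.ext (Ideal.Quotient.eq_zero_iff_mem.mpr h1) (Ideal.Quotient.eq_zero_iff_mem.mpr h2)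
  have hl1 := isLocalHom_of_isTestAlgebra (A := fibreProd hA₁ hA₂) hA₁ (fibreProd.fst hA₁ hA₂)
  have hl2 := isLocalHom_of_isTestAlgebra (A := fibreProd hA₁ hA₂) hA₂ (fibreProd.snd hA₁ hA₂)
  have hPn := @pow_eq_bot_of_jointly_injective (fibreProd hA₁ hA₂) (PS 𝒪 T ⧸ K₁) (PS 𝒪 T ⧸ K₂)
      _ _ _ _ _ _
      ((fibreProd.fst hA₁ hA₂ : fibreProd hA₁ hA₂ →ₐ[𝒪] _) : fibreProd hA₁ hA₂ →+* PS 𝒪 T ⧸ K₁)
      ((fibreProd.snd hA₁ hA₂ : fibreProd hA₁ hA₂ →ₐ[𝒪] _) : fibreProd hA₁ hA₂ →+* PS 𝒪 T ⧸ K₂)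
      hl1 hl2
      (fun x hx1 hx2 => fibreProd.injective hA₁ hA₂ (Prod.ext (by simpa using hx1)
        (by simpa using hx2)))
      n (maximalIdeal_quotient_pow_eq_bot' K₁ hp₁) (maximalIdeal_quotient_pow_eq_bot' K₂ hp₂)
  rw [← hker]
  exact adm_ker H HT hP hPn hh θ hθ

/-- There is a smallest admissible ideal of each positive level. -/
theorem exists_min_adm (H : FunctorHyp 𝒪 X F f₀) (HT : CoordHyp 𝒪 X F T) (n : ℕ) :
    ∃ K, Adm F f₀ T (n + 1) K ∧ ∀ K', Adm F f₀ T (n + 1) K' → K ≤ K' := by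
  haveI : Finite (PS 𝒪 T ⧸ maximalIdeal (PS 𝒪 T) ^ (n + 1)) :=
    finite_quotient_maximalIdeal_pow (n + 1)
  have hfin : ∀ K, Adm F f₀ T (n + 1) K → Finite (PS 𝒪 T ⧸ K) := fun K hK =>
    Finite.of_surjective _ (Ideal.Quotient.factor_surjective hK.1)
  let s : Set ℕ := {m | ∃ K, Adm F f₀ T (n + 1) K ∧ Nat.card (PS 𝒪 T ⧸ K) = m}
  have hne : s.Nonempty := by
    obtain ⟨K, hK⟩ := adm_nonempty H HT n
    exact ⟨_, K, hK, rfl⟩
  have hbdd : BddAbove s := by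
    refine ⟨Nat.card (PS 𝒪 T ⧸ maximalIdeal (PS 𝒪 T) ^ (n + 1)), ?_⟩
    rintro m ⟨K, hK, rfl⟩
    exact Nat.card_le_card_of_surjective _ (Ideal.Quotient.factor_surjective hK.1)
  obtain ⟨K, hK, hcard⟩ := Nat.sSup_mem hne hbdd
  refine ⟨K, hK, fun K' hK' => ?_⟩
  have hinf := adm_inf H HT hK hK'
  haveI := hfin _ hinf
  have hle : Nat.card (PS 𝒪 T ⧸ (K ⊓ K')) ≤ Nat.card (PS 𝒪 T ⧸ K) := by
    rw [hcard]
    exact le_csSup hbdd ⟨_, hinf, rfl⟩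
  have hbij := Function.Surjective.bijective_of_nat_card_le
    (Ideal.Quotient.factor_surjective (inf_le_left : K ⊓ K' ≤ K)) hle
  intro x hx
  have h0 : Ideal.Quotient.factor (inf_le_left : K ⊓ K' ≤ K) (Ideal.Quotient.mk _ x) = 0 := by
    rw [Ideal.Quotient.factor_mk, Ideal.Quotient.eq_zero_iff_mem]
    exact hx
  have h1 : Ideal.Quotient.mk (K ⊓ K') x = 0 := hbij.1 (by rw [h0, map_zero])
  exact (Ideal.Quotient.eq_zero_iff_mem.mp h1).2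

end Minimal

end Fermat.Agent.Lib.S53
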