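import Mathlib

/-!
# A successive approximation lemma for decreasing chains of open ideals
-/

set_option autoImplicit false

namespace Fermat.Agent.Lib.S53

theorem chain_antitone {S : Type*} [CommRing S] (m : Ideal S) (K : ℕ → Ideal S)
    (hK : ∀ n, K n = K (n + 1) ⊔ m ^ (n + 1)) : Antitone K := by
  refine antitone_nat_of_succ_le fun n => ?_
  rw [hK n]
  exact le_sup_left

theorem pow_le_chain {S : Type*} [CommRing S] (m : Ideal S) (K : ℕ → Ideal S)
    (hK : ∀ n, K n = K (n + 1) ⊔ m ^ (n + 1)) (n : ℕ) : m ^ (n + 1) ≤ K n := by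
  rw [hK n]
  exact le_sup_right

/-- If `K n = K (n+1) + 𝔪^(n+1)` for all `n` and the ring is `𝔪`-adically precomplete, then
`(⋂ K i) + 𝔪^(n+1) = K n`. -/
theorem iInf_sup_pow_eq {S : Type*} [CommRing S] (m : Ideal S) [IsPrecomplete m S]
    (K : ℕ → Ideal S) (hK : ∀ n, K n = K (n + 1) ⊔ m ^ (n + 1)) (n : ℕ) :
    (⨅ i, K i) ⊔ m ^ (n + 1) = K n := by
  have hanti := chain_antitone m K hK
  have hpow := pow_le_chain m K hK
  apply le_antisymm
  · exact sup_le (iInf_le K n) (hpow n)
  intro x hx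
  -- one approximation step
  have step : ∀ (j : ℕ) (y : S), y ∈ K (n + j) →
      ∃ y' : S, y' ∈ K (n + j + 1) ∧ y - y' ∈ m ^ (n + j + 1) := by
    intro j y hy
    rw [hK (n + j)] at hy
    obtain ⟨a, ha, b, hb, hab⟩ := Submodule.mem_sup.mp hy
    exact ⟨a, ha, by rw [← hab]; simpa using hb⟩
  choose next hnext1 hnext2 using step
  -- the approximating sequence
  let z : ∀ j : ℕ, {y : S // y ∈ K (n + j)} := fun j =>
    Nat.rec (motive := fun j => {y : S // y ∈ K (n + j)}) ⟨x, hx⟩
      (fun j y => ⟨next j y.1 y.2, hnext1 j y.1 y.2⟩) j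
  have hz0 : (z 0 : S) = x := rfl
  have hzs : ∀ j, ((z j : S) - (z (j + 1) : S)) ∈ m ^ (n + j + 1) := fun j =>
    hnext2 j (z j).1 (z j).2
  have hcau : ∀ a b, a ≤ b → ((z a : S) - (z b : S)) ∈ m ^ (n + a + 1) := by
    intro a b hab
    induction b, hab using Nat.le_induction with
    | base => simp
    | succ b hab ih =>
      have h1 := hzs b
      have h2 : m ^ (n + b + 1) ≤ m ^ (n + a + 1) := Ideal.pow_le_pow_right (by omega)
      have : (z a : S) - (z (b + 1) : S) = ((z a : S) - (z b : S)) + ((z b : S) - (z (b + 1) : S)) := by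
        ring
      rw [this]
      exact Ideal.add_mem _ ih (h2 h1)
  obtain ⟨L, hL⟩ := IsPrecomplete.prec' (I := m) (fun j => (z j : S)) (by
    intro a b hab
    rw [SModEq.sub_mem, smul_eq_mul, Ideal.mul_top]
    exact Ideal.pow_le_pow_right (by omega) (hcau a b hab))
  have hL' : ∀ j, (z j : S) - L ∈ m ^ j := by
    intro j
    have := hL j
    rw [SModEq.sub_mem, smul_eq_mul, Ideal.mul_top] at this
    exact this
  have hLK : L ∈ ⨅ i, K i := by
    rw [Ideal.mem_iInf]
    intro i
    have h1 : (z (i + 1) : S) ∈ K i := hanti (by omega) (z (i + 1)).2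
    have h2 : (z (i + 1) : S) - L ∈ K i := hpow i (hL' (i + 1))
    have := (K i).sub_mem h1 h2
    simpa using this
  have hxL : x - L ∈ m ^ (n + 1) := by
    have h1 : (z 0 : S) - (z (n + 1) : S) ∈ m ^ (n + 0 + 1) := hcau 0 (n + 1) (by omega)
    have h2 : (z (n + 1) : S) - L ∈ m ^ (n + 1) := hL' (n + 1)
    have : x - L = ((z 0 : S) - (z (n + 1) : S)) + ((z (n + 1) : S) - L) := by
      rw [hz0]; ring
    rw [this]
    exact Ideal.add_mem _ (by simpa using h1) h2
  have : x = L + (x - L) := by ring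
  rw [this]
  exact Submodule.add_mem_sup hLK hxL

end Fermat.Agent.Lib.S53
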