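import Mathlib
import Fermat.Agent.Lib.S53.UnivAdm
import Fermat.Agent.Lib.S53.UnivApprox

/-!
# The tower of minimal admissible ideals and its intersection
-/

set_option autoImplicit false

namespace Fermat.Agent.Lib.S53

open IsLocalRing GaloisRep Function
open Fermat.Agent.Lib.Deform

section Tower

variable {𝒪 : Type} [CommRing 𝒪] [IsLocalRing 𝒪] [IsNoetherianRing 𝒪]
  [Finite (ResidueField 𝒪)] {X : Type}
  {F : ∀ (A : Type) [CommRing A] [IsLocalRing A] [Algebra 𝒪 A], Set (X → A)}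
  {f₀ : X → 𝒪} {T : Finset X}

theorem Adm.mono {n m : ℕ} {K : Ideal (PS 𝒪 T)} (h : Adm F f₀ T n K) (hnm : n ≤ m) :
    Adm F f₀ T m K :=
  ⟨(Ideal.pow_le_pow_right hnm).trans h.1, h.2⟩

/-- The smallest admissible ideal of level `n + 1`. -/
noncomputable def Kmin (H : FunctorHyp 𝒪 X F f₀) (HT : CoordHyp 𝒪 X F T) (n : ℕ) :
    Ideal (PS 𝒪 T) :=
  Classical.choose (exists_min_adm H HT n)

variable (H : FunctorHyp 𝒪 X F f₀) (HT : CoordHyp 𝒪 X F T)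

theorem Kmin_adm (n : ℕ) : Adm F f₀ T (n + 1) (Kmin H HT n) :=
  (Classical.choose_spec (exists_min_adm H HT n)).1

theorem Kmin_le (n : ℕ) {K : Ideal (PS 𝒪 T)} (hK : Adm F f₀ T (n + 1) K) : Kmin H HT n ≤ K :=
  (Classical.choose_spec (exists_min_adm H HT n)).2 K hK

theorem Kmin_ne_top (n : ℕ) : Kmin H HT n ≠ ⊤ := (Kmin_adm H HT n).2.1

theorem Kmin_succ_le (n : ℕ) : Kmin H HT (n + 1) ≤ Kmin H HT n :=
  Kmin_le H HT (n + 1) ((Kmin_adm H HT n).mono (Nat.le_succ _))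

/-- The key relation in the tower. -/
theorem Kmin_eq (n : ℕ) :
    Kmin H HT n = Kmin H HT (n + 1) ⊔ maximalIdeal (PS 𝒪 T) ^ (n + 1) := by
  apply le_antisymm
  · -- the right hand side is admissible of level `n + 1`
    apply Kmin_le
    obtain ⟨hp, hK, f, hf, hc⟩ := Kmin_adm H HT (n + 1)
    have hK' : Kmin H HT (n + 1) ⊔ maximalIdeal (PS 𝒪 T) ^ (n + 1) ≠ ⊤ := by
      intro h
      have h1 : Kmin H HT (n + 1) ⊔ maximalIdeal (PS 𝒪 T) ^ (n + 1) ≤ maximalIdeal (PS 𝒪 T) :=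
        sup_le (le_maximalIdeal hK) (Ideal.pow_le_self n.succ_ne_zero)
      rw [h] at h1
      exact (maximalIdeal.isMaximal (PS 𝒪 T)).ne_top (top_le_iff.mp h1)
    refine ⟨le_sup_right, hK', ?_⟩
    haveI : IsLocalRing (PS 𝒪 T ⧸ Kmin H HT (n + 1)) := isLocalRing_quotient hK
    haveI : IsLocalRing (PS 𝒪 T ⧸ (Kmin H HT (n + 1) ⊔ maximalIdeal (PS 𝒪 T) ^ (n + 1))) :=
      isLocalRing_quotient hK'
    have hA₁ : IsTestAlgebra 𝒪 (PS 𝒪 T ⧸ Kmin H HT (n + 1)) := (isTestAlgebra_PS T).quotient _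
    have hA₂ : IsTestAlgebra 𝒪
        (PS 𝒪 T ⧸ (Kmin H HT (n + 1) ⊔ maximalIdeal (PS 𝒪 T) ^ (n + 1))) :=
      (isTestAlgebra_PS T).quotient _
    haveI : IsArtinianRing (PS 𝒪 T ⧸ Kmin H HT (n + 1)) := isArtinianRing_quotient_of_pow_le hp
    haveI : IsArtinianRing
        (PS 𝒪 T ⧸ (Kmin H HT (n + 1) ⊔ maximalIdeal (PS 𝒪 T) ^ (n + 1))) :=
      isArtinianRing_quotient_of_pow_le (N := n + 1) le_sup_right
    refine ⟨(Ideal.Quotient.factorₐ 𝒪 le_sup_left) ∘ f,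
      H.map _ _ hA₁.artinian hA₂.artinian (Ideal.Quotient.factorₐ 𝒪 le_sup_left) f hf, ?_⟩
    intro c
    rw [comp_apply, hc c, Ideal.Quotient.factorₐ_apply_mk]
  · exact sup_le (Kmin_succ_le H HT n) (Kmin_adm H HT n).1

/-- The intersection of the tower. -/
noncomputable def Jinf : Ideal (PS 𝒪 T) := ⨅ n, Kmin H HT n

theorem Jinf_le (n : ℕ) : Jinf H HT ≤ Kmin H HT n := iInf_le _ n

theorem Jinf_ne_top : Jinf H HT ≠ ⊤ := by
  intro h
  have := Jinf_le H HT 0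
  rw [h] at this
  exact Kmin_ne_top H HT 0 (top_le_iff.mp this)

theorem Jinf_sup_pow [IsAdicComplete (maximalIdeal 𝒪) 𝒪] (n : ℕ) :
    Jinf H HT ⊔ maximalIdeal (PS 𝒪 T) ^ (n + 1) = Kmin H HT n :=
  iInf_sup_pow_eq (maximalIdeal (PS 𝒪 T)) (Kmin H HT) (Kmin_eq H HT) n

end Tower

end Fermat.Agent.Lib.S53
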