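import Mathlib
import Fermat.Prelude.Thm_IsLocalRing_isAdicComplete_of_module_finite
import Fermat.Agent.Lib.S53.UnivTower

/-!
# The universal ring `R = S ⧸ J` and the universal element
-/

set_option autoImplicit false

namespace Fermat.Agent.Lib.S53

open IsLocalRing GaloisRep Function
open Fermat.Agent.Lib.Deform

section Ring

variable {𝒪 : Type} [CommRing 𝒪] [IsLocalRing 𝒪] [IsNoetherianRing 𝒪]
  [IsAdicComplete (maximalIdeal 𝒪) 𝒪] [Finite (ResidueField 𝒪)] {X : Type}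
  {F : ∀ (A : Type) [CommRing A] [IsLocalRing A] [Algebra 𝒪 A], Set (X → A)}
  {f₀ : X → 𝒪} {T : Finset X}
  (H : FunctorHyp 𝒪 X F f₀) (HT : CoordHyp 𝒪 X F T)

/-- The universal ring. -/
abbrev RU : Type := PS 𝒪 T ⧸ Jinf H HT

instance RU.isLocalRing : IsLocalRing (RU H HT) := isLocalRing_quotient (Jinf_ne_top H HT)

theorem RU.isTestAlgebra : IsTestAlgebra 𝒪 (RU H HT) := (isTestAlgebra_PS T).quotient _

instance RU.isLocalHom_algebraMap : IsLocalHom (algebraMap 𝒪 (RU H HT)) :=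
  (RU.isTestAlgebra H HT).isLocalHom

instance RU.isAdicComplete : IsAdicComplete (maximalIdeal (RU H HT)) (RU H HT) := by
  haveI : IsLocalHom (algebraMap (PS 𝒪 T) (RU H HT)) :=
    IsLocalHom.of_surjective _ Ideal.Quotient.mk_surjective
  exact IsLocalRing.isAdicComplete_of_module_finite (𝒪 := PS 𝒪 T) (T := RU H HT)

/-- The local ring structure on the `n`-th layer. -/
instance layer_isLocalRing (n : ℕ) : IsLocalRing (PS 𝒪 T ⧸ Kmin H HT n) :=
  isLocalRing_quotient (Kmin_ne_top H HT n)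

theorem layer_isTestAlgebra (n : ℕ) : IsTestAlgebra 𝒪 (PS 𝒪 T ⧸ Kmin H HT n) :=
  (isTestAlgebra_PS T).quotient _

instance layer_isArtinianRing (n : ℕ) : IsArtinianRing (PS 𝒪 T ⧸ Kmin H HT n) :=
  isArtinianRing_quotient_of_pow_le (Kmin_adm H HT n).1

theorem layer_isArtinianTestAlgebra (n : ℕ) :
    IsArtinianTestAlgebra 𝒪 (PS 𝒪 T ⧸ Kmin H HT n) :=
  (layer_isTestAlgebra H HT n).artinian

theorem layer_pow_eq_bot (n : ℕ) : maximalIdeal (PS 𝒪 T ⧸ Kmin H HT n) ^ (n + 1) = ⊥ :=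
  maximalIdeal_quotient_pow_eq_bot' _ (Kmin_adm H HT n).1

/-- The element of `F` on the `n`-th layer. -/
noncomputable def fn (n : ℕ) : X → PS 𝒪 T ⧸ Kmin H HT n :=
  Classical.choose (Kmin_adm H HT n).2.2

theorem fn_mem (n : ℕ) : fn H HT n ∈ F (PS 𝒪 T ⧸ Kmin H HT n) :=
  (Classical.choose_spec (Kmin_adm H HT n).2.2).1

theorem fn_coord (n : ℕ) (c : {x // x ∈ T}) :
    fn H HT n c = Ideal.Quotient.mk _ (gen f₀ T c) :=
  (Classical.choose_spec (Kmin_adm H HT n).2.2).2 c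

theorem Kmin_antitone : Antitone (Kmin H HT) :=
  antitone_nat_of_succ_le (Kmin_succ_le H HT)

/-- Compatibility of the layers. -/
theorem factor_fn {a b : ℕ} (hab : a ≤ b) (x : X) :
    Ideal.Quotient.factorₐ 𝒪 (Kmin_antitone H HT hab) (fn H HT b x) = fn H HT a x := by
  have h1 : (Ideal.Quotient.factorₐ 𝒪 (Kmin_antitone H HT hab)) ∘ fn H HT b
      ∈ F (PS 𝒪 T ⧸ Kmin H HT a) :=
    H.map _ _ (layer_isArtinianTestAlgebra H HT b) (layer_isArtinianTestAlgebra H HT a) _ _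
      (fn_mem H HT b)
  have := HT.eq_of_eqOn _ (layer_isArtinianTestAlgebra H HT a) _ h1 _ (fn_mem H HT a) (by
    intro c hc
    rw [comp_apply, fn_coord H HT b ⟨c, hc⟩, fn_coord H HT a ⟨c, hc⟩,
      Ideal.Quotient.factorₐ_apply_mk])
  exact congrFun this x

/-- The projection of the universal ring to the `n`-th layer. -/
noncomputable def fac (n : ℕ) : RU H HT →ₐ[𝒪] PS 𝒪 T ⧸ Kmin H HT n :=
  Ideal.Quotient.factorₐ 𝒪 (Jinf_le H HT n)

theorem fac_mk (n : ℕ) (s : PS 𝒪 T) :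
    fac H HT n (Ideal.Quotient.mk _ s) = Ideal.Quotient.mk _ s :=
  Ideal.Quotient.factorₐ_apply_mk 𝒪 _ s

theorem factor_fac {a b : ℕ} (hab : a ≤ b) (r : RU H HT) :
    Ideal.Quotient.factorₐ 𝒪 (Kmin_antitone H HT hab) (fac H HT b r) = fac H HT a r := by
  obtain ⟨s, rfl⟩ := Ideal.Quotient.mk_surjective r
  rw [fac_mk, fac_mk, Ideal.Quotient.factorₐ_apply_mk]

theorem mem_pow_of_fac_eq_zero (n : ℕ) (r : RU H HT) (h : fac H HT n r = 0) :
    r ∈ maximalIdeal (RU H HT) ^ (n + 1) := by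
  obtain ⟨s, rfl⟩ := Ideal.Quotient.mk_surjective r
  rw [fac_mk, Ideal.Quotient.eq_zero_iff_mem, ← Jinf_sup_pow H HT n] at h
  obtain ⟨j, hj, t, ht, rfl⟩ := Submodule.mem_sup.mp h
  rw [map_add, Ideal.Quotient.eq_zero_iff_mem.mpr hj, zero_add,
    ← map_maximalIdeal_of_surjective (Ideal.Quotient.mk (Jinf H HT)) Ideal.Quotient.mk_surjective,
    ← Ideal.map_pow]
  exact Ideal.mem_map_of_mem _ ht

theorem fac_eq_zero_of_mem_pow (n : ℕ) (r : RU H HT)
    (h : r ∈ maximalIdeal (RU H HT) ^ (n + 1)) : fac H HT n r = 0 := by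
  have := pow_le_ker_of_pow_eq_bot (T := T) (layer_isTestAlgebra H HT n) (layer_pow_eq_bot H HT n)
    ((fac H HT n).comp (Ideal.Quotient.mkₐ 𝒪 (Jinf H HT)))
  rw [← map_maximalIdeal_of_surjective (Ideal.Quotient.mk (Jinf H HT))
    Ideal.Quotient.mk_surjective, ← Ideal.map_pow] at h
  obtain ⟨s, hs, rfl⟩ := (Ideal.mem_map_iff_of_surjective _ Ideal.Quotient.mk_surjective).mp h
  exact this hs

theorem eq_of_forall_fac_eq {r r' : RU H HT} (h : ∀ n, fac H HT n r = fac H HT n r') : r = r' := by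
  obtain ⟨s, rfl⟩ := Ideal.Quotient.mk_surjective r
  obtain ⟨s', rfl⟩ := Ideal.Quotient.mk_surjective r'
  rw [Ideal.Quotient.eq]
  show s - s' ∈ ⨅ n, Kmin H HT n
  rw [Ideal.mem_iInf]
  intro n
  have := h n
  rwa [fac_mk, fac_mk, Ideal.Quotient.eq] at this

/-- Existence of the universal element. -/
theorem exists_fR (x : X) : ∃ r : RU H HT, ∀ n, fac H HT n r = fn H HT n x := by
  have hs : ∀ n, ∃ r : RU H HT, fac H HT n r = fn H HT n x := by
    intro n
    obtain ⟨s, hs⟩ := Ideal.Quotient.mk_surjective (fn H HT n x)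
    exact ⟨Ideal.Quotient.mk _ s, by rw [fac_mk, hs]⟩
  choose r hr using hs
  have hfac : ∀ a b, a ≤ b → fac H HT a (r b) = fn H HT a x := by
    intro a b hab
    rw [← factor_fac H HT hab, hr b, factor_fn H HT hab]
  have hcau : ∀ a b, a ≤ b → r a - r b ∈ maximalIdeal (RU H HT) ^ (a + 1) := by
    intro a b hab
    apply mem_pow_of_fac_eq_zero
    rw [map_sub, hr a, hfac a b hab, sub_self]
  obtain ⟨L, hL⟩ := IsPrecomplete.prec' (I := maximalIdeal (RU H HT)) r (by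
    intro a b hab
    rw [SModEq.sub_mem, smul_eq_mul, Ideal.mul_top]
    exact Ideal.pow_le_pow_right (Nat.le_succ a) (hcau a b hab))
  refine ⟨L, fun n => ?_⟩
  have h1 : r (n + 1) - L ∈ maximalIdeal (RU H HT) ^ (n + 1) := by
    have := hL (n + 1)
    rwa [SModEq.sub_mem, smul_eq_mul, Ideal.mul_top] at this
  have h2 := fac_eq_zero_of_mem_pow H HT n _ h1
  rw [map_sub, sub_eq_zero] at h2
  rw [← h2, hfac n (n + 1) (Nat.le_succ n)]

/-- The universal element. -/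
noncomputable def fR (x : X) : RU H HT := Classical.choose (exists_fR H HT x)

theorem fac_fR (n : ℕ) (x : X) : fac H HT n (fR H HT x) = fn H HT n x :=
  Classical.choose_spec (exists_fR H HT x) n

theorem fR_coord (c : {x // x ∈ T}) : fR H HT c = Ideal.Quotient.mk _ (gen f₀ T c) := by
  apply eq_of_forall_fac_eq
  intro n
  rw [fac_fR, fac_mk, fn_coord]

/-- The universal element lies in `F`. -/
theorem fR_mem : fR H HT ∈ F (RU H HT) := by
  rw [H.iff_forall_surjective (RU H HT) inferInstance (RU.isTestAlgebra H HT).residue_surjective]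
  intro B _ _ _ hB q hq
  haveI := hB.isArtinian
  obtain ⟨N, hN⟩ := exists_maximalIdeal_pow_eq_bot B
  have hN' : maximalIdeal B ^ (N + 1) = ⊥ := by
    rw [pow_succ, hN, Ideal.bot_mul]
  have hker : ∀ s ∈ Kmin H HT N, (q.comp (Ideal.Quotient.mkₐ 𝒪 (Jinf H HT))) s = 0 := by
    intro s hs
    rw [← Jinf_sup_pow H HT N] at hs
    obtain ⟨j, hj, t, ht, rfl⟩ := Submodule.mem_sup.mp hs
    have h1 := pow_le_ker_of_pow_eq_bot (T := T) (IsTestAlgebra.of_artinian hB) hN'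
      (q.comp (Ideal.Quotient.mkₐ 𝒪 (Jinf H HT))) ht
    rw [RingHom.mem_ker] at h1
    have h2 : (q.comp (Ideal.Quotient.mkₐ 𝒪 (Jinf H HT))) j = 0 := by
      rw [AlgHom.comp_apply, Ideal.Quotient.mkₐ_eq_mk, Ideal.Quotient.eq_zero_iff_mem.mpr hj,
        map_zero]
    rw [map_add, h2, zero_add]
    exact h1
  let π : PS 𝒪 T ⧸ Kmin H HT N →ₐ[𝒪] B :=
    Ideal.Quotient.liftₐ (Kmin H HT N) (q.comp (Ideal.Quotient.mkₐ 𝒪 (Jinf H HT))) hker
  have hπ : ∀ r, π (fac H HT N r) = q r := by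
    intro r
    obtain ⟨s, rfl⟩ := Ideal.Quotient.mk_surjective r
    rw [fac_mk]
    rfl
  have : q ∘ fR H HT = π ∘ fn H HT N := by
    funext x
    rw [comp_apply, comp_apply, ← fac_fR, hπ]
  rw [this]
  exact H.map _ _ (layer_isArtinianTestAlgebra H HT N) hB π _ (fn_mem H HT N)

end Ring

end Fermat.Agent.Lib.S53
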