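import Mathlib
import Fermat.Agent.Lib.S53.UnivRing

/-!
# The universal property of `(R, f_R)`
-/

set_option autoImplicit false

namespace Fermat.Agent.Lib.S53

open IsLocalRing GaloisRep Function
open Fermat.Agent.Lib.Deform

section UniversalProperty

variable {𝒪 : Type} [CommRing 𝒪] [IsLocalRing 𝒪] [IsNoetherianRing 𝒪]
  [IsAdicComplete (maximalIdeal 𝒪) 𝒪] [Finite (ResidueField 𝒪)] {X : Type}
  {F : ∀ (A : Type) [CommRing A] [IsLocalRing A] [Algebra 𝒪 A], Set (X → A)}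
  {f₀ : X → 𝒪} {T : Finset X}
  (H : FunctorHyp 𝒪 X F f₀) (HT : CoordHyp 𝒪 X F T)

variable {A : Type} [CommRing A] [IsLocalRing A] [IsNoetherianRing A]
  [IsAdicComplete (maximalIdeal A) A] [Algebra 𝒪 A]

theorem eq_of_forall_mk_pow_eq {a b : A}
    (h : ∀ n : ℕ, Ideal.Quotient.mk (maximalIdeal A ^ (n + 1)) a
      = Ideal.Quotient.mk (maximalIdeal A ^ (n + 1)) b) : a = b := by
  refine eq_of_forall_sub_mem_pow (maximalIdeal A) fun n => ?_
  have := h n
  rw [Ideal.Quotient.eq] at this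
  exact Ideal.pow_le_pow_right (Nat.le_succ n) this

/-- The evaluation homomorphism from the power series ring attached to an element of `F A`. -/
noncomputable def evalOf (f : X → A) (hf : f ∈ F A) : PS 𝒪 T →ₐ[𝒪] A :=
  evalHom (maximalIdeal A) (fun c : {x // x ∈ T} => f c - algebraMap 𝒪 A (f₀ c))
    (fun c => H.res A f hf c)

theorem evalOf_X (f : X → A) (hf : f ∈ F A) (c : {x // x ∈ T}) :
    evalOf H (T := T) f hf (MvPowerSeries.X c) = f c - algebraMap 𝒪 A (f₀ c) :=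
  evalHom_X _ _ _ c

theorem evalOf_gen (f : X → A) (hf : f ∈ F A) (c : {x // x ∈ T}) :
    evalOf H (T := T) f hf (gen f₀ T c) = f c := by
  rw [gen, map_add, evalOf_X, AlgHom.commutes]
  ring

variable (hA : IsLocalHom (algebraMap 𝒪 A)) (hs : Surjective (residue A ∘ algebraMap 𝒪 A))

include hA hs in
/-- The layers of the universal ring map to the Artinian quotients of `A`. -/
theorem layer_key (f : X → A) (hf : f ∈ F A) (n : ℕ) :
    Kmin H HT n ≤ RingHom.ker ((Ideal.Quotient.mkₐ 𝒪 (maximalIdeal A ^ (n + 1))).comp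
      (evalOf H (T := T) f hf)) ∧
    ∀ (s : PS 𝒪 T) (x : X), Ideal.Quotient.mk (Kmin H HT n) s = fn H HT n x →
      Ideal.Quotient.mk (maximalIdeal A ^ (n + 1)) (evalOf H (T := T) f hf s)
        = Ideal.Quotient.mk (maximalIdeal A ^ (n + 1)) (f x) := by
  have hAt : IsTestAlgebra 𝒪 A := ⟨hA, hs⟩
  haveI : IsLocalRing (A ⧸ maximalIdeal A ^ (n + 1)) :=
    isLocalRing_quotient (maximalIdeal_pow_ne_top A n)
  have hBt : IsTestAlgebra 𝒪 (A ⧸ maximalIdeal A ^ (n + 1)) := hAt.quotient _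
  haveI : IsArtinianRing (A ⧸ maximalIdeal A ^ (n + 1)) :=
    isArtinianRing_quotient_of_pow_le le_rfl
  have hB : IsArtinianTestAlgebra 𝒪 (A ⧸ maximalIdeal A ^ (n + 1)) := hBt.artinian
  have hfn : (Ideal.Quotient.mkₐ 𝒪 (maximalIdeal A ^ (n + 1))) ∘ f
      ∈ F (A ⧸ maximalIdeal A ^ (n + 1)) :=
    (H.iff_forall_surjective A hA hs f).mp hf _ hB _ (Ideal.Quotient.mkₐ_surjective 𝒪 _)
  set θn := (Ideal.Quotient.mkₐ 𝒪 (maximalIdeal A ^ (n + 1))).comp (evalOf H (T := T) f hf)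
    with hθn
  have hθc : ∀ c : {x // x ∈ T}, θn (gen f₀ T c)
      = ((Ideal.Quotient.mkₐ 𝒪 (maximalIdeal A ^ (n + 1))) ∘ f) c := by
    intro c
    rw [hθn, AlgHom.comp_apply, evalOf_gen, comp_apply]
  have hadm := adm_ker H HT hB (maximalIdeal_quotient_pow_eq_bot' _ le_rfl) hfn θn hθc
  have hle := Kmin_le H HT n hadm
  refine ⟨hle, fun s x hsx => ?_⟩
  let ψ : PS 𝒪 T ⧸ Kmin H HT n →ₐ[𝒪] A ⧸ maximalIdeal A ^ (n + 1) :=
    Ideal.Quotient.liftₐ (Kmin H HT n) θn (fun a ha => hle ha)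
  have h1 : ψ ∘ fn H HT n ∈ F (A ⧸ maximalIdeal A ^ (n + 1)) :=
    H.map _ _ (layer_isArtinianTestAlgebra H HT n) hB ψ _ (fn_mem H HT n)
  have h2 := HT.eq_of_eqOn _ hB _ h1 _ hfn (by
    intro c hc
    rw [comp_apply, fn_coord H HT n ⟨c, hc⟩]
    exact hθc ⟨c, hc⟩)
  have h3 := congrFun h2 x
  rw [comp_apply, ← hsx] at h3
  exact h3

include hA hs in
theorem Jinf_le_ker (f : X → A) (hf : f ∈ F A) :
    Jinf H HT ≤ RingHom.ker (evalOf H (T := T) f hf) := by
  intro s hs'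
  rw [RingHom.mem_ker]
  apply eq_of_forall_mk_pow_eq
  intro n
  have h1 := (layer_key H HT hA hs f hf n).1 (Jinf_le H HT n hs')
  rw [RingHom.mem_ker, AlgHom.comp_apply, Ideal.Quotient.mkₐ_eq_mk] at h1
  rw [h1, map_zero]

/-- The homomorphism from the universal ring attached to an element of `F A`. -/
noncomputable def univHom (f : X → A) (hf : f ∈ F A) : RU H HT →ₐ[𝒪] A :=
  Ideal.Quotient.liftₐ (Jinf H HT) (evalOf H (T := T) f hf)
    (fun a ha => Jinf_le_ker H HT hA hs f hf ha)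

theorem univHom_mk (f : X → A) (hf : f ∈ F A) (s : PS 𝒪 T) :
    univHom H HT hA hs f hf (Ideal.Quotient.mk _ s) = evalOf H (T := T) f hf s := rfl

theorem univHom_fR (f : X → A) (hf : f ∈ F A) (x : X) :
    univHom H HT hA hs f hf (fR H HT x) = f x := by
  obtain ⟨s, hs'⟩ := Ideal.Quotient.mk_surjective (fR H HT x)
  rw [← hs', univHom_mk]
  apply eq_of_forall_mk_pow_eq
  intro n
  refine (layer_key H HT hA hs f hf n).2 s x ?_
  rw [← fac_fR, ← hs', fac_mk]

theorem univHom_unique (f : X → A) (hf : f ∈ F A) (φ : RU H HT →ₐ[𝒪] A)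
    (hφ : φ ∘ fR H HT = f) : φ = univHom H HT hA hs f hf := by
  have hX : ∀ c : {x // x ∈ T}, φ (Ideal.Quotient.mk _ (MvPowerSeries.X c))
      = f c - algebraMap 𝒪 A (f₀ c) := by
    intro c
    have h1 : φ (Ideal.Quotient.mk _ (gen f₀ T c)) = f c := by
      rw [← fR_coord, ← hφ, comp_apply]
    rw [gen, map_add, map_add] at h1
    have h2 : φ (Ideal.Quotient.mk (Jinf H HT) (algebraMap 𝒪 (PS 𝒪 T) (f₀ c)))
        = algebraMap 𝒪 A (f₀ c) := by
      have : Ideal.Quotient.mk (Jinf H HT) (algebraMap 𝒪 (PS 𝒪 T) (f₀ c))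
          = algebraMap 𝒪 (RU H HT) (f₀ c) := rfl
      rw [this, AlgHom.commutes]
    rw [h2] at h1
    rw [← h1]; ring
  have hcomp : φ.comp (Ideal.Quotient.mkₐ 𝒪 (Jinf H HT)) = evalOf H (T := T) f hf := by
    refine algHom_ext_of_X (maximalIdeal A) (fun c => ?_) (fun c => ?_)
    · rw [AlgHom.comp_apply, Ideal.Quotient.mkₐ_eq_mk, hX]
      exact H.res A f hf c
    · rw [AlgHom.comp_apply, Ideal.Quotient.mkₐ_eq_mk, hX, evalOf_X]
  refine AlgHom.ext fun r => ?_
  obtain ⟨s, rfl⟩ := Ideal.Quotient.mk_surjective r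
  rw [univHom_mk, ← hcomp]
  rfl

end UniversalProperty

section Final

variable {𝒪 : Type} [CommRing 𝒪] [IsLocalRing 𝒪] [IsNoetherianRing 𝒪]
  [IsAdicComplete (maximalIdeal 𝒪) 𝒪] [Finite (ResidueField 𝒪)] {X : Type}
  {F : ∀ (A : Type) [CommRing A] [IsLocalRing A] [Algebra 𝒪 A], Set (X → A)}
  {f₀ : X → 𝒪} {T : Finset X}

/-- Abstract pro-representability, given a finite separating set of coordinates. -/
theorem exists_universal_of_coord (H : FunctorHyp 𝒪 X F f₀) (HT : CoordHyp 𝒪 X F T) :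
    ∃ (R : Type) (_ : CommRing R) (_ : IsLocalRing R) (_ : IsNoetherianRing R)
      (_ : IsAdicComplete (maximalIdeal R) R) (_ : Algebra 𝒪 R)
      (_ : IsLocalHom (algebraMap 𝒪 R)),
      Surjective (residue R ∘ algebraMap 𝒪 R) ∧
      ∃ fR ∈ F R, ∀ (A : Type) [CommRing A] [IsLocalRing A] [IsNoetherianRing A]
        [IsAdicComplete (maximalIdeal A) A] [Algebra 𝒪 A] [IsLocalHom (algebraMap 𝒪 A)],
        Surjective (residue A ∘ algebraMap 𝒪 A) → ∀ f ∈ F A,
          ∃! φ : R →ₐ[𝒪] A, (φ ∘ fR) = f := by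
  refine ⟨RU H HT, inferInstance, inferInstance, inferInstance, inferInstance, inferInstance,
    inferInstance, (RU.isTestAlgebra H HT).residue_surjective, fR H HT, fR_mem H HT, ?_⟩
  intro A _ _ _ _ _ hA hs f hf
  refine ⟨univHom H HT hA hs f hf, ?_, fun φ hφ => univHom_unique H HT hA hs f hf φ hφ⟩
  funext x
  exact univHom_fR H HT hA hs f hf x

end Final

end Fermat.Agent.Lib.S53
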