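import Mathlib
import Fermat.Agent.Lib.Deform.KeyLemmas
import Fermat.Agent.Lib.S53.UnivProp
import Fermat.Agent.Lib.S53.Assembly

/-!
# The abstract pro-representability theorem, and the existence of the universal deformation ring
-/

set_option autoImplicit false

namespace Fermat.Agent.Lib.S53

open IsLocalRing GaloisRep Function
open Fermat.Agent.Lib.Deform

/-- The abstract pro-representability theorem. -/
theorem universalStatement (𝒪 : Type) [CommRing 𝒪] [IsDomain 𝒪] [IsDiscreteValuationRing 𝒪]
    [IsAdicComplete (maximalIdeal 𝒪) 𝒪] [Finite (ResidueField 𝒪)] : UniversalStatement 𝒪 := by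
  intro X F f₀ hres hk hmap hinj hfib hcont hfin
  obtain ⟨T, hA, hB⟩ := Key.exists_finset_key hres hmap hinj hfib hfin
  exact exists_universal_of_coord (T := T) ⟨hres, hk, hmap, hinj, hfib, hcont⟩ ⟨hA, hB⟩

end Fermat.Agent.Lib.S53
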